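import Fermat.Agent.GAL.KLC.Main

/-!
# MR / A : duality.  A series `w ∈ q k[[q]]` orthogonal (for the constant term pairing) to the reduced
affine ring `R' = {φ ∈ F̄ | φ integral over k[ξ]}` is a linear combination of the reductions of the cusp
forms of weight 2.
-/

set_option autoImplicit false

open Polynomial

noncomputable section

namespace Fermat.Agent.MR.A

open Fermat.Agent.GR Fermat.Agent.GAL Fermat.Agent.GAL.KL Fermat.Agent.GAL.KLB Fermat.Agent.GAL.KLC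

section Abstract

variable {K F k Γ₀ : Type*} [Field K] [Field F] [Algebra K F] [Field k]
  [LinearOrderedCommGroupWithZero Γ₀] {v : Valuation F Γ₀} {ρ : v.integer →+* LaurentSeries k}

/-- **REG, abstract form.** -/
theorem mem_span_of_ct [IsAlgClosed K] [CharZero K] (hρ : IsRed K v ρ) {x x' : F}
    (hx : x ∈ v.integer) (hx' : x' ∈ v.integer) {m : ℕ} (hm : 0 < m)
    (hxo : (ρ ⟨x, hx⟩).order = -(m : ℤ)) (hxo' : (ρ ⟨x', hx'⟩).order = -(m : ℤ) + 1)
    (hSp : Spans K x (fun i : Fin m => x' ^ (i : ℕ))) {g : ℕ}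
    (hRI : ∀ a : ℕ, ((a * m + 1 : ℕ) : ℤ) - g ≤ Module.finrank K (LL K x a))
    (f : Fin g → LaurentSeries k) (hf : LinearIndependent k f) (hf0 : ∀ j, 0 < (f j).order)
    (hb2 : ∀ z : v.integer, IsInt k (ρ ⟨x, hx⟩) (ρ z) → ∀ j, (ρ z * f j).coeff 0 = 0)
    (w : LaurentSeries k) (hw0 : 0 < w.order)
    (hw : ∀ z : v.integer, IsInt k (ρ ⟨x, hx⟩) (ρ z) → (ρ z * w).coeff 0 = 0) :
    w ∈ Submodule.span k (Set.range f) := by
  by_contra hcon
  have hli : LinearIndependent k (Fin.cons w f : Fin (g + 1) → LaurentSeries k) :=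
    linearIndependent_finCons.mpr ⟨hf, hcon⟩
  have hf0' : ∀ j, 0 < ((Fin.cons w f : Fin (g + 1) → LaurentSeries k) j).order := by
    intro j
    refine Fin.cases ?_ (fun i => ?_) j
    · simpa using hw0
    · simpa using hf0 i
  have hG : Gauss K v x := gauss_of_isRed hρ hx (by rw [hxo]; omega)
  have hON := on_of_isRed hρ hx hx' hm hxo hxo'
  obtain ⟨a₀, ha₀⟩ := exists_redW_LL_eq hρ hx hx' hm hxo hxo' hSp hRI f hf hf0 hb2
  obtain ⟨s₀, hs₀⟩ := exists_trunc_linearIndependent _ hli hf0'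
  set a := max a₀ s₀ with ha
  have ha1 : s₀ ≤ a * m := le_trans (le_max_right _ _) (Nat.le_mul_of_pos_right a hm)
  have hB := finrank_le_of_ct (Bbar hρ (ρ ⟨x, hx⟩) a) (a * m) (g + 1)
    (fun φ hφ => coeff_eq_zero_of_isInt_inv hxo hm a hφ.1.2) _ hf0' (hs₀ _ ha1)
    (by
      rintro _ ⟨⟨h1, -⟩, z, rfl⟩ h0
      exact b1_of_isRed hρ hx hx' hm hxo hxo' hG hON hSp z h1 h0)
    (by
      rintro _ ⟨⟨h1, -⟩, z, rfl⟩ j
      refine Fin.cases ?_ (fun i => ?_) j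
      · simpa using hw z h1
      · simpa using hb2 z h1 i)
  have h2 := (ha₀ a (le_max_left _ _)).2.2.1
  have h3 := hB.2
  omega

/-- the same with explicit coefficients. -/
theorem exists_eq_sum_of_ct [IsAlgClosed K] [CharZero K] (hρ : IsRed K v ρ) {x x' : F}
    (hx : x ∈ v.integer) (hx' : x' ∈ v.integer) {m : ℕ} (hm : 0 < m)
    (hxo : (ρ ⟨x, hx⟩).order = -(m : ℤ)) (hxo' : (ρ ⟨x', hx'⟩).order = -(m : ℤ) + 1)
    (hSp : Spans K x (fun i : Fin m => x' ^ (i : ℕ))) {g : ℕ}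
    (hRI : ∀ a : ℕ, ((a * m + 1 : ℕ) : ℤ) - g ≤ Module.finrank K (LL K x a))
    (f : Fin g → LaurentSeries k) (hf : LinearIndependent k f) (hf0 : ∀ j, 0 < (f j).order)
    (hb2 : ∀ z : v.integer, IsInt k (ρ ⟨x, hx⟩) (ρ z) → ∀ j, (ρ z * f j).coeff 0 = 0)
    (w : LaurentSeries k) (hw0 : 0 < w.order)
    (hw : ∀ z : v.integer, IsInt k (ρ ⟨x, hx⟩) (ρ z) → (ρ z * w).coeff 0 = 0) :
    ∃ c : Fin g → k, w = ∑ j, HahnSeries.C (c j) * f j := by
  have h := mem_span_of_ct hρ hx hx' hm hxo hxo' hSp hRI f hf hf0 hb2 w hw0 hw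
  obtain ⟨c, hc⟩ := (Submodule.mem_span_range_iff_exists_fun k).mp h
  refine ⟨c, ?_⟩
  rw [← hc]
  exact Finset.sum_congr rfl fun j _ => (HahnSeries.C_mul_eq_smul).symm

end Abstract

/-- **REG at level `M`** (`ℓ ∤ M`): a series `w ∈ q k[[q]]` orthogonal to the reduced affine ring
`R' = {φ ∈ F̄_M | φ integral over k[x̄]}` is a `k`-linear combination of reductions of cusp forms of
weight 2 and level `M` with integral coefficients. -/
theorem reg_of_ct (M ℓ : ℕ) [NeZero M] (hM : AdmLevel M) (hℓ : ℓ.Prime) (hℓM : ¬ ℓ ∣ M)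
    (A : ValuationSubring Qb) (hA : A.LiesOverPrime ℓ) (w : LaurentSeries (kA A))
    (hw0 : 0 < w.order)
    (hw : ∀ (z : LaurentSeries Qb) (_ : z ∈ FL Qb M) (φ : LaurentSeries (kA A)) (_ : HasRed A z φ)
      (_ : IsInt (kA A) (xR (kA A) M) φ), (φ * w).coeff 0 = 0) :
    ∃ (fZ : Fin (Module.finrank ℂ (CuspForm (CongruenceSubgroup.Gamma0 M) 2)) → PowerSeries ℤ)
      (c : Fin (Module.finrank ℂ (CuspForm (CongruenceSubgroup.Gamma0 M) 2)) → kA A),
      (∀ j, IsCuspExp M (fZ j)) ∧ (∀ j, PowerSeries.constantCoeff (fZ j) = 0) ∧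
      w = ∑ j, HahnSeries.C (c j) * psR (kA A) (fZ j) := by
  have : CharP (kA A) ℓ := charP_residueField hℓ hA
  obtain ⟨fZ, hfc, hf0, hfi⟩ := exists_cusp_basis M ℓ hℓ (kA A)
  have hCT := ctStatement M ℓ hM hℓ hℓM A hA
  obtain ⟨c, hc⟩ := exists_eq_sum_of_ct (isRed A M) (xF_mem_integer M A) (xF'_mem_integer M A)
    (mX_pos M) (order_rho_xF M A) (order_rho_xF' M A) (spansStatement M) (riStatement M)
    (fun j => psR (kA A) (fZ j)) hfi (fun j => order_psR_pos _ (hf0 j) (hfi.ne_zero j))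
    (fun z hz j => hCT _ (z : FL Qb M).2 _ (hasRed_rho A M z)
      (by rw [rho_xF] at hz; exact hz) _ (hfc j)) w hw0
    (fun z hz => hw _ (z : FL Qb M).2 _ (hasRed_rho A M z) (by rw [rho_xF] at hz; exact hz))
  exact ⟨fZ, c, hfc, hf0, hc⟩

end Fermat.Agent.MR.A
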