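import Fermat.Agent.MR.A.Defs
import Fermat.Agent.GAL.KLC.Main

/-!
# MR / A : the reduced affine ring `R' = Rb A M` of level `M` at `A ∣ ℓ`, `ℓ ∤ M`, and the space
`S2b k M` of reductions of cusp forms.  `Rb A M` satisfies `IsAff` with `g = dim S₂(Γ₀(M))`.
-/

set_option autoImplicit false

open ModularCurve AlgebraicCurve Polynomial

noncomputable section

namespace Fermat.Agent.MR.A

open Fermat.Agent.GR Fermat.Agent.GAL Fermat.Agent.GAL.KL Fermat.Agent.GAL.KLB Fermat.Agent.GAL.KLC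

/-- the residue field of the Gauss valuation of level `M`, inside `k((q))`. -/
abbrev Fb (A : ValuationSubring Qb) (M : ℕ) : IntermediateField (kA A) (LaurentSeries (kA A)) :=
  CTV.Fbar (isRed A M)

theorem mem_Fb {A : ValuationSubring Qb} {M : ℕ} {φ : LaurentSeries (kA A)} :
    φ ∈ Fb A M ↔ ∃ z ∈ FL Qb M, HasRed A z φ := by
  constructor
  · rintro ⟨z, rfl⟩
    exact ⟨_, (z : FL Qb M).2, hasRed_rho A M z⟩
  · rintro ⟨z, hz, h⟩
    exact ⟨⟨⟨z, hz⟩, (mem_integer_iff A M).mpr ⟨φ, h⟩⟩, rho_eq_of_hasRed A M h⟩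

/-- the reduced affine ring: elements of the residue field which are integral over `k[x̄]`
(= regular outside the cusp `∞`). -/
def Rb (A : ValuationSubring Qb) (M : ℕ) : Subring (LaurentSeries (kA A)) where
  carrier := {φ | φ ∈ Fb A M ∧ IsInt (kA A) (xR (kA A) M) φ}
  mul_mem' := fun ha hb => ⟨mul_mem ha.1 hb.1, ha.2.mul hb.2⟩
  one_mem' := ⟨one_mem _, IsInt.one⟩
  add_mem' := fun ha hb => ⟨add_mem ha.1 hb.1, ha.2.add hb.2⟩
  zero_mem' := ⟨zero_mem _, IsInt.zero⟩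
  neg_mem' := fun ha => ⟨neg_mem ha.1, ha.2.neg⟩

theorem mem_Rb {A : ValuationSubring Qb} {M : ℕ} {φ : LaurentSeries (kA A)} :
    φ ∈ Rb A M ↔ φ ∈ Fb A M ∧ IsInt (kA A) (xR (kA A) M) φ := Iff.rfl

/-- the `k`-span of the reductions of the cusp forms of weight 2 and level `M` with integral
`q`-expansion. -/
def S2b (k : Type*) [Field k] (M : ℕ) : Submodule k (LaurentSeries k) :=
  Submodule.span k {φ | ∃ fZ : PowerSeries ℤ, IsCuspExp M fZ ∧ φ = psR k fZ}

theorem C_mem_Rb (A : ValuationSubring Qb) (M : ℕ) (c : kA A) : HahnSeries.C c ∈ Rb A M := by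
  have e : (HahnSeries.C c : LaurentSeries (kA A)) = algebraMap (kA A) (LaurentSeries (kA A)) c :=
    (Fermat.Agent.GAL.CT.theta_algebraMap_eq_C c).symm
  rw [e]
  exact ⟨(Fb A M).algebraMap_mem c, IsInt.algebraMap c⟩

/-- **the reduced affine ring satisfies the Riemann count.** -/
theorem isAff_Rb (M ℓ : ℕ) [NeZero M] (hM : AdmLevel M) (hℓ : ℓ.Prime) (hℓM : ¬ ℓ ∣ M)
    (A : ValuationSubring Qb) (hA : A.LiesOverPrime ℓ) :
    IsAff (Rb A M) (Module.finrank ℂ (CuspForm (CongruenceSubgroup.Gamma0 M) 2)) := by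
  have : CharP (kA A) ℓ := charP_residueField hℓ hA
  obtain ⟨fZ, hfc, hf0, hfi⟩ := exists_cusp_basis M ℓ hℓ (kA A)
  have hCT := ctStatement M ℓ hM hℓ hℓM A hA
  have hG : Gauss Qb (vG A M) (xF M) := gauss_xF M A
  have hON := on_xF M A
  refine ⟨C_mem_Rb A M, ?_, ?_⟩
  · rintro φ ⟨⟨z, rfl⟩, h2⟩ h0
    exact b1_of_isRed (isRed A M) (xF_mem_integer M A) (xF'_mem_integer M A) (mX_pos M)
      (order_rho_xF M A) (order_rho_xF' M A) hG hON (spansStatement M) z
      (by rw [rho_xF]; exact h2) h0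
  · intro n₀
    obtain ⟨a₀, ha₀⟩ := exists_redW_LL_eq (isRed A M) (xF_mem_integer M A) (xF'_mem_integer M A)
      (mX_pos M) (order_rho_xF M A) (order_rho_xF' M A) (spansStatement M) (riStatement M)
      (fun j => psR (kA A) (fZ j)) hfi (fun j => order_psR_pos _ (hf0 j) (hfi.ne_zero j))
      (fun z hz j => hCT _ (z : FL Qb M).2 _ (hasRed_rho A M z)
        (by rw [rho_xF] at hz; exact hz) _ (hfc j))
    set a := max a₀ n₀ with ha
    obtain ⟨-, h2, h3, -⟩ := ha₀ a (le_max_left _ _)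
    refine ⟨a * mX M, le_trans (le_max_right _ _) (Nat.le_mul_of_pos_right a (mX_pos M)),
      Bbar (isRed A M) (rho A M ⟨xF M, xF_mem_integer M A⟩) a, ?_, ?_, h2, h3.ge⟩
    · rintro φ ⟨⟨h1, -⟩, z, rfl⟩
      exact ⟨⟨z, rfl⟩, by rw [rho_xF] at h1; exact h1⟩
    · rintro φ ⟨⟨-, h1⟩, -⟩
      exact coeff_eq_zero_of_isInt_inv (order_rho_xF M A) (mX_pos M) a h1

end Fermat.Agent.MR.A
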