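import Fermat.Agent.GAL.CT.Defs

/-!
# MR / A : the residue theorem for an affine curve with one point at infinity (characteristic free)

`k` a field, `R ⊆ k((Q))` a subring containing the constants such that
* (h1) an element of `R` all of whose coefficients of index `≤ 0` vanish is `0`;
* (h2) for all `n ≥ n₀` there is an element `Q^{-n} + (higher terms)` in `R`.

Then `CT (φ · θ a) = 0` for all `φ, a ∈ R` (`θ = Q d/dQ`).

PROOF.  Truncated trace of the commutator of the two commuting operators "multiplication by `φ`", "multiplication by `a`" on `R`.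
-/

set_option autoImplicit false

noncomputable section

namespace Fermat.Agent.MR.A

open HahnSeries Fermat.Agent.GAL

variable {k : Type*} [Field k]

/-! ## combinatorics -/

theorem resAff_sum_add (N : ℕ) (h : ℕ → k) (hh : ∀ m, N ≤ m → h m = 0) :
    ∑ i ∈ Finset.range N, ∑ j ∈ Finset.range N, h (i + j) =
      ∑ m ∈ Finset.range N, ((m : k) + 1) * h m := by
  have h1 : ∀ i ∈ Finset.range N, ∑ j ∈ Finset.range N, h (i + j) = ∑ m ∈ Finset.Ico i N, h m := by
    intro i hi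
    rw [Finset.sum_Ico_eq_sum_range]
    symm
    apply Finset.sum_subset
    · intro j hj
      rw [Finset.mem_range] at hj ⊢
      omega
    · intro j _ hj
      rw [Finset.mem_range] at hj
      exact hh _ (by omega)
  rw [Finset.sum_congr rfl h1, Finset.range_eq_Ico, Finset.sum_Ico_Ico_comm]
  refine Finset.sum_congr rfl fun m _ => ?_
  rw [Finset.sum_const, Nat.card_Ico, nsmul_eq_mul]
  push_cast
  ring

theorem resAff_comb (N : ℕ) (G : ℤ → k) (hG : ∀ d : ℤ, (N : ℤ) < d → G d = 0)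
    (hG' : ∀ d : ℤ, d < -(N : ℤ) → G d = 0) :
    ∑ i ∈ Finset.range N, ∑ j ∈ Finset.range (N + N), (G ((j : ℤ) - i) - G ((i : ℤ) - j)) =
      ∑ m ∈ Finset.range N, ((m : k) + 1) * (G ((m : ℤ) + 1) - G (-((m : ℤ) + 1))) := by
  have h1 : ∀ i ∈ Finset.range N,
      ∑ j ∈ Finset.range (N + N), (G ((j : ℤ) - i) - G ((i : ℤ) - j)) =
      ∑ j ∈ Finset.range N, (G ((j : ℤ) - i) - G ((i : ℤ) - j)) +
      ∑ j ∈ Finset.range N, (G (((N + j : ℕ) : ℤ) - i) - G ((i : ℤ) - ((N + j : ℕ) : ℤ))) :=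
    fun i _ => Finset.sum_range_add _ _ _
  rw [Finset.sum_congr rfl h1, Finset.sum_add_distrib]
  have h2 : ∑ i ∈ Finset.range N, ∑ j ∈ Finset.range N, (G ((j : ℤ) - i) - G ((i : ℤ) - j)) = 0 := by
    simp only [Finset.sum_sub_distrib]
    rw [sub_eq_zero]
    exact Finset.sum_comm
  rw [h2, zero_add, ← Finset.sum_range_reflect]
  rw [← resAff_sum_add N (fun m => G ((m : ℤ) + 1) - G (-((m : ℤ) + 1)))
    (fun m hm => by rw [hG _ (by omega), hG' _ (by omega), sub_zero])]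
  refine Finset.sum_congr rfl fun i hi => Finset.sum_congr rfl fun j _ => ?_
  rw [Finset.mem_range] at hi
  have e1 : ((N + j : ℕ) : ℤ) - ((N - 1 - i : ℕ) : ℤ) = ((i + j : ℕ) : ℤ) + 1 := by
    have : ((N - 1 - i : ℕ) : ℤ) = (N : ℤ) - 1 - i := by omega
    rw [this]; push_cast; ring
  have e2 : ((N - 1 - i : ℕ) : ℤ) - ((N + j : ℕ) : ℤ) = -(((i + j : ℕ) : ℤ) + 1) := by
    rw [← e1]; ring
  rw [e1, e2]

/-! ## coefficients of products -/

theorem resAff_coeff_mul (x y : LaurentSeries k) (m : ℤ) (s : Finset ℤ)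
    (hs : ∀ d : ℤ, x.coeff (m - d) ≠ 0 → y.coeff d ≠ 0 → d ∈ s) :
    (x * y).coeff m = ∑ d ∈ s, x.coeff (m - d) * y.coeff d := by
  rw [HahnSeries.coeff_mul]
  refine Finset.sum_bij_ne_zero (fun ij _ _ => ij.2) ?_ ?_ ?_ ?_
  · intro ij h1 _
    rw [Finset.mem_antidiagonal] at h1
    obtain ⟨hx, hy, hxy⟩ := h1
    refine hs _ ?_ hy
    have : m - ij.2 = ij.1 := by rw [← hxy]; ring
    rw [this]; exact hx
  · intro ij h1 _ ij' h1' _ h
    rw [Finset.mem_antidiagonal] at h1 h1'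
    have e1 := h1.2.2
    have e2 := h1'.2.2
    have h' : ij.2 = ij'.2 := h
    ext
    · omega
    · exact h'
  · intro d _ hd
    have hx : x.coeff (m - d) ≠ 0 := left_ne_zero_of_mul hd
    have hy : y.coeff d ≠ 0 := right_ne_zero_of_mul hd
    refine ⟨(m - d, d), ?_, hd, rfl⟩
    rw [Finset.mem_antidiagonal]
    exact ⟨hx, hy, by simp⟩
  · intro ij h1 _
    rw [Finset.mem_antidiagonal] at h1
    have : m - ij.2 = ij.1 := by rw [← h1.2.2]; ring
    rw [this]

theorem resAff_coeff_mul_eq_zero (x y : LaurentSeries k) (m : ℤ)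
    (h : ∀ d : ℤ, x.coeff (m - d) = 0 ∨ y.coeff d = 0) : (x * y).coeff m = 0 := by
  rw [resAff_coeff_mul x y m ∅ (fun d h1 h2 => ((h d).elim h1 h2).elim), Finset.sum_empty]

theorem resAff_sum_Icc (N : ℕ) (F : ℤ → k) :
    ∑ d ∈ Finset.Icc (-(N : ℤ)) N, F d =
      F 0 + ∑ m ∈ Finset.range N, (F ((m : ℤ) + 1) + F (-((m : ℤ) + 1))) := by
  induction N with
  | zero => simp
  | succ N ih =>
    have h1 : Finset.Icc (-((N + 1 : ℕ) : ℤ)) ((N + 1 : ℕ) : ℤ) =
        insert ((N : ℤ) + 1) (insert (-((N : ℤ) + 1)) (Finset.Icc (-(N : ℤ)) N)) := by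
      ext d
      simp only [Finset.mem_Icc, Finset.mem_insert]
      push_cast
      omega
    rw [h1, Finset.sum_insert, Finset.sum_insert, ih, Finset.sum_range_succ]
    · ring
    · simp only [Finset.mem_Icc]; omega
    · simp only [Finset.mem_Icc, Finset.mem_insert]; omega

/-- the constant term of `φ θa` as a finite sum. -/
theorem resAff_ct (φ a : LaurentSeries k) (N : ℕ) (hφ : ∀ i : ℤ, i < -(N : ℤ) → φ.coeff i = 0)
    (ha : ∀ i : ℤ, i < -(N : ℤ) → a.coeff i = 0) :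
    (φ * CT.theta a).coeff 0 = ∑ m ∈ Finset.range N, ((m : k) + 1) *
      (φ.coeff (-((m : ℤ) + 1)) * a.coeff ((m : ℤ) + 1) -
        φ.coeff (-(-((m : ℤ) + 1))) * a.coeff (-((m : ℤ) + 1))) := by
  rw [resAff_coeff_mul φ (CT.theta a) 0 (Finset.Icc (-(N : ℤ)) N), resAff_sum_Icc]
  · simp only [CT.theta_coeff]
    rw [Int.cast_zero, zero_mul, mul_zero, zero_add]
    refine Finset.sum_congr rfl fun m _ => ?_
    push_cast
    simp only [zero_sub]
    ring
  · intro d h1 h2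
    rw [Finset.mem_Icc]
    constructor
    · by_contra h
      apply h2
      rw [CT.theta_coeff, ha d (by omega), mul_zero]
    · by_contra h
      exact h1 (hφ _ (by omega))

/-! ## echelon elements -/

theorem resAff_coeff_C_mul (c : k) (x : LaurentSeries k) (i : ℤ) :
    (HahnSeries.C c * x).coeff i = c * x.coeff i := by
  rw [HahnSeries.C_mul_eq_smul, HahnSeries.coeff_smul, smul_eq_mul]

theorem resAff_ech (R : Subring (LaurentSeries k)) (hC : ∀ c : k, HahnSeries.C c ∈ R) (n0 : ℕ)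
    (h2 : ∀ n : ℕ, n0 ≤ n → ∃ r ∈ R, r.coeff (-(n : ℤ)) = 1 ∧
      ∀ i : ℤ, i < -(n : ℤ) → r.coeff i = 0) :
    ∀ s : ℕ, n0 ≤ s → ∃ r ∈ R, (∀ i : ℤ, i < -(s : ℤ) → r.coeff i = 0) ∧
      ∀ u : ℕ, n0 ≤ u → r.coeff (-(u : ℤ)) = if u = s then 1 else 0 := by
  intro s
  induction s using Nat.strong_induction_on with
  | _ s ih =>
    intro hs
    obtain ⟨e, heR, he1, he0⟩ := h2 s hs
    have ih' : ∀ u : ℕ, ∃ r : LaurentSeries k, u < s → n0 ≤ u →
        (r ∈ R ∧ (∀ i : ℤ, i < -(u : ℤ) → r.coeff i = 0) ∧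
          ∀ u' : ℕ, n0 ≤ u' → r.coeff (-(u' : ℤ)) = if u' = u then 1 else 0) := by
      intro u
      by_cases h : u < s ∧ n0 ≤ u
      · obtain ⟨r, h1, h2, h3⟩ := ih u h.1 h.2
        exact ⟨r, fun _ _ => ⟨h1, h2, h3⟩⟩
      · exact ⟨0, fun h1 h2 => (h ⟨h1, h2⟩).elim⟩
    choose f hf using ih'
    refine ⟨e - ∑ u ∈ Finset.Ico n0 s, HahnSeries.C (e.coeff (-(u : ℤ))) * f u, ?_, ?_, ?_⟩
    · refine R.sub_mem heR (R.sum_mem fun u hu => R.mul_mem (hC _) ?_)
      rw [Finset.mem_Ico] at hu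
      exact (hf u hu.2 hu.1).1
    · intro i hi
      rw [HahnSeries.coeff_sub, HahnSeries.coeff_sum, he0 i hi, zero_sub, neg_eq_zero]
      refine Finset.sum_eq_zero fun u hu => ?_
      rw [Finset.mem_Ico] at hu
      rw [resAff_coeff_C_mul, (hf u hu.2 hu.1).2.1 i (by omega), mul_zero]
    · intro u' hu'
      rw [HahnSeries.coeff_sub, HahnSeries.coeff_sum]
      have h1 : ∀ u ∈ Finset.Ico n0 s,
          (HahnSeries.C (e.coeff (-(u : ℤ))) * f u).coeff (-(u' : ℤ)) =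
            if u' = u then e.coeff (-(u : ℤ)) else 0 := by
        intro u hu
        rw [Finset.mem_Ico] at hu
        rw [resAff_coeff_C_mul, (hf u hu.2 hu.1).2.2 u' hu']
        split_ifs <;> simp
      rw [Finset.sum_congr rfl h1, Finset.sum_ite_eq]
      rcases lt_trichotomy u' s with h | h | h
      · rw [if_pos (Finset.mem_Ico.2 ⟨hu', h⟩), if_neg h.ne, sub_self]
      · subst h
        rw [if_neg (by simp), if_pos rfl, he1, sub_zero]
      · rw [if_neg (by rw [Finset.mem_Ico]; omega), if_neg h.ne', he0 _ (by omega), sub_zero]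

theorem resAff_toeplitz (F r : LaurentSeries k) (N n0 s u : ℕ)
    (hF : ∀ i : ℤ, i < -(N : ℤ) → F.coeff i = 0)
    (hrδ : ∀ u' : ℕ, n0 ≤ u' → r.coeff (-(u' : ℤ)) = if u' = s then 1 else 0)
    (hs : n0 ≤ s) (hu : n0 + N ≤ u) : (F * r).coeff (-(u : ℤ)) = F.coeff ((s : ℤ) - u) := by
  rw [resAff_coeff_mul F r (-(u : ℤ)) {-(s : ℤ)}, Finset.sum_singleton, hrδ s hs, if_pos rfl, mul_one]
  · congr 1; ring
  · intro d h1 h2
    rw [Finset.mem_singleton]
    have hd : d ≤ -(n0 : ℤ) := by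
      by_contra h
      exact h1 (hF _ (by omega))
    obtain ⟨d', rfl⟩ : ∃ d' : ℕ, d = -(d' : ℤ) := ⟨(-d).toNat, by omega⟩
    rw [hrδ d' (by omega)] at h2
    by_cases h : d' = s
    · rw [h]
    · rw [if_neg h] at h2
      exact (h2 rfl).elim

/-! ## linear maps -/

/-- the coefficient functional. -/
def resAffCf (i : ℤ) : LaurentSeries k →ₗ[k] k where
  toFun x := x.coeff i
  map_add' _ _ := rfl
  map_smul' _ _ := rfl

@[simp] theorem resAffCf_apply (i : ℤ) (x : LaurentSeries k) : resAffCf i x = x.coeff i := rfl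

/-- multiplication by `F`. -/
def resAffMul (F : LaurentSeries k) : LaurentSeries k →ₗ[k] LaurentSeries k where
  toFun x := F * x
  map_add' := mul_add F
  map_smul' c x := by
    rw [RingHom.id_apply, ← HahnSeries.C_mul_eq_smul, ← HahnSeries.C_mul_eq_smul]
    ring

@[simp] theorem resAffMul_apply (F x : LaurentSeries k) : resAffMul F x = F * x := rfl

/-- `R_n`: elements of `R` with a pole of order `≤ n`. -/
def resAffRn (R : Subring (LaurentSeries k)) (hC : ∀ c : k, HahnSeries.C c ∈ R) (n : ℕ) :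
    Submodule k (LaurentSeries k) where
  carrier := {x | x ∈ R ∧ ∀ i : ℤ, i < -(n : ℤ) → x.coeff i = 0}
  add_mem' := fun h h' => ⟨R.add_mem h.1 h'.1, fun i hi => by
    rw [HahnSeries.coeff_add, h.2 i hi, h'.2 i hi, add_zero]⟩
  zero_mem' := ⟨R.zero_mem, fun _ _ => rfl⟩
  smul_mem' := fun c x h => ⟨by rw [← HahnSeries.C_mul_eq_smul]; exact R.mul_mem (hC c) h.1,
    fun i hi => by rw [HahnSeries.coeff_smul, h.2 i hi, smul_zero]⟩

theorem mem_resAffRn {R : Subring (LaurentSeries k)} {hC : ∀ c : k, HahnSeries.C c ∈ R} {n : ℕ}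
    {x : LaurentSeries k} :
    x ∈ resAffRn R hC n ↔ x ∈ R ∧ ∀ i : ℤ, i < -(n : ℤ) → x.coeff i = 0 := Iff.rfl

theorem resAffRn_finite (R : Subring (LaurentSeries k)) (hC : ∀ c : k, HahnSeries.C c ∈ R)
    (h1 : ∀ r ∈ R, (∀ i : ℤ, i ≤ 0 → r.coeff i = 0) → r = 0) (n : ℕ) :
    Module.Finite k (resAffRn R hC n) := by
  let ψ : resAffRn R hC n →ₗ[k] (Fin (n + 1) → k) :=
    { toFun := fun x i => (x : LaurentSeries k).coeff (-((i : ℕ) : ℤ))
      map_add' := fun _ _ => rfl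
      map_smul' := fun _ _ => rfl }
  refine Module.Finite.of_injective ψ ?_
  rw [injective_iff_map_eq_zero]
  intro x hx
  apply Subtype.ext
  refine h1 _ x.2.1 fun i hi => ?_
  by_cases h : i < -(n : ℤ)
  · exact x.2.2 i h
  · have := congrFun hx ⟨(-i).toNat, by omega⟩
    have e : -(((-i).toNat : ℕ) : ℤ) = i := by omega
    have h3 : (x : LaurentSeries k).coeff (-(((-i).toNat : ℕ) : ℤ)) = 0 := this
    rwa [e] at h3

theorem resAff_coeff_mul_low (F w : LaurentSeries k) (N n : ℕ)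
    (hF : ∀ i : ℤ, i < -(N : ℤ) → F.coeff i = 0) (hw : ∀ i : ℤ, i < -(n : ℤ) → w.coeff i = 0)
    (m : ℤ) (hm : m < -((n : ℤ) + N)) : (F * w).coeff m = 0 := by
  refine resAff_coeff_mul_eq_zero F w m fun d => ?_
  by_cases h : d < -(n : ℤ)
  · exact Or.inr (hw d h)
  · exact Or.inl (hF _ (by omega))

/-- the projection onto `R_n` killing `r_s`, `n < s ≤ n + 2 N`. -/
def resAffP (r : ℕ → LaurentSeries k) (N n : ℕ) : LaurentSeries k →ₗ[k] LaurentSeries k :=
  LinearMap.id - ∑ j ∈ Finset.range (N + N),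
    (resAffCf (-((n + 1 + j : ℕ) : ℤ))).smulRight (r (n + 1 + j))

theorem resAffP_apply (r : ℕ → LaurentSeries k) (N n : ℕ) (x : LaurentSeries k) :
    resAffP r N n x = x - ∑ j ∈ Finset.range (N + N),
      x.coeff (-((n + 1 + j : ℕ) : ℤ)) • r (n + 1 + j) := by
  simp [resAffP, LinearMap.sum_apply]

section Main

variable {R : Subring (LaurentSeries k)} {hC : ∀ c : k, HahnSeries.C c ∈ R}
  {r : ℕ → LaurentSeries k} {n0 : ℕ}

theorem resAffP_mem (hrR : ∀ s, n0 ≤ s → r s ∈ R)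
    (hr0 : ∀ s, n0 ≤ s → ∀ i : ℤ, i < -(s : ℤ) → (r s).coeff i = 0)
    (hrδ : ∀ s, n0 ≤ s → ∀ u : ℕ, n0 ≤ u → (r s).coeff (-(u : ℤ)) = if u = s then 1 else 0)
    (N n : ℕ) (hn : n0 ≤ n) {x : LaurentSeries k} (hx : x ∈ R)
    (hx0 : ∀ i : ℤ, i < -((n : ℤ) + N + N) → x.coeff i = 0) :
    resAffP r N n x ∈ resAffRn R hC n := by
  rw [resAffP_apply, mem_resAffRn]
  constructor
  · refine R.sub_mem hx (R.sum_mem fun j _ => ?_)
    rw [← HahnSeries.C_mul_eq_smul]
    exact R.mul_mem (hC _) (hrR _ (by omega))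
  · intro i hi
    rw [HahnSeries.coeff_sub, HahnSeries.coeff_sum]
    simp only [HahnSeries.coeff_smul, smul_eq_mul]
    by_cases h : i < -((n : ℤ) + N + N)
    · rw [hx0 i h, zero_sub, neg_eq_zero]
      refine Finset.sum_eq_zero fun j hj => ?_
      rw [Finset.mem_range] at hj
      rw [hr0 _ (by omega) i (by push_cast; omega), mul_zero]
    · obtain ⟨l, hl, rfl⟩ : ∃ l : ℕ, l < N + N ∧ i = -((n + 1 + l : ℕ) : ℤ) :=
        ⟨(-i - n - 1).toNat, by omega, by push_cast; omega⟩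
      have h1 : ∀ j ∈ Finset.range (N + N),
          x.coeff (-((n + 1 + j : ℕ) : ℤ)) * (r (n + 1 + j)).coeff (-((n + 1 + l : ℕ) : ℤ)) =
            if l = j then x.coeff (-((n + 1 + j : ℕ) : ℤ)) else 0 := by
        intro j _
        rw [hrδ _ (by omega) _ (by omega)]
        by_cases hlj : l = j
        · subst hlj; simp
        · rw [if_neg hlj, if_neg (by omega), mul_zero]
      rw [Finset.sum_congr rfl h1, Finset.sum_ite_eq, if_pos (Finset.mem_range.2 hl), sub_self]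

/-- on `F * R_n` only the first `N` terms of the projection matter. -/
theorem resAffP_mul (N n : ℕ) {F w : LaurentSeries k}
    (hF : ∀ i : ℤ, i < -(N : ℤ) → F.coeff i = 0) (hw : ∀ i : ℤ, i < -(n : ℤ) → w.coeff i = 0) :
    resAffP r N n (F * w) = F * w - ∑ j ∈ Finset.range N,
      (F * w).coeff (-((n + 1 + j : ℕ) : ℤ)) • r (n + 1 + j) := by
  rw [resAffP_apply, Finset.sum_range_add]
  have : ∑ j ∈ Finset.range N,
      (F * w).coeff (-((n + 1 + (N + j) : ℕ) : ℤ)) • r (n + 1 + (N + j)) = 0 := by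
    refine Finset.sum_eq_zero fun j _ => ?_
    rw [resAff_coeff_mul_low F w N n hF hw _ (by push_cast; omega), zero_smul]
  rw [this, add_zero]

theorem resAff_comm_aux (N n : ℕ) {φ a w : LaurentSeries k}
    (ha : ∀ i : ℤ, i < -(N : ℤ) → a.coeff i = 0) (hw : ∀ i : ℤ, i < -(n : ℤ) → w.coeff i = 0) :
    resAffP r N n (φ * resAffP r N n (a * w)) = resAffP r N n (φ * (a * w)) -
      ∑ j ∈ Finset.range N, (a * w).coeff (-((n + 1 + j : ℕ) : ℤ)) •
        resAffP r N n (φ * r (n + 1 + j)) := by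
  have h : ∀ x, resAffP r N n (φ * x) = ((resAffP r N n).comp (resAffMul φ)) x := fun _ => rfl
  rw [resAffP_mul N n ha hw]
  simp only [h]
  rw [map_sub, map_sum]
  simp only [map_smul]

theorem resAff_trace (h1 : ∀ r ∈ R, (∀ i : ℤ, i ≤ 0 → r.coeff i = 0) → r = 0)
    (hC : ∀ c : k, HahnSeries.C c ∈ R) (hrR : ∀ s, n0 ≤ s → r s ∈ R)
    (hr0 : ∀ s, n0 ≤ s → ∀ i : ℤ, i < -(s : ℤ) → (r s).coeff i = 0)
    (hrδ : ∀ s, n0 ≤ s → ∀ u : ℕ, n0 ≤ u → (r s).coeff (-(u : ℤ)) = if u = s then 1 else 0)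
    (N n : ℕ) (hn : n0 ≤ n) {φ a : LaurentSeries k} (hφR : φ ∈ R) (haR : a ∈ R)
    (hφ : ∀ i : ℤ, i < -(N : ℤ) → φ.coeff i = 0) (ha : ∀ i : ℤ, i < -(N : ℤ) → a.coeff i = 0) :
    ∑ j ∈ Finset.range N,
      ((φ * resAffP r N n (a * r (n + 1 + j))).coeff (-((n + 1 + j : ℕ) : ℤ)) -
        (a * resAffP r N n (φ * r (n + 1 + j))).coeff (-((n + 1 + j : ℕ) : ℤ))) = 0 := by
  have := resAffRn_finite R hC h1 n
  have hmem : ∀ F ∈ R, (∀ i : ℤ, i < -(N : ℤ) → F.coeff i = 0) → ∀ w ∈ resAffRn R hC n,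
      ((resAffP r N n).comp (resAffMul F)) w ∈ resAffRn R hC n := fun F hFR hF w hw =>
    resAffP_mem hrR hr0 hrδ N n hn (R.mul_mem hFR hw.1)
      (fun i hi => resAff_coeff_mul_low F w N n hF hw.2 i (by omega))
  have hmem2 : ∀ F ∈ R, (∀ i : ℤ, i < -(N : ℤ) → F.coeff i = 0) → ∀ j : Fin N,
      resAffP r N n (F * r (n + 1 + j)) ∈ resAffRn R hC n := fun F hFR hF j =>
    resAffP_mem hrR hr0 hrδ N n hn (R.mul_mem hFR (hrR _ (by omega)))
      (fun i hi => resAff_coeff_mul_low F _ N (n + 1 + j) hF (hr0 _ (by omega)) i (by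
        have := j.2
        push_cast
        omega))
  set Φ : resAffRn R hC n →ₗ[k] resAffRn R hC n :=
    ((resAffP r N n).comp (resAffMul φ)).restrict (hmem φ hφR hφ) with hΦ
  set Aa : resAffRn R hC n →ₗ[k] resAffRn R hC n :=
    ((resAffP r N n).comp (resAffMul a)).restrict (hmem a haR ha) with hAa
  let lam : LaurentSeries k → Fin N → (resAffRn R hC n →ₗ[k] k) := fun F j =>
    ((resAffCf (-((n + 1 + j : ℕ) : ℤ))).comp (resAffMul F)).comp (resAffRn R hC n).subtype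
  have hid : Φ * Aa + ∑ j : Fin N, (lam a j).smulRight (⟨_, hmem2 φ hφR hφ j⟩ : resAffRn R hC n) =
      Aa * Φ + ∑ j : Fin N, (lam φ j).smulRight (⟨_, hmem2 a haR ha j⟩ : resAffRn R hC n) := by
    apply LinearMap.ext
    intro w
    apply Subtype.ext
    rw [LinearMap.add_apply, LinearMap.add_apply, LinearMap.sum_apply, LinearMap.sum_apply,
      Submodule.coe_add, Submodule.coe_add, AddSubmonoidClass.coe_finsetSum,
      AddSubmonoidClass.coe_finsetSum]
    have e1 : (((Φ * Aa) w : resAffRn R hC n) : LaurentSeries k) =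
        resAffP r N n (φ * resAffP r N n (a * w)) := rfl
    have e1' : (((Aa * Φ) w : resAffRn R hC n) : LaurentSeries k) =
        resAffP r N n (a * resAffP r N n (φ * w)) := rfl
    rw [e1, e1', resAff_comm_aux N n ha w.2.2, resAff_comm_aux N n hφ w.2.2, mul_left_comm φ a]
    have e2 : ∀ j : Fin N, ((((lam φ j).smulRight (⟨_, hmem2 a haR ha j⟩ : resAffRn R hC n)) w :
        resAffRn R hC n) : LaurentSeries k) =
        (φ * w).coeff (-((n + 1 + j : ℕ) : ℤ)) • resAffP r N n (a * r (n + 1 + j)) := fun _ => rfl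
    have e3 : ∀ j : Fin N, ((((lam a j).smulRight (⟨_, hmem2 φ hφR hφ j⟩ : resAffRn R hC n)) w :
        resAffRn R hC n) : LaurentSeries k) =
        (a * w).coeff (-((n + 1 + j : ℕ) : ℤ)) • resAffP r N n (φ * r (n + 1 + j)) := fun _ => rfl
    simp only [e2, e3]
    rw [Fin.sum_univ_eq_sum_range (fun j => (φ * (w : LaurentSeries k)).coeff (-((n + 1 + j : ℕ) : ℤ)) •
        resAffP r N n (a * r (n + 1 + j))) N,
      Fin.sum_univ_eq_sum_range (fun j => (a * (w : LaurentSeries k)).coeff (-((n + 1 + j : ℕ) : ℤ)) •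
        resAffP r N n (φ * r (n + 1 + j))) N, sub_add_cancel, sub_add_cancel]
  have key := congrArg (LinearMap.trace k (resAffRn R hC n)) hid
  rw [map_add, map_add, map_sum, map_sum, LinearMap.trace_mul_comm] at key
  simp only [LinearMap.trace_smulRight] at key
  have key2 := add_left_cancel key
  rw [Finset.sum_sub_distrib, sub_eq_zero,
    ← Fin.sum_univ_eq_sum_range (fun j =>
      (φ * resAffP r N n (a * r (n + 1 + j))).coeff (-((n + 1 + j : ℕ) : ℤ))) N,
    ← Fin.sum_univ_eq_sum_range (fun j =>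
      (a * resAffP r N n (φ * r (n + 1 + j))).coeff (-((n + 1 + j : ℕ) : ℤ))) N]
  exact key2.symm

theorem resAff_eval
    (hrδ : ∀ s, n0 ≤ s → ∀ u : ℕ, n0 ≤ u → (r s).coeff (-(u : ℤ)) = if u = s then 1 else 0)
    (N n : ℕ) (hn : n0 + N ≤ n) {φ a : LaurentSeries k}
    (hφ : ∀ i : ℤ, i < -(N : ℤ) → φ.coeff i = 0) (ha : ∀ i : ℤ, i < -(N : ℤ) → a.coeff i = 0)
    (j : ℕ) :
    (φ * resAffP r N n (a * r (n + 1 + j))).coeff (-((n + 1 + j : ℕ) : ℤ)) =
      (φ * (a * r (n + 1 + j))).coeff (-((n + 1 + j : ℕ) : ℤ)) -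
        ∑ l ∈ Finset.range (N + N), a.coeff ((j : ℤ) - l) * φ.coeff ((l : ℤ) - j) := by
  have h : ∀ x, φ * x = resAffMul φ x := fun _ => rfl
  rw [resAffP_apply, h, map_sub, map_sum]
  simp only [map_smul, resAffMul_apply]
  rw [HahnSeries.coeff_sub, HahnSeries.coeff_sum]
  congr 1
  refine Finset.sum_congr rfl fun l _ => ?_
  rw [HahnSeries.coeff_smul, smul_eq_mul,
    resAff_toeplitz a _ N n0 (n + 1 + j) (n + 1 + l) ha (hrδ _ (by omega)) (by omega) (by omega),
    resAff_toeplitz φ _ N n0 (n + 1 + l) (n + 1 + j) hφ (hrδ _ (by omega)) (by omega) (by omega)]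
  congr 2 <;> push_cast <;> ring

end Main

theorem resAff_exists_bound (x : LaurentSeries k) :
    ∃ N : ℕ, ∀ i : ℤ, i < -(N : ℤ) → x.coeff i = 0 :=
  ⟨(-x.order).toNat, fun i hi => HahnSeries.coeff_eq_zero_of_lt_order (by omega)⟩

/-- **The residue theorem for an affine curve with one point at infinity.**  `R ⊆ k((Q))` a subring
containing the constants, meeting `Q k[[Q]]` trivially and having only finitely many gaps.  Then the constant term of `φ θ(a)` vanishes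
for all `φ, a ∈ R`. -/
theorem ct_mul_theta (R : Subring (LaurentSeries k)) (hC : ∀ c : k, HahnSeries.C c ∈ R)
    (h1 : ∀ r ∈ R, (∀ i : ℤ, i ≤ 0 → r.coeff i = 0) → r = 0)
    (h2 : ∃ n0 : ℕ, ∀ n : ℕ, n0 ≤ n → ∃ r ∈ R, r.coeff (-(n : ℤ)) = 1 ∧
      ∀ i : ℤ, i < -(n : ℤ) → r.coeff i = 0)
    {φ a : LaurentSeries k} (hφR : φ ∈ R) (haR : a ∈ R) : (φ * CT.theta a).coeff 0 = 0 := by
  obtain ⟨n0, h2⟩ := h2
  have hech := resAff_ech R hC n0 h2
  have hech' : ∀ s : ℕ, ∃ r : LaurentSeries k, n0 ≤ s → (r ∈ R ∧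
      (∀ i : ℤ, i < -(s : ℤ) → r.coeff i = 0) ∧
      ∀ u : ℕ, n0 ≤ u → r.coeff (-(u : ℤ)) = if u = s then 1 else 0) := by
    intro s
    by_cases hs : n0 ≤ s
    · obtain ⟨r, h⟩ := hech s hs
      exact ⟨r, fun _ => h⟩
    · exact ⟨0, fun h => (hs h).elim⟩
  choose r hr using hech'
  obtain ⟨N1, hN1⟩ := resAff_exists_bound φ
  obtain ⟨N2, hN2⟩ := resAff_exists_bound a
  set N := max N1 N2 with hN
  have hφ : ∀ i : ℤ, i < -(N : ℤ) → φ.coeff i = 0 := fun i hi =>
    hN1 i (by have : N1 ≤ N := le_max_left _ _; omega)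
  have ha : ∀ i : ℤ, i < -(N : ℤ) → a.coeff i = 0 := fun i hi =>
    hN2 i (by have : N2 ≤ N := le_max_right _ _; omega)
  have hrδ := fun s hs => (hr s hs).2.2
  have key := resAff_trace h1 hC (fun s hs => (hr s hs).1) (fun s hs => (hr s hs).2.1) hrδ N (n0 + N)
    (by omega) hφR haR hφ ha
  have e : ∀ j ∈ Finset.range N,
      ((φ * resAffP r N (n0 + N) (a * r (n0 + N + 1 + j))).coeff (-((n0 + N + 1 + j : ℕ) : ℤ)) -
        (a * resAffP r N (n0 + N) (φ * r (n0 + N + 1 + j))).coeff (-((n0 + N + 1 + j : ℕ) : ℤ))) =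
      ∑ l ∈ Finset.range (N + N),
        ((fun d : ℤ => φ.coeff (-d) * a.coeff d) ((l : ℤ) - j) -
          (fun d : ℤ => φ.coeff (-d) * a.coeff d) ((j : ℤ) - l)) := by
    intro j _
    rw [resAff_eval hrδ N (n0 + N) le_rfl hφ ha j, resAff_eval hrδ N (n0 + N) le_rfl ha hφ j,
      mul_left_comm φ a, Finset.sum_sub_distrib]
    have e1 : ∀ l : ℕ, a.coeff ((j : ℤ) - l) * φ.coeff ((l : ℤ) - j) =
        φ.coeff (-((j : ℤ) - l)) * a.coeff ((j : ℤ) - l) := fun l => by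
      rw [neg_sub, mul_comm]
    have e2 : ∀ l : ℕ, φ.coeff ((j : ℤ) - l) * a.coeff ((l : ℤ) - j) =
        φ.coeff (-((l : ℤ) - j)) * a.coeff ((l : ℤ) - j) := fun l => by
      rw [neg_sub]
    simp only [e1, e2]
    ring
  rw [Finset.sum_congr rfl e, resAff_comb N (fun d : ℤ => φ.coeff (-d) * a.coeff d)
    (fun d hd => by show φ.coeff (-d) * a.coeff d = 0; rw [hφ _ (by omega), zero_mul])
    (fun d hd => by show φ.coeff (-d) * a.coeff d = 0; rw [ha _ hd, mul_zero])] at key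
  rw [resAff_ct φ a N hφ ha]
  exact key

end Fermat.Agent.MR.A
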