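import Fermat.Agent.MR.A.AffFF
import Fermat.Agent.MR.A.ResAff
import Fermat.Agent.MR.A.Dual
import Fermat.Agent.MR.A.Inst
import Fermat.Agent.GAL.CTV.OfTData

/-!
# MR / A : (a4).  Logarithmic differentials `θ g / g` with `p ∣ div g` away from `∞` are reductions of cusp forms

* `QData.ct`, `QData.coeff_zero_of_dif` : the residue theorem on `RA Pinf` (from `ct_mul_theta`)
* `a4_abstract` : the abstract `IsRed` form
* `a4` : level `M` (admissible, `p ∤ M`)
-/

set_option autoImplicit false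

open Polynomial

noncomputable section

namespace Fermat.Agent.MR.A

open AlgebraicCurve Fermat.Agent.S24.FF Fermat.Agent.GAL.FF Fermat.Agent.GAL.KL Fermat.Agent.S17.FFK
open Fermat.Agent.GAL

section Q

variable {k F : Type*} [Field k] [Field F] [Algebra k F]
variable {ι : F →ₐ[k] LaurentSeries k} {x u : F} {m : ℕ}

/-- **the residue theorem** on the affine ring. -/
theorem QData.ct [IsAlgClosed k] (H : QData ι x u m) (P : Place k F)
    (hP : ∀ z, P.ord z = (ι z).order) {φ a : F} (hφ : φ ∈ RA P) (ha : a ∈ RA P) :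
    (ι φ * CT.theta (ι a)).coeff 0 = 0 := by
  classical
  have := H.isFF1
  refine ct_mul_theta ((RA P).map (ι : F →+* LaurentSeries k)) ?_ ?_ ?_ ⟨φ, hφ, rfl⟩ ⟨a, ha, rfl⟩
  · intro c
    refine ⟨algebraMap k F c, algebraMap_mem_RA P c, ?_⟩
    show ι (algebraMap k F c) = _
    rw [AlgHom.commutes, CT.theta_algebraMap_eq_C]
  · rintro _ ⟨r, hr, rfl⟩ h0
    show ι r = 0
    have h1 : 0 ≤ (ι r).order := by
      by_contra hneg
      push Not at hneg
      have hr0 : ι r ≠ 0 := by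
        intro h
        rw [h, HahnSeries.order_zero] at hneg
        omega
      exact hr0 (HahnSeries.coeff_order_eq_zero.1 (h0 _ hneg.le))
    obtain ⟨c, rfl⟩ := CTV.const_of_isInt ι x u m H.hm H.hx H.hu H.hspan r
      ((H.mem_RA_iff P hP r).1 hr) h1
    have h2 := h0 0 le_rfl
    have h3 : (ι (algebraMap k F c) : LaurentSeries k) = HahnSeries.C c := by
      rw [AlgHom.commutes, CT.theta_algebraMap_eq_C]
    change (ι (algebraMap k F c)).coeff 0 = 0 at h2
    rw [h3, HahnSeries.C_apply, HahnSeries.coeff_single_same] at h2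
    rw [h3, h2, map_zero]
  · obtain ⟨c, hc⟩ := exists_isReg k F
    refine ⟨(c + 1).toNat, fun n hn => ?_⟩
    have hdeg : c + 1 ≤ Divisor.degree (Finsupp.single P (n : ℤ) : Divisor k F) := by
      rw [degree_single_one]; omega
    obtain ⟨f, hf, hf0, hfv⟩ := hc.exists_ord_eq hdeg {P}
    rw [mem_riemannRochSpace_iff] at hf
    have hfP : (ι f).order = -(n : ℤ) := by
      rw [← hP, hfv P (Finset.mem_singleton_self _), Finsupp.single_eq_same]
    have hιf : ι f ≠ 0 := (map_ne_zero ι).2 hf0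
    have hlc : (ι f).coeff (-(n : ℤ)) ≠ 0 := by
      rw [← hfP]; exact fun h => hιf (HahnSeries.coeff_order_eq_zero.1 h)
    set c0 : k := (ι f).coeff (-(n : ℤ)) with hc0
    refine ⟨ι (algebraMap k F c0⁻¹ * f), ⟨_, (RA P).mul_mem (algebraMap_mem_RA P _) ?_, rfl⟩, ?_, ?_⟩
    · intro v hv
      have := (hf v).resolve_left hf0
      rwa [Finsupp.single_eq_of_ne hv, neg_zero] at this
    · rw [map_mul, AlgHom.commutes, CT.theta_algebraMap_eq_C, HahnSeries.C_mul_eq_smul,
        HahnSeries.coeff_smul, smul_eq_mul, ← hc0, inv_mul_cancel₀ hlc]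
    · intro i hi
      rw [map_mul, AlgHom.commutes, CT.theta_algebraMap_eq_C, HahnSeries.C_mul_eq_smul,
        HahnSeries.coeff_smul, HahnSeries.coeff_eq_zero_of_lt_order (by rw [hfP]; exact hi),
        smul_zero]

theorem QData.coeff_zero_of_dif [IsAlgClosed k] (H : QData ι x u m) (P : Place k F)
    (hP : ∀ z, P.ord z = (ι z).order) {w : LaurentSeries k} (hw : w ∈ Dif ι P) :
    w.coeff 0 = 0 := by
  obtain ⟨n, c, a, hc, ha, rfl⟩ := hw
  rw [HahnSeries.coeff_sum]
  exact Finset.sum_eq_zero fun i _ => H.ct P hP (hc i) (ha i)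

/-- a differential regular at all places `≠ Pinf` is orthogonal to the affine ring. -/
theorem QData.coeff_zero_of_isRegAt [IsAlgClosed k] (H : QData ι x u m) (P : Place k F)
    (hP : ∀ z, P.ord z = (ι z).order) {w : LaurentSeries k}
    (hw : ∀ v : Place k F, v ≠ P → IsRegAt ι v w) {φ : F} (hφ : φ ∈ RA P) :
    (ι φ * w).coeff 0 = 0 := by
  have := H.isFF1
  exact H.coeff_zero_of_dif P hP (Dif.mul hφ (dif_of_isRegAt w hw))

/-- the order at `Pinf` of `θ g / g`. -/
theorem order_dlog_nonneg (g : LaurentSeries k) : 0 ≤ (g⁻¹ * CT.theta g).order := by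
  rcases eq_or_ne (CT.theta g) 0 with h | h
  · rw [h, mul_zero, HahnSeries.order_zero]
  have hg : g ≠ 0 := by
    rintro rfl
    exact h CT.theta_zero
  rw [HahnSeries.order_mul (inv_ne_zero hg) h, CTV.w5_order_inv hg]
  have : g.order ≤ (CT.theta g).order := by
    rw [HahnSeries.le_order_iff_forall h]
    intro j hj
    rw [CT.theta_coeff, HahnSeries.coeff_eq_zero_of_lt_order hj, mul_zero]
  omega

end Q

section Red

open Fermat.Agent.GAL.KLB Fermat.Agent.GAL.KLC Fermat.Agent.GAL.CTV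

variable {K F k Γ₀ : Type*} [Field K] [Field F] [Algebra K F] [Field k]
  [LinearOrderedCommGroupWithZero Γ₀] {v : Valuation F Γ₀} {ρ : v.integer →+* LaurentSeries k}

/-- the residue field `F̄ ⊆ k((q))` of an `IsRed` datum carries `QData`. -/
theorem exists_qdata (hρ : IsRed K v ρ) {x x' : F} (hx : x ∈ v.integer)
    (hx' : x' ∈ v.integer) {m : ℕ} (hm : 0 < m) (hxo : (ρ ⟨x, hx⟩).order = -(m : ℤ))
    (hxo' : (ρ ⟨x', hx'⟩).order = -(m : ℤ) + 1)
    (hSp : Spans K x (fun i : Fin m => x' ^ (i : ℕ))) :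
    ∃ ub : Fbar hρ, QData (Fbar hρ).val (⟨ρ ⟨x, hx⟩, rho_mem_Fbar hρ _⟩ : Fbar hρ) ub m := by
  set xb : Fbar hρ := ⟨ρ ⟨x, hx⟩, rho_mem_Fbar hρ _⟩ with hxb
  set xb' : Fbar hρ := ⟨ρ ⟨x', hx'⟩, rho_mem_Fbar hρ _⟩ with hxb'
  have hspan := hspan_Fbar hρ hx hx' hm hxo hxo' hSp
  have hx0 : ρ ⟨x, hx⟩ ≠ 0 := by
    intro h0
    rw [h0, HahnSeries.order_zero] at hxo
    omega
  have hxo1 : ((Fbar hρ).val xb).order = -(m : ℤ) := hxo
  by_cases hx0' : ρ ⟨x', hx'⟩ = 0
  · have hm1 : m = 1 := by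
      rw [hx0', HahnSeries.order_zero] at hxo'
      omega
    subst hm1
    refine ⟨xb⁻¹, hm, hxo1, ?_, fun z => ?_⟩
    · have h1 : (Fbar hρ).val xb⁻¹ = (ρ ⟨x, hx⟩)⁻¹ := rfl
      rw [h1, w5_order_inv hx0, hxo]
      simp
    · obtain ⟨d, p, hd, h⟩ := hspan z
      refine ⟨d, p, hd, ?_⟩
      rw [Fin.sum_univ_one] at h ⊢
      simpa using h
  · refine ⟨xb' * xb⁻¹, hm, hxo1, ?_, hspan⟩
    have h1 : (Fbar hρ).val (xb' * xb⁻¹) = ρ ⟨x', hx'⟩ * (ρ ⟨x, hx⟩)⁻¹ := rfl
    rw [h1, HahnSeries.order_mul hx0' (inv_ne_zero hx0), w5_order_inv hx0, hxo, hxo']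
    omega

/-- **(a4), abstract form, for any differential regular away from `∞`.** -/
theorem reg_abstract [IsAlgClosed K] [CharZero K] [IsAlgClosed k] (hρ : IsRed K v ρ) {x x' : F}
    (hx : x ∈ v.integer) (hx' : x' ∈ v.integer) {m : ℕ} (hm : 0 < m)
    (hxo : (ρ ⟨x, hx⟩).order = -(m : ℤ)) (hxo' : (ρ ⟨x', hx'⟩).order = -(m : ℤ) + 1)
    (hSp : Spans K x (fun i : Fin m => x' ^ (i : ℕ))) {g : ℕ}
    (hRI : ∀ a : ℕ, ((a * m + 1 : ℕ) : ℤ) - g ≤ Module.finrank K (LL K x a))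
    (f : Fin g → LaurentSeries k) (hf : LinearIndependent k f) (hf0 : ∀ j, 0 < (f j).order)
    (hb2 : ∀ z : v.integer, IsInt k (ρ ⟨x, hx⟩) (ρ z) → ∀ j, (ρ z * f j).coeff 0 = 0)
    (P : Place k (Fbar hρ)) (hP : ∀ z : Fbar hρ, P.ord z = (z : LaurentSeries k).order)
    (w : LaurentSeries k) (hw0 : 0 ≤ w.order)
    (hw : ∀ Q : Place k (Fbar hρ), Q ≠ P → IsRegAt (Fbar hρ).val Q w) :
    ∃ c : Fin g → k, w = ∑ j, HahnSeries.C (c j) * f j := by
  obtain ⟨ub, H⟩ := exists_qdata hρ hx hx' hm hxo hxo' hSp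
  have hP' : ∀ z : Fbar hρ, P.ord z = ((Fbar hρ).val z).order := hP
  have hct : ∀ z : v.integer, IsInt k (ρ ⟨x, hx⟩) (ρ z) → (ρ z * w).coeff 0 = 0 := by
    intro z hz
    have h0 : IsInt k (⟨ρ ⟨x, hx⟩, rho_mem_Fbar hρ _⟩ : Fbar hρ)
        (⟨ρ z, rho_mem_Fbar hρ z⟩ : Fbar hρ) := w5_isInt_subtype _ _ _ hz
    have h1 : (⟨ρ z, rho_mem_Fbar hρ z⟩ : Fbar hρ) ∈ RA P := (H.mem_RA_iff P hP' _).2 h0
    have h2 := H.coeff_zero_of_isRegAt P hP' hw h1
    exact h2
  rcases eq_or_ne w 0 with rfl | hw1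
  · exact ⟨0, by simp⟩
  have hw2 : 0 < w.order := by
    have h1 := hct 1 (by rw [map_one]; exact IsInt.one)
    rw [map_one, one_mul] at h1
    rcases hw0.lt_or_eq with h | h
    · exact h
    · exfalso
      rw [h] at h1
      exact hw1 (HahnSeries.coeff_order_eq_zero.1 h1)
  exact exists_eq_sum_of_ct hρ hx hx' hm hxo hxo' hSp hRI f hf hf0 hb2 w hw2 hct

end Red

section Level

open Fermat.Agent.GR Fermat.Agent.GAL.KLB Fermat.Agent.GAL.KLC Fermat.Agent.GAL.CTV

/-- the residue field of a valuation subring of `ℚ̄` is algebraically closed. -/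
theorem a4_isAlgClosed_kA (A : ValuationSubring Qb) : IsAlgClosed (kA A) := by
  apply IsAlgClosed.of_exists_root
  intro p hp _
  obtain ⟨P, hP, hPdeg, hPm⟩ := Polynomial.lifts_and_degree_eq_and_monic
    ((Polynomial.mem_lifts p).mpr (Polynomial.map_surjective _ IsLocalRing.residue_surjective p)) hp
  have hdeg : (P.map A.subtype).degree ≠ 0 := by
    rw [Polynomial.degree_map_eq_of_injective Subtype.val_injective, hPdeg]
    exact (Polynomial.degree_pos_of_irreducible ‹_›).ne'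
  obtain ⟨x, hx⟩ := IsAlgClosed.exists_root (P.map A.subtype) hdeg
  have hxA : x ∈ A := by
    have hint : IsIntegral A x := ⟨P, hPm, by
      rw [Polynomial.IsRoot.def, Polynomial.eval_map] at hx
      exact hx⟩
    obtain ⟨y, hy⟩ := (IsIntegrallyClosed.isIntegral_iff (R := A) (K := Qb)).mp hint
    rw [← hy]
    exact y.2
  refine ⟨IsLocalRing.residue A ⟨x, hxA⟩, ?_⟩
  rw [← hP, Polynomial.eval_map, Polynomial.eval₂_hom]
  have : Polynomial.eval (⟨x, hxA⟩ : A) P = 0 := by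
    apply Subtype.val_injective
    rw [Polynomial.IsRoot.def, Polynomial.eval_map] at hx
    have h2 := Polynomial.hom_eval₂ P (RingHom.id A) A.subtype ⟨x, hxA⟩
    rw [RingHom.comp_id] at h2
    rw [← Polynomial.eval₂_id]
    exact h2.trans hx
  rw [this, map_zero]

variable (M : ℕ) [NeZero M] (A : ValuationSubring Qb)

/-- shortcut instance (the generic search times out on the concrete type `kA A`); it is the instance found
in the generic situation. -/
instance (priority := 2000) instAlgebraFb : Algebra (kA A) ↥(Fb A M) :=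
  SubalgebraClass.toAlgebra (Fb A M)

theorem exists_qdata_Fb : ∃ ub : Fb A M, QData (Fb A M).val
    (⟨rho A M ⟨xF M, xF_mem_integer M A⟩, rho_mem_Fbar (isRed A M) _⟩ : Fb A M) ub (mX M) :=
  exists_qdata (isRed A M) (xF_mem_integer M A) (xF'_mem_integer M A) (mX_pos M)
    (order_rho_xF M A) (order_rho_xF' M A) (spansStatement M)

theorem isFF1_Fb : IsFF1 (kA A) (Fb A M) := by
  obtain ⟨ub, H⟩ := exists_qdata_Fb M A
  exact H.isFF1

/-- the place `∞` of the reduced curve. -/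
theorem exists_Pinf_Fb : ∃ P : Place (kA A) (Fb A M),
    ∀ z : Fb A M, P.ord z = (z : LaurentSeries (kA A)).order := by
  obtain ⟨ub, H⟩ := exists_qdata_Fb M A
  exact H.exists_Pinf

variable {M A}

/-- **REG at level `M`, place form**: a differential on the reduced curve of level `M` (`p ∤ M`), regular
at every place, is a `k`-linear combination of reductions of cusp forms of weight 2 and level `M`. -/
theorem reg_Fb {p : ℕ} (hM : AdmLevel M) (hp : p.Prime) (hpM : ¬ p ∣ M) (hA : A.LiesOverPrime p)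
    (P : Place (kA A) (Fb A M)) (hP : ∀ z : Fb A M, P.ord z = (z : LaurentSeries (kA A)).order)
    (w : LaurentSeries (kA A)) (hw0 : 0 ≤ w.order)
    (hw : ∀ Q : Place (kA A) (Fb A M), Q ≠ P → IsRegAt (Fb A M).val Q w) :
    ∃ (fZ : Fin (Module.finrank ℂ (CuspForm (CongruenceSubgroup.Gamma0 M) 2)) → PowerSeries ℤ)
      (c : Fin (Module.finrank ℂ (CuspForm (CongruenceSubgroup.Gamma0 M) 2)) → kA A),
      (∀ j, IsCuspExp M (fZ j)) ∧ (∀ j, PowerSeries.constantCoeff (fZ j) = 0) ∧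
      w = ∑ j, HahnSeries.C (c j) * psR (kA A) (fZ j) := by
  have : CharP (kA A) p := charP_residueField hp hA
  have : IsAlgClosed (kA A) := a4_isAlgClosed_kA A
  obtain ⟨fZ, hfc, hf0, hfi⟩ := exists_cusp_basis M p hp (kA A)
  have hCT := ctStatement M p hM hp hpM A hA
  obtain ⟨c, hc⟩ := reg_abstract (isRed A M) (xF_mem_integer M A) (xF'_mem_integer M A)
    (mX_pos M) (order_rho_xF M A) (order_rho_xF' M A) (spansStatement M) (riStatement M)
    (fun j => psR (kA A) (fZ j)) hfi (fun j => order_psR_pos _ (hf0 j) (hfi.ne_zero j))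
    (fun z hz j => hCT _ (z : FL Qb M).2 _ (hasRed_rho A M z)
      (by rw [rho_xF] at hz; exact hz) _ (hfc j)) P hP w hw0 hw
  exact ⟨fZ, c, hfc, hf0, hc⟩

/-- **(a4)**: if `G ≠ 0` is a function on the reduced curve of level `M` with `p ∣ ord_Q G` at all places
`Q ≠ ∞`, then `θ G / G` is a `k`-linear combination of reductions of cusp forms of weight 2, level `M`. -/
theorem a4 {p : ℕ} (hM : AdmLevel M) (hp : p.Prime) (hpM : ¬ p ∣ M) (hA : A.LiesOverPrime p)
    (P : Place (kA A) (Fb A M)) (hP : ∀ z : Fb A M, P.ord z = (z : LaurentSeries (kA A)).order)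
    (G : Fb A M) (hG : G ≠ 0) (hdiv : ∀ Q : Place (kA A) (Fb A M), Q ≠ P → (p : ℤ) ∣ Q.ord G) :
    ∃ (fZ : Fin (Module.finrank ℂ (CuspForm (CongruenceSubgroup.Gamma0 M) 2)) → PowerSeries ℤ)
      (c : Fin (Module.finrank ℂ (CuspForm (CongruenceSubgroup.Gamma0 M) 2)) → kA A),
      (∀ j, IsCuspExp M (fZ j)) ∧ (∀ j, PowerSeries.constantCoeff (fZ j) = 0) ∧
      (G : LaurentSeries (kA A))⁻¹ * CT.theta (G : LaurentSeries (kA A)) =
        ∑ j, HahnSeries.C (c j) * psR (kA A) (fZ j) := by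
  have : CharP (kA A) p := charP_residueField hp hA
  exact reg_Fb hM hp hpM hA P hP _ (order_dlog_nonneg _)
    (fun Q hQ => isRegAt_dlog (ι := (Fb A M).val) p Q hG (hdiv Q hQ))

end Level

end Fermat.Agent.MR.A
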