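import Fermat.Agent.MR.A.Dif
import Fermat.Agent.GAL.CTV.UniquePole
import Fermat.Agent.GAL.CTV.Finite
import Fermat.Agent.GAL.CTV.IntVal
import Fermat.Agent.S18.QPlace

/-!
# MR / A : a field `F` with a `q`-expansion and a function `x` with a unique pole is a function field

`QData ι x u m` : `ι : F → k((q))`, `ord_q x = -m`, `ord_q u = 1`, `F = ∑_{i<m} k(x) u^i`.
Then `F/k` is a function field (`IsFF1`), `ord_q` is a place `Pinf`, and the affine ring `RA Pinf` is the integral
closure of `k[x]` in `F`.
-/

set_option autoImplicit false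

open Polynomial

noncomputable section

namespace Fermat.Agent.MR.A

open AlgebraicCurve Fermat.Agent.S24.FF Fermat.Agent.GAL.FF Fermat.Agent.GAL.KL
open Fermat.Agent.GAL.CTV IntermediateField

variable {k F : Type*} [Field k] [Field F] [Algebra k F]

/-- the data of a "curve with one point at infinity and a `q`-expansion there". -/
structure QData (ι : F →ₐ[k] LaurentSeries k) (x u : F) (m : ℕ) : Prop where
  hm : 0 < m
  hx : (ι x).order = -(m : ℤ)
  hu : (ι u).order = 1
  hspan : ∀ z : F, ∃ (d : k[X]) (p : Fin m → k[X]), d ≠ 0 ∧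
    aeval x d * z = ∑ i, aeval x (p i) * u ^ (i : ℕ)

variable {ι : F →ₐ[k] LaurentSeries k} {x u : F} {m : ℕ}

theorem QData.transcendental (H : QData ι x u m) : Transcendental k x := by
  intro halg
  have h1 : IsAlgebraic k (ι x) := halg.algHom ι
  exact transcendental_of_order_neg (ι x) (by rw [H.hx]; have := H.hm; omega) h1

theorem QData.isFF1 (H : QData ι x u m) : IsFF1 k F := by
  refine ⟨x, H.transcendental, ?_⟩
  have hx := H.transcendental
  have hmem : ∀ P : k[X], aeval x P ∈ k⟮x⟯ := fun P =>
    IntermediateField.algebra_adjoin_le_adjoin k {x} (Polynomial.aeval_mem_adjoin_singleton k x)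
  have htop : (⊤ : Submodule k⟮x⟯ F) =
      Submodule.span k⟮x⟯ (Set.range fun i : Fin m => u ^ (i : ℕ)) := by
    refine (eq_top_iff.2 fun z _ => ?_).symm
    obtain ⟨d, p, hd, h⟩ := H.hspan z
    have hd0 : aeval x d ≠ 0 := (transcendental_iff.1 hx d).mt hd
    have hz : z = ∑ i : Fin m, ((⟨aeval x d, hmem d⟩ : k⟮x⟯)⁻¹ *
        ⟨aeval x (p i), hmem (p i)⟩) • u ^ (i : ℕ) := by
      have : ∀ i : Fin m, ((⟨aeval x d, hmem d⟩ : k⟮x⟯)⁻¹ *
        ⟨aeval x (p i), hmem (p i)⟩) • u ^ (i : ℕ) =
          (aeval x d)⁻¹ * (aeval x (p i) * u ^ (i : ℕ)) := fun i => by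
        rw [Algebra.smul_def, ← mul_assoc]
        rfl
      simp only [this]
      rw [← Finset.mul_sum, ← h, inv_mul_cancel_left₀ hd0]
    rw [hz]
    exact Submodule.sum_mem _ fun i _ =>
      Submodule.smul_mem _ _ (Submodule.subset_span ⟨i, rfl⟩)
  exact ⟨htop ▸ Submodule.fg_span (Set.finite_range _)⟩

/-- the place `ord_q`. -/
theorem QData.exists_Pinf (H : QData ι x u m) : ∃ P : Place k F, ∀ z, P.ord z = (ι z).order := by
  have hu0 : u ≠ 0 := by
    rintro rfl
    have := H.hu
    rw [map_zero, HahnSeries.order_zero] at this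
    omega
  obtain ⟨P, hP⟩ := Fermat.Agent.S18.exists_place_of_ordFun (K := k) (F := F)
    (fun z => (ι z).order)
    (fun a b ha hb => by
      show (ι (a * b)).order = _
      rw [map_mul]
      exact HahnSeries.order_mul ((map_ne_zero ι).2 ha) ((map_ne_zero ι).2 hb))
    (fun a b _ _ hab => by
      show min (ι a).order (ι b).order ≤ (ι (a + b)).order
      rw [map_add]
      exact HahnSeries.min_order_le_order_add (by rw [← map_add]; exact (map_ne_zero ι).2 hab))
    (fun a _ => by
      show (ι (algebraMap k F a)).order = 0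
      rw [AlgHom.commutes, Fermat.Agent.GAL.CT.theta_algebraMap_eq_C, HahnSeries.order_C])
    u hu0 H.hu
  refine ⟨P, fun z => ?_⟩
  rcases eq_or_ne z 0 with rfl | hz
  · rw [Place.ord_zero, map_zero, HahnSeries.order_zero]
  · exact hP z hz

/-- the affine ring is the integral closure of `k[x]`. -/
theorem QData.mem_RA_iff (H : QData ι x u m) (P : Place k F) (hP : ∀ z, P.ord z = (ι z).order)
    (z : F) : z ∈ RA P ↔ IsInt k x z := by
  have := H.isFF1
  have hm := H.hm
  rw [isInt_iff_forall_valuationSubring x z]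
  constructor
  · intro hz O hO hxO
    by_cases htop : O = ⊤
    · rw [htop]; exact ValuationSubring.mem_top _
    obtain ⟨v, rfl⟩ := exists_place_of_valuationSubring O hO htop
    have hv : v ≠ P := by
      rintro rfl
      have h1 := ord_nonneg_of_mem v hxO
      rw [hP, H.hx] at h1
      omega
    exact mem_toValuationSubring_of_ord_nonneg v (hz v hv)
  · intro hz v hv
    have hO : OverK k v.toValuationSubring := v.algebraMap_mem'
    by_cases hxO : x ∈ v.toValuationSubring
    · exact ord_nonneg_of_mem v (hz _ hO hxO)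
    · exfalso
      apply hv
      apply Place.ext
      ext y
      rw [unique_pole ι x u m hm H.hx H.hu H.hspan _ hO hxO y, ← hP]
      constructor
      · exact mem_toValuationSubring_of_ord_nonneg P
      · exact ord_nonneg_of_mem P

end Fermat.Agent.MR.A
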