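import Fermat.Agent.MR.A.Main
import Fermat.Agent.MR.H.QExp

/-!
# MR / A : bridge from block (A) to the Hecke side (H-OUT, `MR/H/QExp.lean`).
-/

set_option autoImplicit false

open ModularCurve AlgebraicCurve Polynomial

noncomputable section

namespace Fermat.Agent.MR.A

open Fermat.Agent.GR Fermat.Agent.GAL Fermat.Agent.GAL.KL Fermat.Agent.GAL.KLB Fermat.Agent.GAL.KLC

variable {k : Type*} [Field k]

theorem coeff_opU (r : ℕ) [NeZero r] (w : LaurentSeries k) (n : ℤ) :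
    (opU r w).coeff n = w.coeff ((r : ℤ) * n) := rfl

theorem coeff_opT (ℓ : ℕ) [NeZero ℓ] (w : LaurentSeries k) (n : ℤ) :
    (opT ℓ w).coeff n = w.coeff ((ℓ : ℤ) * n) + (ℓ : k) * (qExpand k ℓ w).coeff n := by
  rw [opT, HahnSeries.coeff_add, GR.qContract_coeff, HahnSeries.C_mul_eq_smul, HahnSeries.coeff_smul,
    smul_eq_mul]

/-- `T_ℓ w = c w` in the shape of `MR.H.IsFormalEig`. -/
theorem isFormalEig_of_opT (M ℓ : ℕ) [NeZero ℓ] (hℓM : ¬ ℓ ∣ M) {c : k} {w : LaurentSeries k}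
    (h : opT ℓ w = HahnSeries.C c * w) : H.IsFormalEig M ℓ c w := by
  intro n
  have h1 := congrArg (fun f => HahnSeries.coeff f (n : ℤ)) h
  simp only [coeff_opT, HahnSeries.C_mul_eq_smul, HahnSeries.coeff_smul, smul_eq_mul] at h1
  rw [if_neg hℓM, ← h1]
  congr 1
  · congr 1
    push_cast
    ring
  · split_ifs with hn
    · obtain ⟨m, rfl⟩ := hn
      have hℓ : 0 < ℓ := Nat.pos_of_ne_zero (NeZero.ne ℓ)
      rw [Nat.mul_div_cancel_left m hℓ]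
      have : ((ℓ * m : ℕ) : ℤ) = (ℓ : ℤ) * (m : ℤ) := by push_cast; ring
      rw [this, qExpand_coeff_mul]
    · rw [qExpand_coeff_of_not_dvd ℓ _ (by exact_mod_cast hn), mul_zero]

/-- a quadratic relation for `U_r` in the shape of `MR.H.IsFormalRel`. -/
theorem isFormalRel_of_opU (r : ℕ) [NeZero r] (c₂ c₁ c₀ : ℤ) {w : LaurentSeries k}
    (h : HahnSeries.C (c₂ : k) * opU r (opU r w) + HahnSeries.C (c₁ : k) * opU r w
      + HahnSeries.C (c₀ : k) * w = 0) :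
    H.IsFormalRel r (C c₂ * X ^ 2 + C c₁ * X + C c₀) w := by
  intro n
  have h1 := congrArg (fun f => HahnSeries.coeff f (n : ℤ)) h
  simp only [HahnSeries.coeff_add, HahnSeries.C_mul_eq_smul, HahnSeries.coeff_smul, smul_eq_mul,
    coeff_opU, HahnSeries.coeff_zero] at h1
  have hz : ∀ i : ℕ, ((0 : ℤ) : k) * w.coeff ((n * r ^ i : ℕ) : ℤ) = 0 := fun i => by simp
  have hadd : ∀ (i : ℕ) (a b : ℤ), ((a + b : ℤ) : k) * w.coeff ((n * r ^ i : ℕ) : ℤ)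
      = (a : k) * w.coeff ((n * r ^ i : ℕ) : ℤ) + (b : k) * w.coeff ((n * r ^ i : ℕ) : ℤ) :=
    fun i a b => by push_cast; ring
  rw [Polynomial.sum_add_index _ _ _ hz hadd, Polynomial.sum_add_index _ _ _ hz hadd,
    Polynomial.C_mul_X_pow_eq_monomial, Polynomial.sum_monomial_index _ _ (hz 2),
    ← pow_one (X : ℤ[X]), Polynomial.C_mul_X_pow_eq_monomial, Polynomial.sum_monomial_index _ _ (hz 1),
    Polynomial.sum_C_index (hz 0), ← h1]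
  congr 1
  · congr 1
    · congr 2
      push_cast
      ring
    · congr 2
      push_cast
      ring
  · congr 2
    push_cast
    ring

/-- **(A) + (H-OUT)**: a Kummer generator `H` (level `N`, any) with reduction `u ∈ κ = Fb A N'` which is not a
`p`-th power, whose divisor on `Spec R'` is divisible by `p` (local form), and which is a Hecke eigenclass
(`T_ℓ H = c H^{a ℓ} g^p`, `ℓ ∈ P`; quadratic relation for `U_r`), produces the eigensystem at level `N'`. -/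
theorem occ_of_class (N' p : ℕ) [NeZero N'] (hN' : AdmLevel N') (hp : p.Prime) (hpN : ¬ p ∣ N')
    (A : ValuationSubring Qb) (hA : A.LiesOverPrime p) {N : ℕ} {Hh : LaurentSeries Qb}
    {u : LaurentSeries (kA A)} (hH : HasRed A Hh u) (hu : u ∈ Fb A N')
    (hdiv : ∀ 𝔪 : Ideal (Rb A N'), 𝔪.IsMaximal → ∃ (φ : LaurentSeries (kA A)) (s t : Rb A N'),
      s ∉ 𝔪 ∧ t ∉ 𝔪 ∧ φ ^ p * u * (t : LaurentSeries (kA A)) = (s : LaurentSeries (kA A)))
    (hnp : ¬ ∃ w ∈ Fb A N', w ^ p = u)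
    (P : Set ℕ) (a : ℕ → ℤ) (hP : ∀ ℓ ∈ P, ℓ.Prime → ¬ ℓ ∣ N' ∧ ℓ ≠ p)
    (hE : ∀ ℓ ∈ P, ℓ.Prime → ∀ [NeZero ℓ], ∃ (c : Qb) (g : LaurentSeries Qb), g ∈ FL Qb N ∧
      heckeS Qb ℓ Hh = HahnSeries.C c * Hh ^ (a ℓ) * g ^ p)
    (r : ℕ) [NeZero r] (hr : r.Prime) (hrN : r ∣ N') (hrP : r ∉ P) (c₂ c₁ c₀ : ℤ)
    (hU : ∃ (c : Qb) (g : LaurentSeries Qb), g ∈ FL Qb N ∧
      NmL Qb r (NmL Qb r Hh) ^ c₂ * NmL Qb r Hh ^ c₁ * Hh ^ c₀ = HahnSeries.C c * g ^ p) :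
    ∃ α : kA A, aeval α (C c₂ * X ^ 2 + C c₁ * X + C c₀ : ℤ[X]) = 0 ∧
      H.Occ (kA A) N' (insert r P) (Function.update (fun ℓ => ((a ℓ : ℤ) : kA A)) r α) := by
  have : IsAlgClosed (kA A) := HeckeRed_isAlgClosed_kA A
  obtain ⟨hS, hne⟩ := blockA_local N' p hN' hp hpN A hA hu hdiv hnp
  have hu0 : u ≠ 0 := by
    rintro rfl
    exact hnp ⟨0, zero_mem _, zero_pow hp.ne_zero⟩
  refine H.occ_of_formalEig N' P (fun ℓ => ((a ℓ : ℤ) : kA A)) r hr hrN hrP _ (dlog u) hne hS ?_ ?_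
  · intro ℓ hℓ hℓp
    have : NeZero ℓ := ⟨hℓp.ne_zero⟩
    obtain ⟨c, g, hg, h⟩ := hE ℓ hℓ hℓp
    obtain ⟨h1, h2⟩ := hP ℓ hℓ hℓp
    exact isFormalEig_of_opT N' ℓ h1 (opT_dlog_of_eigen hp hA
      (fun hd => h2 ((Nat.prime_dvd_prime_iff_eq hp hℓp).mp hd).symm) hg hH hu0 (a ℓ) c h)
  · obtain ⟨c, g, hg, h⟩ := hU
    exact isFormalRel_of_opU r c₂ c₁ c₀ (opU_dlog_of_rel hp hA
      (fun hd => hpN (((Nat.prime_dvd_prime_iff_eq hp hr).mp hd) ▸ hrN)) hg hH hu0 c₂ c₁ c₀ c h)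

end Fermat.Agent.MR.A
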