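import Fermat.Agent.MR.A.Defs

/-!
# MR / A : coefficient computations for Tate's proof of the residue theorem
-/

set_option autoImplicit false

noncomputable section

namespace Fermat.Agent.MR.A

open Fermat.Agent.GAL.CT

variable {k : Type*} [Field k]

/-- `q^i`. -/
def qq (k : Type*) [Field k] (i : ℤ) : LaurentSeries k := HahnSeries.single i 1

theorem T_anti {s t : ℤ} (h : s ≤ t) : T k t ≤ T k s := fun _ hφ i hi => hφ i (lt_of_lt_of_le hi h)

/-- the product of two series as a finite sum. -/
theorem coeff_mul_of_mem_T {s t : ℤ} {φ ψ : LaurentSeries k} (hφ : φ ∈ T k s) (hψ : ψ ∈ T k t) (n : ℤ) :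
    (φ * ψ).coeff n = ∑ i ∈ Finset.Icc s (n - t), φ.coeff i * ψ.coeff (n - i) := by
  classical
  rw [HahnSeries.coeff_mul]
  have hinj : Function.Injective (fun i : ℤ => ((i, n - i) : ℤ × ℤ)) := by
    intro i j hij
    exact congrArg Prod.fst hij
  rw [← Finset.sum_image (s := Finset.Icc s (n - t))
    (g := fun i : ℤ => ((i, n - i) : ℤ × ℤ))
    (f := fun ij : ℤ × ℤ => φ.coeff ij.1 * ψ.coeff ij.2) (fun a _ b _ h => hinj h)]
  refine Finset.sum_subset ?_ ?_
  · rintro ⟨a, b⟩ hab
    rw [Finset.mem_antidiagonal] at hab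
    obtain ⟨ha, hb, hab⟩ := hab
    simp only at ha hb hab
    have ha' : s ≤ a := by
      by_contra hcon
      exact ha (hφ a (not_le.1 hcon))
    have hb' : t ≤ b := by
      by_contra hcon
      exact hb (hψ b (not_le.1 hcon))
    rw [Finset.mem_image]
    refine ⟨a, Finset.mem_Icc.2 ⟨ha', by omega⟩, ?_⟩
    ext
    · rfl
    · show n - a = b
      omega
  · rintro ⟨a, b⟩ hab hnot
    rw [Finset.mem_image] at hab
    obtain ⟨i, -, hi⟩ := hab
    rw [Finset.mem_antidiagonal] at hnot
    simp only [HahnSeries.mem_support, not_and] at hnot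
    have hsum : a + b = n := by
      have h1 := congrArg Prod.fst hi
      have h2 := congrArg Prod.snd hi
      simp only at h1 h2
      omega
    by_cases ha : φ.coeff a = 0
    · simp [ha]
    · by_cases hb : ψ.coeff b = 0
      · simp [hb]
      · exact absurd hsum (hnot ha hb)

theorem mul_mem_T {s t : ℤ} {φ ψ : LaurentSeries k} (hφ : φ ∈ T k s) (hψ : ψ ∈ T k t) :
    φ * ψ ∈ T k (s + t) := by
  intro n hn
  rw [coeff_mul_of_mem_T hφ hψ n, Finset.Icc_eq_empty (by omega), Finset.sum_empty]

theorem coeff_mul_qq (φ : LaurentSeries k) (i n : ℤ) : (φ * qq k i).coeff n = φ.coeff (n - i) := by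
  have h := HahnSeries.coeff_mul_single_add (x := φ) (a := n - i) (b := i) (r := (1 : k))
  rw [sub_add_cancel, mul_one] at h
  exact h

theorem exists_mem_T (φ : LaurentSeries k) : ∃ N : ℕ, φ ∈ T k (-(N : ℤ)) := by
  refine ⟨(-φ.order).toNat, fun i hi => HahnSeries.coeff_eq_zero_of_lt_order ?_⟩
  have := Int.self_le_toNat (-φ.order)
  omega

end Fermat.Agent.MR.A
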