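import Fermat.Agent.MR.A.Coeff

/-!
# MR / A : coefficient computations for Tate's proof of the residue theorem (c1)
-/

set_option autoImplicit false

noncomputable section

namespace Fermat.Agent.MR.A

open Fermat.Agent.GAL.CT

variable {k : Type*} [Field k]

/-- `∑_{d = 0}^{N} d a_d b_{-d}`. -/
def SS (N : ℕ) (a b : LaurentSeries k) : k :=
  ∑ d ∈ Finset.range (N + 1), (d : k) * a.coeff (d : ℤ) * b.coeff (-(d : ℤ))

/-- a symmetric interval of integers, split into its two halves. -/
theorem CoeffC1_sum_Icc {M : Type*} [AddCommGroup M] (f : ℤ → M) (N : ℕ) :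
    ∑ i ∈ Finset.Icc (-(N : ℤ)) N, f i =
      ∑ d ∈ Finset.range (N + 1), f (-(d : ℤ)) + ∑ d ∈ Finset.range (N + 1), f d - f 0 := by
  induction N with
  | zero => simp
  | succ n ih =>
    have h : Finset.Icc (-((n + 1 : ℕ) : ℤ)) ((n + 1 : ℕ) : ℤ) =
        insert (-((n + 1 : ℕ) : ℤ)) (insert ((n + 1 : ℕ) : ℤ) (Finset.Icc (-(n : ℤ)) n)) := by
      ext x
      simp only [Finset.mem_Icc, Finset.mem_insert]
      push_cast
      omega
    have h1 : ((n + 1 : ℕ) : ℤ) ∉ Finset.Icc (-(n : ℤ)) n := by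
      simp only [Finset.mem_Icc]
      push_cast
      omega
    have h2 : (-((n + 1 : ℕ) : ℤ)) ∉ insert ((n + 1 : ℕ) : ℤ) (Finset.Icc (-(n : ℤ)) n) := by
      simp only [Finset.mem_Icc, Finset.mem_insert]
      push_cast
      omega
    rw [h, Finset.sum_insert h2, Finset.sum_insert h1, ih, Finset.sum_range_succ _ (n + 1),
      Finset.sum_range_succ _ (n + 1)]
    abel

/-- **(c1)** the residue of `b da`. -/
theorem coeff_zero_mul_theta {N : ℕ} {a b : LaurentSeries k} (ha : a ∈ T k (-(N : ℤ)))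
    (hb : b ∈ T k (-(N : ℤ))) : (b * theta a).coeff 0 = SS N a b - SS N b a := by
  have hθ : theta a ∈ T k (-(N : ℤ)) := fun i hi => by rw [coeff_theta, ha i hi, mul_zero]
  rw [coeff_mul_of_mem_T hb hθ 0, zero_sub, neg_neg, CoeffC1_sum_Icc]
  simp only [coeff_theta, SS, zero_sub, neg_neg, Int.cast_neg, Int.cast_natCast,
    Int.cast_zero, zero_mul, mul_zero, sub_zero]
  rw [sub_eq_add_neg, ← Finset.sum_neg_distrib]
  congr 1
  · exact Finset.sum_congr rfl fun d _ => by ring
  · exact Finset.sum_congr rfl fun d _ => by ring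

end Fermat.Agent.MR.A
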