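import Fermat.Agent.MR.A.CoeffC1

/-!
# MR / A : coefficient computations for Tate's proof of the residue theorem (c2)
-/

set_option autoImplicit false

noncomputable section

namespace Fermat.Agent.MR.A

open Fermat.Agent.GAL.CT

variable {k : Type*} [Field k]

/-- `a q^(j+1)` truncated: the terms `q^1, …, q^L` are removed. -/
def yy (L : ℕ) (a : LaurentSeries k) (j : ℕ) : LaurentSeries k :=
  a * qq k (j + 1) - ∑ j' : Fin L, (a * qq k (j + 1)).coeff ((j' : ℤ) + 1) • qq k ((j' : ℤ) + 1)

/-- the coefficients of a polynomial `∑_{1 ≤ i ≤ L} c_i q^i`. -/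
theorem CoeffC2_coeff_trunc (L : ℕ) (c : ℤ → k) (n : ℤ) :
    (∑ j' : Fin L, c ((j' : ℤ) + 1) • qq k ((j' : ℤ) + 1)).coeff n
      = if 1 ≤ n ∧ n ≤ L then c n else 0 := by
  rw [HahnSeries.coeff_sum]
  have h1 : ∀ j' : Fin L, (c ((j' : ℤ) + 1) • qq k ((j' : ℤ) + 1)).coeff n
      = if n = (j' : ℤ) + 1 then c n else 0 := by
    intro j'
    rw [HahnSeries.coeff_smul, qq, HahnSeries.coeff_single]
    split_ifs with h
    · rw [smul_eq_mul, mul_one, h]
    · rw [smul_zero]
  simp only [h1]
  split_ifs with h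
  · have hlt : (n - 1).toNat < L := by omega
    rw [Finset.sum_eq_single (⟨(n - 1).toNat, hlt⟩ : Fin L)]
    · rw [if_pos]
      show n = (((n - 1).toNat : ℕ) : ℤ) + 1
      omega
    · intro b _ hb
      rw [if_neg]
      intro hn
      apply hb
      apply Fin.ext
      show (b : ℕ) = (n - 1).toNat
      omega
    · intro h2
      exact absurd (Finset.mem_univ _) h2
  · apply Finset.sum_eq_zero
    intro b _
    rw [if_neg]
    intro hn
    apply h
    have := b.2
    omega

theorem CoeffC2_coeff_yy' (L : ℕ) (a : LaurentSeries k) (j : ℕ) (n : ℤ) :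
    (yy L a j).coeff n = a.coeff (n - (j + 1)) - if 1 ≤ n ∧ n ≤ L then a.coeff (n - (j + 1)) else 0 := by
  rw [yy, HahnSeries.coeff_sub,
    CoeffC2_coeff_trunc L (fun i => (a * qq k ((j : ℤ) + 1)).coeff i) n, coeff_mul_qq]

theorem yy_mem_T {N L : ℕ} {a : LaurentSeries k} (ha : a ∈ T k (-(N : ℤ))) {j : ℕ} (hj : N ≤ j) :
    yy L a j ∈ T k (L + 1) := by
  intro i hi
  rw [CoeffC2_coeff_yy']
  by_cases h1 : 1 ≤ i
  · rw [if_pos ⟨h1, by omega⟩, sub_self]
  · rw [if_neg (fun h => h1 h.1), sub_zero]
    apply ha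
    omega

theorem coeff_yy {L : ℕ} (a : LaurentSeries k) (j : ℕ) {n : ℤ} (hn : (L : ℤ) + 1 ≤ n) :
    (yy L a j).coeff n = a.coeff (n - (j + 1)) := by
  rw [CoeffC2_coeff_yy', if_neg (fun h => by omega), sub_zero]

/-- **(c2)** the explicit trace. -/
theorem sum_coeff_mul_yy {N L : ℕ} (hL : 2 * N ≤ L) {a b : LaurentSeries k} (ha : a ∈ T k (-(N : ℤ)))
    (hb : b ∈ T k (-(N : ℤ))) :
    ∑ j : Fin L, (if L ≤ (j : ℕ) + N then (b * yy L a j).coeff ((j : ℤ) + 1) else 0) = SS N a b := by
  classical
  -- each term as a sum over `d`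
  have hterm : ∀ j : ℕ, j < L →
      (if L ≤ j + N then (b * yy L a j).coeff ((j : ℤ) + 1) else 0)
        = ∑ d ∈ Finset.range (N + 1),
            if L ≤ j + d then a.coeff (d : ℤ) * b.coeff (-(d : ℤ)) else 0 := by
    intro j hj
    split_ifs with h
    · have hNj : N ≤ j := by omega
      rw [coeff_mul_of_mem_T hb (yy_mem_T (L := L) ha hNj), ← Finset.sum_filter]
      refine Finset.sum_nbij' (fun i => (-i).toNat) (fun d => -(d : ℤ)) ?_ ?_ ?_ ?_ ?_
      · intro i hi
        rw [Finset.mem_Icc] at hi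
        rw [Finset.mem_filter, Finset.mem_range]
        omega
      · intro d hd
        rw [Finset.mem_filter, Finset.mem_range] at hd
        rw [Finset.mem_Icc]
        omega
      · intro i hi
        rw [Finset.mem_Icc] at hi
        show -(((-i).toNat : ℕ) : ℤ) = i
        omega
      · intro d hd
        show (- -(d : ℤ)).toNat = d
        omega
      · intro i hi
        rw [Finset.mem_Icc] at hi
        rw [coeff_yy a j (by omega)]
        have e1 : (((-i).toNat : ℕ) : ℤ) = -i := by omega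
        rw [e1, neg_neg, mul_comm]
        congr 2
        ring
    · symm
      apply Finset.sum_eq_zero
      intro d hd
      rw [Finset.mem_range] at hd
      rw [if_neg (by omega)]
  have hcount : ∀ d ∈ Finset.range (N + 1), ∀ c : k,
      ∑ j ∈ Finset.range L, (if L ≤ j + d then c else 0) = (d : k) * c := by
    intro d hd c
    rw [Finset.mem_range] at hd
    rw [← Finset.sum_filter, Finset.sum_const, nsmul_eq_mul]
    congr 2
    have : (Finset.range L).filter (fun j => L ≤ j + d) = Finset.Ico (L - d) L := by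
      ext j
      rw [Finset.mem_filter, Finset.mem_range, Finset.mem_Ico]
      omega
    rw [this, Nat.card_Ico]
    omega
  rw [Fin.sum_univ_eq_sum_range
    (fun j : ℕ => if L ≤ j + N then (b * yy L a j).coeff ((j : ℤ) + 1) else 0) L,
    Finset.sum_congr rfl (fun j hj => hterm j (Finset.mem_range.1 hj)), Finset.sum_comm, SS]
  refine Finset.sum_congr rfl fun d hd => ?_
  rw [hcount d hd, mul_assoc]

end Fermat.Agent.MR.A
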