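import Fermat.Agent.GAL.CT.Theta

/-!
# MR / A : differentials on the reduction of `X₀(M')` in characteristic `p`, via `q`-expansions.
Shared definitions (no sorry).

`k` a field, `V = k((q))`.  A "differential" is a series `ω` (standing for `ω dq/q`), the residue pairing is
`(ω, b) ↦ (ω b).coeff 0`, `θ = q d/dq`, `dlog u = θu / u`.

* `T k n`      : series all of whose coefficients of index `< n` vanish
* `Perp R`     : the orthogonal of `R` for the residue pairing
* `IsAff R g`  : `R ⊆ k((q))` looks like the ring of functions regular outside `∞` on a complete curve of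
                 genus `≤ g`: `R ∩ k[[q]] = k`, and `dim (R ∩ q^{-n} k[[q]]) ≥ n + 1 - g` for arbitrarily large `n`
* `Iu R p u`, `Ju R p u` : `{g | g^p / u ∈ R}`, `{f | f^p u ∈ R}`
* `PDiv R p u` : "the divisor of `u` is divisible by `p` on `Spec R`": `1 ∈ Iu * Ju`.
-/

set_option autoImplicit false

noncomputable section

namespace Fermat.Agent.MR.A

open Fermat.Agent.GAL.CT

variable (k : Type*) [Field k]

/-- series with coefficients in degrees `≥ n` only. -/
def T (n : ℤ) : Submodule k (LaurentSeries k) where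
  carrier := {φ | ∀ i : ℤ, i < n → φ.coeff i = 0}
  add_mem' := fun ha hb i hi => by rw [HahnSeries.coeff_add, ha i hi, hb i hi, add_zero]
  zero_mem' := fun _ _ => rfl
  smul_mem' := fun c φ h i hi => by rw [HahnSeries.coeff_smul, h i hi, smul_zero]

variable {k}

theorem mem_T {n : ℤ} {φ : LaurentSeries k} : φ ∈ T k n ↔ ∀ i : ℤ, i < n → φ.coeff i = 0 := Iff.rfl

/-- the orthogonal of `R` for the residue pairing `(ω, b) ↦ (ω b).coeff 0`. -/
def Perp (R : Set (LaurentSeries k)) : Submodule k (LaurentSeries k) where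
  carrier := {ω | ∀ b ∈ R, (ω * b).coeff 0 = 0}
  add_mem' := fun ha hb c hc => by rw [add_mul, HahnSeries.coeff_add, ha c hc, hb c hc, add_zero]
  zero_mem' := fun _ _ => by rw [zero_mul]; rfl
  smul_mem' := fun c φ h b hb => by
    rw [← HahnSeries.C_mul_eq_smul, mul_assoc, HahnSeries.C_mul_eq_smul, HahnSeries.coeff_smul, h b hb,
      smul_zero]

theorem mem_Perp {R : Set (LaurentSeries k)} {ω : LaurentSeries k} :
    ω ∈ Perp R ↔ ∀ b ∈ R, (ω * b).coeff 0 = 0 := Iff.rfl

/-- logarithmic derivative. -/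
def dlog (u : LaurentSeries k) : LaurentSeries k := theta u * u⁻¹

/-- `R` looks like the ring of functions regular outside `∞` on a complete curve of genus `≤ g`. -/
structure IsAff (R : Subring (LaurentSeries k)) (g : ℕ) : Prop where
  const : ∀ c : k, HahnSeries.C c ∈ R
  b1 : ∀ φ ∈ R, φ ∈ T k 0 → ∃ c : k, φ = HahnSeries.C c
  count : ∀ n₀ : ℕ, ∃ n : ℕ, n₀ ≤ n ∧ ∃ S : Submodule k (LaurentSeries k),
    (∀ φ ∈ S, φ ∈ R) ∧ S ≤ T k (-(n : ℤ)) ∧ Module.Finite k S ∧ n + 1 ≤ Module.finrank k S + g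

/-- a subring containing the constants, as a `k`-subspace. -/
def sub (R : Subring (LaurentSeries k)) (hR : ∀ c : k, HahnSeries.C c ∈ R) :
    Submodule k (LaurentSeries k) where
  carrier := R
  add_mem' := R.add_mem
  zero_mem' := R.zero_mem
  smul_mem' := fun c φ h => by
    rw [← HahnSeries.C_mul_eq_smul]; exact R.mul_mem (hR c) h

theorem mem_sub {R : Subring (LaurentSeries k)} {hR : ∀ c : k, HahnSeries.C c ∈ R}
    {φ : LaurentSeries k} : φ ∈ sub R hR ↔ φ ∈ R := Iff.rfl

/-- `{g | g^p = u r, r ∈ R}`. -/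
def Iu (R : Subring (LaurentSeries k)) (p : ℕ) (u : LaurentSeries k) : Set (LaurentSeries k) :=
  {g | ∃ r ∈ R, g ^ p = u * r}

/-- `{f | f^p u ∈ R}`. -/
def Ju (R : Subring (LaurentSeries k)) (p : ℕ) (u : LaurentSeries k) : Set (LaurentSeries k) :=
  {f | f ^ p * u ∈ R}

/-- `e ∈ Iu * Ju` (as a finite sum of products). -/
def InIJ (R : Subring (LaurentSeries k)) (p : ℕ) (u e : LaurentSeries k) : Prop :=
  ∃ (n : ℕ) (f g : Fin n → LaurentSeries k), (∀ i, f i ∈ Ju R p u) ∧ (∀ i, g i ∈ Iu R p u) ∧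
    e = ∑ i, f i * g i

/-- "the divisor of `u` on `Spec R` is divisible by `p`". -/
def PDiv (R : Subring (LaurentSeries k)) (p : ℕ) (u : LaurentSeries k) : Prop := InIJ R p u 1

end Fermat.Agent.MR.A
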