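import Fermat.Agent.S17.FFK.Reg
import Fermat.Agent.S27.A.Api
import Fermat.Agent.GAL.CT.Theta

/-!
# MR / A : differentials regular away from one place (any characteristic)

`k` algebraically closed, `F/k` a function field with a `q`-expansion `ι : F → k((q))`, `Pinf` a place.
A differential `∑ a_i d b_i` is represented by the series `∑ ι a_i θ(ι b_i)` (`θ = q d/dq`).

* `RA Pinf`       : the affine ring (functions regular away from `Pinf`)
* `Dif ι Pinf`    : the `RA`-span of `θ(RA)`  (`= Ω_{RA/k}`)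
* `IsRegAt ι v w` : `w = ∑ ι a_i θ(ι b_i)` with `a_i, b_i` regular at the single place `v`
* `dif_of_isRegAt`: **local ⇒ global** (partition of unity): regular at every `v ≠ Pinf` ⇒ `w ∈ Dif`
* `isRegAt_dlog`  : `θ g / g` is regular at `v` if `p ∣ ord_v g` (characteristic `p`)
* `isRegAt_theta_of_pow` : `θ a` is regular at `v` if `a - b ^ p` is regular at `v`
-/

set_option autoImplicit false

noncomputable section

namespace Fermat.Agent.MR.A

open AlgebraicCurve Fermat.Agent.S24.FF Fermat.Agent.GAL.FF Fermat.Agent.S27 Fermat.Agent.S17.FFK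
open Fermat.Agent.GAL.CT

variable {k F : Type*} [Field k] [Field F] [Algebra k F]

/-- the ring of functions regular away from `Pinf`. -/
def RA (Pinf : Place k F) : Subring F where
  carrier := {z | ∀ v : Place k F, v ≠ Pinf → 0 ≤ v.ord z}
  mul_mem' := fun ha hb v hv => ord_mul_nonneg v (ha v hv) (hb v hv)
  one_mem' := fun v _ => by rw [Place.ord_one]
  add_mem' := fun ha hb v hv => ord_add_nonneg v (ha v hv) (hb v hv)
  zero_mem' := fun v _ => by rw [Place.ord_zero]
  neg_mem' := fun ha v hv => ord_neg_nonneg v (ha v hv)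

theorem mem_RA {Pinf : Place k F} {z : F} :
    z ∈ RA Pinf ↔ ∀ v : Place k F, v ≠ Pinf → 0 ≤ v.ord z := Iff.rfl

theorem algebraMap_mem_RA (Pinf : Place k F) (c : k) : algebraMap k F c ∈ RA Pinf :=
  fun v _ => ord_algebraMap_nonneg v c

/-- the `RA`-span of `θ(RA)`. -/
def Dif (ι : F →ₐ[k] LaurentSeries k) (Pinf : Place k F) : Set (LaurentSeries k) :=
  {w | ∃ (n : ℕ) (c u : Fin n → F), (∀ i, c i ∈ RA Pinf) ∧ (∀ i, u i ∈ RA Pinf) ∧
    w = ∑ i, ι (c i) * theta (ι (u i))}

/-- `w` is a differential regular at `v`. -/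
def IsRegAt (ι : F →ₐ[k] LaurentSeries k) (v : Place k F) (w : LaurentSeries k) : Prop :=
  ∃ (n : ℕ) (a b : Fin n → F), (∀ i, 0 ≤ v.ord (a i)) ∧ (∀ i, 0 ≤ v.ord (b i)) ∧
    w = ∑ i, ι (a i) * theta (ι (b i))

variable {ι : F →ₐ[k] LaurentSeries k} {Pinf : Place k F}

/-! ### closure properties -/

theorem Dif.zero : (0 : LaurentSeries k) ∈ Dif ι Pinf :=
  ⟨0, Fin.elim0, Fin.elim0, fun i => i.elim0, fun i => i.elim0, by simp⟩

theorem Dif.single {c u : F} (hc : c ∈ RA Pinf) (hu : u ∈ RA Pinf) :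
    ι c * theta (ι u) ∈ Dif ι Pinf :=
  ⟨1, fun _ => c, fun _ => u, fun _ => hc, fun _ => hu, by simp⟩

theorem Dif.add {w w' : LaurentSeries k} (h : w ∈ Dif ι Pinf) (h' : w' ∈ Dif ι Pinf) :
    w + w' ∈ Dif ι Pinf := by
  obtain ⟨n, c, u, hc, hu, rfl⟩ := h
  obtain ⟨n', c', u', hc', hu', rfl⟩ := h'
  refine ⟨n + n', Fin.append c c', Fin.append u u', ?_, ?_, ?_⟩
  · intro i
    refine Fin.addCases (fun j => ?_) (fun j => ?_) i
    · rw [Fin.append_left]; exact hc j
    · rw [Fin.append_right]; exact hc' j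
  · intro i
    refine Fin.addCases (fun j => ?_) (fun j => ?_) i
    · rw [Fin.append_left]; exact hu j
    · rw [Fin.append_right]; exact hu' j
  · rw [Fin.sum_univ_add]
    simp only [Fin.append_left, Fin.append_right]

theorem Dif.mul {e : F} (he : e ∈ RA Pinf) {w : LaurentSeries k} (h : w ∈ Dif ι Pinf) :
    ι e * w ∈ Dif ι Pinf := by
  obtain ⟨n, c, u, hc, hu, rfl⟩ := h
  refine ⟨n, fun i => e * c i, u, fun i => (RA Pinf).mul_mem he (hc i), hu, ?_⟩
  rw [Finset.mul_sum]
  exact Finset.sum_congr rfl fun i _ => by rw [map_mul, mul_assoc]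

theorem Dif.neg {w : LaurentSeries k} (h : w ∈ Dif ι Pinf) : -w ∈ Dif ι Pinf := by
  have := Dif.mul (ι := ι) ((RA Pinf).neg_mem (RA Pinf).one_mem) h
  simpa using this

theorem Dif.sub {w w' : LaurentSeries k} (h : w ∈ Dif ι Pinf) (h' : w' ∈ Dif ι Pinf) :
    w - w' ∈ Dif ι Pinf := by
  rw [sub_eq_add_neg]; exact Dif.add h (Dif.neg h')

theorem Dif.sum {J : Type*} (s : Finset J) (w : J → LaurentSeries k)
    (h : ∀ j ∈ s, w j ∈ Dif ι Pinf) : ∑ j ∈ s, w j ∈ Dif ι Pinf := by
  classical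
  induction s using Finset.induction_on with
  | empty => simpa using Dif.zero
  | insert a s ha ih =>
    rw [Finset.sum_insert ha]
    exact Dif.add (h a (Finset.mem_insert_self a s))
      (ih fun j hj => h j (Finset.mem_insert_of_mem hj))

theorem IsRegAt.single {v : Place k F} {a b : F} (ha : 0 ≤ v.ord a) (hb : 0 ≤ v.ord b) :
    IsRegAt ι v (ι a * theta (ι b)) :=
  ⟨1, fun _ => a, fun _ => b, fun _ => ha, fun _ => hb, by simp⟩

theorem IsRegAt.theta {v : Place k F} {b : F} (hb : 0 ≤ v.ord b) : IsRegAt ι v (theta (ι b)) := by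
  have := IsRegAt.single (ι := ι) (v := v) (a := 1) (b := b) (by rw [Place.ord_one]) hb
  simpa using this

theorem IsRegAt.add {v : Place k F} {w w' : LaurentSeries k} (h : IsRegAt ι v w)
    (h' : IsRegAt ι v w') : IsRegAt ι v (w + w') := by
  obtain ⟨n, c, u, hc, hu, rfl⟩ := h
  obtain ⟨n', c', u', hc', hu', rfl⟩ := h'
  refine ⟨n + n', Fin.append c c', Fin.append u u', ?_, ?_, ?_⟩
  · intro i
    refine Fin.addCases (fun j => ?_) (fun j => ?_) i
    · rw [Fin.append_left]; exact hc j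
    · rw [Fin.append_right]; exact hc' j
  · intro i
    refine Fin.addCases (fun j => ?_) (fun j => ?_) i
    · rw [Fin.append_left]; exact hu j
    · rw [Fin.append_right]; exact hu' j
  · rw [Fin.sum_univ_add]
    simp only [Fin.append_left, Fin.append_right]

theorem IsRegAt.mul {v : Place k F} {e : F} (he : 0 ≤ v.ord e) {w : LaurentSeries k}
    (h : IsRegAt ι v w) : IsRegAt ι v (ι e * w) := by
  obtain ⟨n, c, u, hc, hu, rfl⟩ := h
  refine ⟨n, fun i => e * c i, u, fun i => ord_mul_nonneg v he (hc i), hu, ?_⟩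
  rw [Finset.mul_sum]
  exact Finset.sum_congr rfl fun i _ => by rw [map_mul, mul_assoc]

theorem Dif.isRegAt {w : LaurentSeries k} (h : w ∈ Dif ι Pinf) {v : Place k F} (hv : v ≠ Pinf) :
    IsRegAt ι v w := by
  obtain ⟨n, c, u, hc, hu, rfl⟩ := h
  exact ⟨n, c, u, fun i => hc i v hv, fun i => hu i v hv, rfl⟩

/-! ### existence of functions in `RA` -/

section Exist

variable [IsAlgClosed k] [IsFF1 k F]

/-- for an effective divisor `E` there is `s ∈ RA`, `s ≠ 0`, a unit at `v`, with `ord_{v'} s ≥ E v'` at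
all `v' ≠ v, Pinf`. -/
theorem exists_mem_RA_ord (Pinf v : Place k F) (hv : v ≠ Pinf) (E : Divisor k F) (hE : 0 ≤ E) :
    ∃ s ∈ RA Pinf, s ≠ 0 ∧ v.ord s = 0 ∧ ∀ v' : Place k F, v' ≠ v → v' ≠ Pinf → E v' ≤ v'.ord s := by
  classical
  obtain ⟨c, hc⟩ := exists_isReg k F
  set E' : Divisor k F := (E.erase v).erase Pinf with hE'
  set n : ℤ := c + 1 + Divisor.degree E' with hn
  set D : Divisor k F := Finsupp.single Pinf n - E' with hD
  have hdeg : c + 1 ≤ Divisor.degree D := by
    rw [hD, map_sub, degree_single_one, hn]; omega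
  obtain ⟨s, hs, hs0, hsv⟩ := hc.exists_ord_eq hdeg {v}
  rw [mem_riemannRochSpace_iff] at hs
  have hDv : ∀ v' : Place k F, v' ≠ Pinf → D v' = - E' v' := by
    intro v' hv'
    rw [hD, Finsupp.sub_apply, Finsupp.single_eq_of_ne hv', zero_sub]
  have hE'v : E' v = 0 := by
    rw [hE', Finsupp.erase_ne hv, Finsupp.erase_same]
  have hE'o : ∀ v' : Place k F, v' ≠ v → v' ≠ Pinf → E' v' = E v' := by
    intro v' h1 h2
    rw [hE', Finsupp.erase_ne h2, Finsupp.erase_ne h1]
  have hord : ∀ v' : Place k F, v' ≠ Pinf → E' v' ≤ v'.ord s := by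
    intro v' hv'
    have := (hs v').resolve_left hs0
    rw [hDv v' hv', neg_neg] at this
    exact this
  refine ⟨s, ?_, hs0, ?_, ?_⟩
  · intro v' hv'
    refine le_trans ?_ (hord v' hv')
    by_cases h : v' = v
    · rw [h, hE'v]
    · rw [hE'o v' h hv']; exact hE v'
  · rw [hsv v (Finset.mem_singleton_self v), hDv v hv, hE'v, neg_zero, neg_zero]
  · intro v' h1 h2
    rw [← hE'o v' h1 h2]
    exact hord v' h2

/-- clearing denominators away from `v`. -/
theorem exists_clear (Pinf v : Place k F) (hv : v ≠ Pinf) {J : Type*} (T : Finset J) (y : J → F)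
    (hy : ∀ j ∈ T, 0 ≤ v.ord (y j)) :
    ∃ s ∈ RA Pinf, s ≠ 0 ∧ v.ord s = 0 ∧ ∀ j ∈ T, s * y j ∈ RA Pinf := by
  classical
  -- the polar divisor
  set E : Divisor k F := ∑ j ∈ T, (divOf k (y j)).mapRange (fun a : ℤ => max (-a) 0) (by simp)
    with hEdef
  have hEapp : ∀ v' : Place k F, E v' = ∑ j ∈ T, max (-(v'.ord (y j))) 0 := by
    intro v'
    rw [hEdef, Finsupp.finsetSum_apply]
    exact Finset.sum_congr rfl fun j _ => by rw [Finsupp.mapRange_apply, divOf_apply]
  have hE : 0 ≤ E := by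
    intro v'
    rw [hEapp]
    exact Finset.sum_nonneg fun j _ => le_max_right _ _
  obtain ⟨s, hs, hs0, hsv, hso⟩ := exists_mem_RA_ord Pinf v hv E hE
  refine ⟨s, hs, hs0, hsv, fun j hj v' hv' => ?_⟩
  rcases eq_or_ne (y j) 0 with h0 | h0
  · rw [h0, mul_zero, Place.ord_zero]
  rw [v'.ord_mul hs0 h0]
  by_cases h : v' = v
  · rw [h, hsv, zero_add]; exact hy j hj
  · have h1 := hso v' h hv'
    have h2 : max (-(v'.ord (y j))) 0 ≤ E v' := by
      rw [hEapp]
      exact Finset.single_le_sum (f := fun j => max (-(v'.ord (y j))) 0)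
        (fun i _ => le_max_right _ _) hj
    have h3 := le_max_left (-(v'.ord (y j))) 0
    omega

/-- there is a function in `RA` with a pole at `Pinf`. -/
theorem exists_mem_RA_pole (Pinf : Place k F) : ∃ f ∈ RA Pinf, f ≠ 0 ∧ Pinf.ord f < 0 := by
  classical
  obtain ⟨c, hc⟩ := exists_isReg k F
  set n : ℤ := max (c + 1) 1 with hn
  have hdeg : c + 1 ≤ Divisor.degree (Finsupp.single Pinf n : Divisor k F) := by
    rw [degree_single_one]; exact le_max_left _ _
  obtain ⟨f, hf, hf0, hfv⟩ := hc.exists_ord_eq hdeg {Pinf}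
  rw [mem_riemannRochSpace_iff] at hf
  refine ⟨f, fun v hv => ?_, hf0, ?_⟩
  · have := (hf v).resolve_left hf0
    rwa [Finsupp.single_eq_of_ne hv, neg_zero] at this
  · rw [hfv Pinf (Finset.mem_singleton_self _), Finsupp.single_eq_same]
    have : (1 : ℤ) ≤ n := le_max_right _ _
    omega

/-- **partition of unity**: an ideal of `RA` without common zero is the unit ideal. -/
theorem ideal_eq_top (Pinf : Place k F) (I : Ideal (RA Pinf))
    (h : ∀ v : Place k F, v ≠ Pinf → ∃ e : RA Pinf, e ∈ I ∧ (e : F) ≠ 0 ∧ v.ord (e : F) = 0) :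
    I = ⊤ := by
  by_contra hne
  obtain ⟨B, hRB, hB⟩ := Ideal.image_subset_nonunits_valuationSubring I hne
  obtain ⟨f, hf, hf0, hfP⟩ := exists_mem_RA_pole Pinf
  have hK : ∀ a : k, algebraMap k F a ∈ B := fun a => hRB (algebraMap_mem_RA Pinf a)
  have hnot : ∀ v : Place k F, v.toValuationSubring = B → False := by
    intro v hvB
    have hvP : v ≠ Pinf := by
      rintro rfl
      have h1 : f ∈ v.toValuationSubring := by rw [hvB]; exact hRB hf
      have := ord_nonneg_of_mem v h1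
      omega
    obtain ⟨e, heI, he0, hev⟩ := h v hvP
    have h1 : (e : F) ∈ B.nonunits := hB ⟨e, heI, rfl⟩
    have h2 : B.valuation (e : F) < 1 := (B.mem_nonunits_iff).1 h1
    have h3 : (e : F)⁻¹ ∈ v.toValuationSubring := by
      apply mem_toValuationSubring_of_ord_nonneg
      rw [v.ord_inv, hev, neg_zero]
    rw [hvB] at h3
    have h4 := (B.valuation_le_one_iff _).2 h3
    rw [map_inv₀] at h4
    have h5 : B.valuation (e : F) * (B.valuation (e : F))⁻¹ = 1 :=
      mul_inv_cancel₀ ((Valuation.ne_zero_iff _).2 he0)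
    have h6 : B.valuation (e : F) * (B.valuation (e : F))⁻¹ ≤ B.valuation (e : F) * 1 := by gcongr
    rw [h5, mul_one] at h6
    exact absurd h2 (not_lt.2 h6)
  by_cases htop : B = ⊤
  · -- then all elements of `I` vanish; but there is a place `≠ Pinf`
    have hft : Transcendental k f := by
      apply transcendental_of_not_mem_range
      rintro ⟨a, rfl⟩
      rw [ord_algebraMap] at hfP
      omega
    obtain ⟨v, hv⟩ := exists_place_ord_pos hft
    have hvP : v ≠ Pinf := by
      rintro rfl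
      omega
    obtain ⟨e, heI, he0, -⟩ := h v hvP
    have h1 : (e : F) ∈ B.nonunits := hB ⟨e, heI, rfl⟩
    have h2 : B.valuation (e : F) < 1 := (B.mem_nonunits_iff).1 h1
    have h3 : (e : F)⁻¹ ∈ B := by rw [htop]; exact ValuationSubring.mem_top _
    have h4 := (B.valuation_le_one_iff _).2 h3
    rw [map_inv₀] at h4
    have h5 : B.valuation (e : F) * (B.valuation (e : F))⁻¹ = 1 :=
      mul_inv_cancel₀ ((Valuation.ne_zero_iff _).2 he0)
    have h6 : B.valuation (e : F) * (B.valuation (e : F))⁻¹ ≤ B.valuation (e : F) * 1 := by gcongr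
    rw [h5, mul_one] at h6
    exact absurd h2 (not_lt.2 h6)
  · obtain ⟨v, hvB⟩ := exists_place_of_valuationSubring B hK htop
    exact hnot v hvB

end Exist

/-! ### local ⇒ global -/

section Glue

variable [IsAlgClosed k] [IsFF1 k F]

/-- the ideal of multipliers of `w` into `Dif`. -/
def mulIdeal (ι : F →ₐ[k] LaurentSeries k) (Pinf : Place k F) (w : LaurentSeries k) :
    Ideal (RA Pinf) where
  carrier := {e | ι (e : F) * w ∈ Dif ι Pinf}
  add_mem' := by
    intro a b ha hb
    show ι ((a + b : RA Pinf) : F) * w ∈ Dif ι Pinf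
    rw [Subring.coe_add, map_add, add_mul]
    exact Dif.add ha hb
  zero_mem' := by
    show ι ((0 : RA Pinf) : F) * w ∈ Dif ι Pinf
    rw [Subring.coe_zero, map_zero, zero_mul]
    exact Dif.zero
  smul_mem' := by
    intro c a ha
    show ι ((c • a : RA Pinf) : F) * w ∈ Dif ι Pinf
    rw [smul_eq_mul, Subring.coe_mul, map_mul, mul_assoc]
    exact Dif.mul c.2 ha

/-- `w ∈ Dif` as soon as for every `v ≠ Pinf` some `e ∈ RA`, a unit at `v`, multiplies `w` into `Dif`. -/
theorem dif_of_local (w : LaurentSeries k)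
    (h : ∀ v : Place k F, v ≠ Pinf → ∃ e ∈ RA Pinf, e ≠ 0 ∧ v.ord e = 0 ∧ ι e * w ∈ Dif ι Pinf) :
    w ∈ Dif ι Pinf := by
  have htop : mulIdeal ι Pinf w = ⊤ := by
    apply ideal_eq_top
    intro v hv
    obtain ⟨e, he, he0, hev, hew⟩ := h v hv
    exact ⟨⟨e, he⟩, hew, he0, hev⟩
  have h1 : (1 : RA Pinf) ∈ mulIdeal ι Pinf w := by rw [htop]; trivial
  have h2 : ι ((1 : RA Pinf) : F) * w ∈ Dif ι Pinf := h1
  rwa [Subring.coe_one, map_one, one_mul] at h2

/-- **local ⇒ global**: a differential regular at every place `v ≠ Pinf` lies in `Dif`. -/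
theorem dif_of_isRegAt (w : LaurentSeries k) (h : ∀ v : Place k F, v ≠ Pinf → IsRegAt ι v w) :
    w ∈ Dif ι Pinf := by
  classical
  apply dif_of_local
  intro v hv
  obtain ⟨n, a, b, ha, hb, rfl⟩ := h v hv
  obtain ⟨s, hs, hs0, hsv, hsy⟩ := exists_clear Pinf v hv (Finset.univ : Finset (Fin n ⊕ Fin n))
    (Sum.elim a b) (by
      rintro (i | i) _
      · exact ha i
      · exact hb i)
  refine ⟨s ^ 3, (RA Pinf).pow_mem hs 3, pow_ne_zero _ hs0, by rw [ord_pow, hsv, mul_zero], ?_⟩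
  rw [Finset.mul_sum]
  apply Dif.sum
  intro i _
  have h1 : s * a i ∈ RA Pinf := hsy (Sum.inl i) (Finset.mem_univ _)
  have h2 : s * b i ∈ RA Pinf := hsy (Sum.inr i) (Finset.mem_univ _)
  have e : ι (s ^ 3) * (ι (a i) * theta (ι (b i))) =
      ι (s * a i) * (ι s * theta (ι (s * b i))) - ι (s * a i) * (ι (s * b i) * theta (ι s)) := by
    rw [map_mul ι s (b i), theta_mul]
    simp only [map_mul, map_pow]
    ring
  rw [e]
  exact Dif.sub (Dif.mul h1 (Dif.single hs h2)) (Dif.mul h1 (Dif.single h2 hs))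

end Glue

/-! ### logarithmic and exact differentials in characteristic `p` -/

section CharP

variable (p : ℕ) [CharP k p]

/-- `θ g / g` is regular at `v` if `p ∣ ord_v g`. -/
theorem isRegAt_dlog (v : Place k F) {g : F} (hg : g ≠ 0) (hdiv : (p : ℤ) ∣ v.ord g) :
    IsRegAt ι v ((ι g)⁻¹ * theta (ι g)) := by
  obtain ⟨m, hm⟩ := hdiv
  obtain ⟨z, hz0, hz⟩ := exists_ne_zero_ord_eq v (-m)
  set u : F := g * z ^ p with hu
  have hu0 : u ≠ 0 := mul_ne_zero hg (pow_ne_zero _ hz0)
  have huv : v.ord u = 0 := by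
    rw [hu, v.ord_mul hg (pow_ne_zero _ hz0), ord_pow, hz, hm]; ring
  have h1 : theta (ι u) = theta (ι g) * ι z ^ p := by
    rw [hu, map_mul, theta_mul, map_pow, theta_pow_char p, mul_zero, add_zero]
  have hιg : ι g ≠ 0 := (map_ne_zero ι).2 hg
  have hιz : ι z ≠ 0 := (map_ne_zero ι).2 hz0
  have h2 : (ι g)⁻¹ * theta (ι g) = ι u⁻¹ * theta (ι u) := by
    rw [h1, map_inv₀, hu, map_mul, map_pow]
    field_simp
  rw [h2]
  exact IsRegAt.single (by rw [v.ord_inv, huv, neg_zero]) huv.ge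

/-- `θ a` is regular at `v` if `a - b ^ p` is regular at `v` for some `b`. -/
theorem isRegAt_theta_of_pow (v : Place k F) {a b : F} (h : 0 ≤ v.ord (a - b ^ p)) :
    IsRegAt ι v (theta (ι a)) := by
  have h1 : theta (ι a) = theta (ι (a - b ^ p)) := by
    rw [map_sub, theta_sub, map_pow, theta_pow_char p, sub_zero]
  rw [h1]
  exact IsRegAt.theta h

end CharP

end Fermat.Agent.MR.A
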