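import Fermat.Agent.MR.A.Tate

/-!
# MR / A : `dlog u` is orthogonal to `R` when the divisor of `u` on `Spec R` is divisible by `p`
-/

set_option autoImplicit false

noncomputable section

namespace Fermat.Agent.MR.A

open Fermat.Agent.GAL.CT

variable {k : Type*} [Field k]

theorem dlog_mul {u v : LaurentSeries k} (hu : u ≠ 0) (hv : v ≠ 0) :
    dlog (u * v) = dlog u + dlog v := by
  rw [dlog, dlog, dlog, theta_mul]
  field_simp

theorem dlog_inv (u : LaurentSeries k) : dlog u⁻¹ = -dlog u := by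
  rcases eq_or_ne u 0 with rfl | hu
  · simp [dlog, theta_zero]
  rw [dlog, dlog, theta_inv, inv_inv]
  field_simp

theorem dlog_pow_char (p : ℕ) [CharP k p] (u : LaurentSeries k) : dlog (u ^ p) = 0 := by
  rw [dlog, theta_pow_char, zero_mul]

theorem dlog_C (c : k) : dlog (HahnSeries.C c : LaurentSeries k) = 0 := by
  rw [dlog, theta_C, zero_mul]

/-- `dlog u` has no polar part. -/
theorem dlog_mem_T (u : LaurentSeries k) : dlog u ∈ T k 0 := by
  rcases eq_or_ne u 0 with rfl | hu
  · rw [dlog, theta_zero, zero_mul]; exact (T k 0).zero_mem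
  have h1 : theta u ∈ T k u.order := fun i hi => by
    rw [coeff_theta, HahnSeries.coeff_eq_zero_of_lt_order hi, mul_zero]
  have h2 : u⁻¹ ∈ T k (-u.order) := fun i hi => by
    apply HahnSeries.coeff_eq_zero_of_lt_order
    have h3 : (u * u⁻¹).order = u.order + (u⁻¹).order := HahnSeries.order_mul hu (inv_ne_zero hu)
    rw [mul_inv_cancel₀ hu, HahnSeries.order_one] at h3
    omega
  have := mul_mem_T h1 h2
  rwa [add_neg_cancel] at this

/-- `e ∈ Iu Ju` implies that `e^p dlog u` is an `R`-combination of exact differentials. -/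
theorem exists_eq_sum_of_inIJ (p : ℕ) [Fact p.Prime] [CharP k p] {R : Subring (LaurentSeries k)}
    {u e : LaurentSeries k} (hu : u ≠ 0) (h : InIJ R p u e) :
    ∃ (n : ℕ) (r a : Fin n → LaurentSeries k), (∀ i, r i ∈ R) ∧ (∀ i, a i ∈ R) ∧
      e ^ p * dlog u = ∑ i, r i * theta (a i) := by
  obtain ⟨n, f, g, hf, hg, he⟩ := h
  choose r hr hgr using hg
  have : CharP (LaurentSeries k) p := by
    have hinj : Function.Injective (HahnSeries.C : k →+* LaurentSeries k) := HahnSeries.C_injective
    exact (RingHom.charP_iff _ hinj p).mp inferInstance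
  refine ⟨n, r, fun i => f i ^ p * u, hr, hf, ?_⟩
  rw [he, sum_pow_char, Finset.sum_mul]
  refine Finset.sum_congr rfl fun i _ => ?_
  rw [theta_mul, theta_pow_char, zero_mul, zero_add, mul_pow, hgr i, dlog]
  field_simp

theorem pow_mul_dlog_mem_Perp (p : ℕ) [Fact p.Prime] [CharP k p] {R : Subring (LaurentSeries k)} {g : ℕ}
    (hR : IsAff R g) {u e : LaurentSeries k} (hu : u ≠ 0) (h : InIJ R p u e) :
    e ^ p * dlog u ∈ Perp (R : Set (LaurentSeries k)) := by
  obtain ⟨n, r, a, hr, ha, hs⟩ := exists_eq_sum_of_inIJ p hu h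
  intro b hb
  rw [hs, Finset.sum_mul]
  have : ∀ i, (r i * theta (a i) * b).coeff 0 = 0 := fun i => by
    rw [mul_right_comm]
    exact hR.residue (ha i) (R.mul_mem (hr i) hb)
  have h2 : (∑ i, r i * theta (a i) * b).coeff 0 = ∑ i, (r i * theta (a i) * b).coeff 0 :=
    map_sum (HahnSeries.coeff.addMonoidHom 0) _ _
  rw [h2]
  exact Finset.sum_eq_zero fun i _ => this i

/-- **DLOG**: if the divisor of `u` on `Spec R` is divisible by `p`, `dlog u ⊥ R`. -/
theorem dlog_mem_Perp (p : ℕ) [Fact p.Prime] [CharP k p] {R : Subring (LaurentSeries k)} {g : ℕ}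
    (hR : IsAff R g) {u : LaurentSeries k} (hu : u ≠ 0) (h : PDiv R p u) :
    dlog u ∈ Perp (R : Set (LaurentSeries k)) := by
  have := pow_mul_dlog_mem_Perp p hR hu h
  rwa [one_pow, one_mul] at this

end Fermat.Agent.MR.A
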