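import Fermat.Agent.MR.A.DlogPerp
import Fermat.Agent.MR.A.Inst
import Fermat.Agent.MR.A.Dual

/-!
# MR / A : regular differentials on the reduction of `X₀(M)` are reductions of cusp forms;
`dlog u ∈ S₂(M, k)` when the divisor of `u` is divisible by `p` outside `∞`.
-/

set_option autoImplicit false

open ModularCurve AlgebraicCurve Polynomial

noncomputable section

namespace Fermat.Agent.MR.A

open Fermat.Agent.GR Fermat.Agent.GAL Fermat.Agent.GAL.KL Fermat.Agent.GAL.KLB Fermat.Agent.GAL.KLC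

/-- **REG**: a series without polar part which is orthogonal to `Rb A M` lies in `S2b`. -/
theorem mem_S2b_of_mem_Perp (M ℓ : ℕ) [NeZero M] (hM : AdmLevel M) (hℓ : ℓ.Prime) (hℓM : ¬ ℓ ∣ M)
    (A : ValuationSubring Qb) (hA : A.LiesOverPrime ℓ) {w : LaurentSeries (kA A)}
    (h0 : w ∈ T (kA A) 0) (hw : w ∈ Perp (Rb A M : Set (LaurentSeries (kA A)))) :
    w ∈ S2b (kA A) M := by
  rcases eq_or_ne w 0 with rfl | hne
  · exact zero_mem _
  have hc0 : w.coeff 0 = 0 := by
    have := hw 1 (Rb A M).one_mem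
    rwa [mul_one] at this
  have hord : 0 < w.order := by
    by_contra hcon
    have h1 : w.coeff w.order ≠ 0 := fun h => hne (HahnSeries.coeff_order_eq_zero.mp h)
    rcases lt_or_eq_of_le (not_lt.mp hcon) with h | h
    · exact h1 (h0 _ h)
    · rw [h] at h1; exact h1 hc0
  obtain ⟨fZ, c, hfc, -, hs⟩ := reg_of_ct M ℓ hM hℓ hℓM A hA w hord (fun z hz φ hred hint => by
    rw [mul_comm]
    exact hw φ ⟨mem_Fb.mpr ⟨z, hz, hred⟩, hint⟩)
  rw [hs]
  refine Submodule.sum_mem _ fun j _ => ?_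
  rw [HahnSeries.C_mul_eq_smul]
  exact Submodule.smul_mem _ _ (Submodule.subset_span ⟨fZ j, hfc j, rfl⟩)

/-- **DLOG ⇒ cusp form**: if the divisor of `u` on `Spec (Rb A M)` is divisible by `p`, then `dlog u` is
(the reduction of) a cusp form of weight 2 and level `M`. -/
theorem dlog_mem_S2b (M p : ℕ) [NeZero M] (hM : AdmLevel M) (hp : p.Prime) (hpM : ¬ p ∣ M)
    (A : ValuationSubring Qb) (hA : A.LiesOverPrime p) {u : LaurentSeries (kA A)} (hu : u ≠ 0)
    (h : PDiv (Rb A M) p u) : dlog u ∈ S2b (kA A) M := by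
  have : CharP (kA A) p := charP_residueField hp hA
  have : Fact p.Prime := ⟨hp⟩
  exact mem_S2b_of_mem_Perp M p hM hp hpM A hA (dlog_mem_T u)
    (dlog_mem_Perp p (isAff_Rb M p hM hp hpM A hA) hu h)

end Fermat.Agent.MR.A
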