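import Fermat.Agent.MR.A.Bridge

/-!
# MR / A : glue from the output of the cover theorem (`MR.C.cover_out`) to block (A).

`cover_out` says: the reductions `r u` of the elements `u = φ^n w` of the chart ring generate the unit ideal of `R`.
* `span_of_cover` : if `r` is the restriction of a reduction map `ρ : O_v → k((q))`, then the elements `φ̄^n ρ(w)` of `R` generate
  the unit ideal;
* `blockA_span`, `occ_of_class_span` : block (A) (+ H-OUT) with this hypothesis.
-/

set_option autoImplicit false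

open ModularCurve AlgebraicCurve Polynomial

noncomputable section

namespace Fermat.Agent.MR.A

open Fermat.Agent.GR Fermat.Agent.GAL Fermat.Agent.GAL.KL Fermat.Agent.GAL.KLB Fermat.Agent.GAL.KLC

/-- from the abstract output of the cover theorem to a statement on `q`-expansions. -/
theorem span_of_cover {k E Γ₀ : Type*} [Field k] [Field E] [LinearOrderedCommGroupWithZero Γ₀]
    (v : Valuation E Γ₀) (ρ : v.integer →+* LaurentSeries k) (B : Subring E)
    (hB : ∀ z ∈ B, v z ≤ 1) (R : Subring (LaurentSeries k)) (r : B →+* R)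
    (hr : ∀ z : B, (r z : LaurentSeries k) = ρ ⟨z, hB z z.2⟩) {n : ℕ} (hn : 0 < n) {w : E}
    (hw : v w = 1)
    (h : Ideal.span {x : R | ∃ u : B, (∃ φ : E, (u : E) = φ ^ n * w) ∧ x = r u} = ⊤) :
    Ideal.span {x : R | ∃ φ : LaurentSeries k, (x : LaurentSeries k) = φ ^ n * ρ ⟨w, hw.le⟩} = ⊤ := by
  rw [eq_top_iff, ← h]
  apply Ideal.span_mono
  rintro x ⟨u, ⟨φ, hu⟩, rfl⟩
  have h1 : v φ ≤ 1 := by
    have h2 := hB u u.2
    rw [hu, map_mul, hw, mul_one, map_pow] at h2
    by_contra hcon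
    exact absurd h2 (not_le.mpr (one_lt_pow₀ (not_le.mp hcon) hn.ne'))
  refine ⟨ρ ⟨φ, h1⟩, ?_⟩
  rw [hr, ← map_pow, ← map_mul]
  congr 1
  exact Subtype.ext hu

/-- the local hypothesis of `blockA_local` from the "unit ideal" form. -/
theorem local_of_span {k : Type*} [Field k] {R : Subring (LaurentSeries k)} {p : ℕ}
    {u : LaurentSeries k}
    (h : Ideal.span {x : R | ∃ φ : LaurentSeries k, (x : LaurentSeries k) = φ ^ p * u} = ⊤) :
    ∀ 𝔪 : Ideal R, 𝔪.IsMaximal → ∃ (φ : LaurentSeries k) (s t : R),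
      s ∉ 𝔪 ∧ t ∉ 𝔪 ∧ φ ^ p * u * (t : LaurentSeries k) = (s : LaurentSeries k) := by
  intro 𝔪 hm
  by_contra hcon
  apply hm.ne_top
  rw [eq_top_iff, ← h, Ideal.span_le]
  rintro x ⟨φ, hx⟩
  by_contra hx𝔪
  exact hcon ⟨φ, x, 1, hx𝔪, fun h1 => hm.ne_top ((Ideal.eq_top_iff_one _).mpr h1), by
    rw [hx]; simp⟩

/-- **BLOCK (A)**, "unit ideal" form (= the shape of `MR.C.cover_out`). -/
theorem blockA_span (N' p : ℕ) [NeZero N'] (hN' : AdmLevel N') (hp : p.Prime) (hpN : ¬ p ∣ N')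
    (A : ValuationSubring Qb) (hA : A.LiesOverPrime p) {u : LaurentSeries (kA A)}
    (hu : u ∈ Fb A N')
    (hdiv : Ideal.span {x : Rb A N' | ∃ φ : LaurentSeries (kA A),
      (x : LaurentSeries (kA A)) = φ ^ p * u} = ⊤)
    (hnp : ¬ ∃ w ∈ Fb A N', w ^ p = u) :
    dlog u ∈ S2b (kA A) N' ∧ dlog u ≠ 0 :=
  blockA_local N' p hN' hp hpN A hA hu (local_of_span hdiv) hnp

end Fermat.Agent.MR.A
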