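import Fermat.Agent.MR.A.Main
import Fermat.Agent.ORD.Contracts
import Fermat.Agent.TOR.GB.Norm
import Fermat.Agent.GAL.Mod.Kum
import Fermat.Agent.CAR.RP.Conc

/-!
# MR / A : glue (B) → (A).

* `RbEquivRC`            : `Rb A M = RP.RC A M` (same carrier)
* `not_pow_of_core`      : `ORD.CoreStatement` ⟹ the reduction at `∞` of a generator of a non trivial, `U`-periodic class fixed by `s0` is not
                           a `p`-th power in the residue field
* `dlog_eq_of_eq_mul_pow`: `dlog` of the reduction only depends on the class modulo constants and `p`-th powers of Gauss-normalisable series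
-/

set_option autoImplicit false

open ModularCurve AlgebraicCurve Polynomial

noncomputable section

namespace Fermat.Agent.MR.A

open Fermat.Agent.GR Fermat.Agent.GAL Fermat.Agent.GAL.KL Fermat.Agent.GAL.KLB Fermat.Agent.GAL.KLC
open Fermat.Agent.CAR

theorem mem_Rb_iff_mem_RC {A : ValuationSubring Qb} {M : ℕ} {φ : LaurentSeries (kA A)} :
    φ ∈ Rb A M ↔ φ ∈ RP.RC A M := Iff.rfl

/-- `Rb A M` and `RP.RC A M` are the same ring. -/
def RbEquivRC (A : ValuationSubring Qb) (M : ℕ) : Rb A M ≃+* RP.RC A M where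
  toFun x := ⟨x.1, x.2⟩
  invFun x := ⟨x.1, x.2⟩
  left_inv _ := rfl
  right_inv _ := rfl
  map_mul' _ _ := rfl
  map_add' _ _ := rfl

@[simp] theorem coe_RbEquivRC {A : ValuationSubring Qb} {M : ℕ} (x : Rb A M) :
    ((RbEquivRC A M x : RP.RC A M) : LaurentSeries (kA A)) = x := rfl

@[simp] theorem coe_RbEquivRC_symm {A : ValuationSubring Qb} {M : ℕ} (x : RP.RC A M) :
    (((RbEquivRC A M).symm x : Rb A M) : LaurentSeries (kA A)) = x := rfl

theorem iterate_NmL_mem_FL {M₁ p : ℕ} [NeZero M₁] [NeZero p] (hp : p.Prime) (hpM : ¬ p ∣ M₁)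
    {f : LaurentSeries Qb} (hf : f ∈ FL Qb (M₁ * p)) (n : ℕ) :
    (NmL Qb p)^[n] f ∈ FL Qb (M₁ * p) := by
  induction n with
  | zero => exact hf
  | succ n ih =>
    rw [Function.iterate_succ_apply']
    exact TOR.GB.NmL_mem_FL hp hpM ih

/-- **(B) ⟹ hypothesis `hnp` of block (A).** -/
theorem not_pow_of_core (hCore : ORD.CoreStatement) (M₁ p : ℕ) [NeZero M₁] [NeZero p]
    (hM : AdmLevel M₁) (hp : p.Prime) (hp2 : p ≠ 2) (hpM : ¬ p ∣ M₁)
    (A : ValuationSubring Qb) (hA : A.LiesOverPrime p) (s0 : GQ) (hs0 : s0 ∈ A.inertiaSubgroupIn ℚ)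
    (a : ℕ) (ha : ∀ ζ : Qb, ζ ^ p = 1 → s0 ζ = ζ ^ a) (ha1 : ¬ a ≡ 1 [MOD p])
    (u : LaurentSeries Qb) (hK : IsKum Qb (M₁ * p) p u)
    (hU : ∃ n : ℕ, 0 < n ∧ ((NmL Qb p)^[n] u) / u ∈ FL Qb (M₁ * p))
    (hs : galS s0 u / u ∈ FL Qb (M₁ * p)) (hnot : u ∉ FL Qb (M₁ * p))
    {c : Qb} {ub : LaurentSeries (kA A)} (hred : HasRed A (HahnSeries.C c * u ^ p) ub)
    (hub : ub ≠ 0) : ¬ ∃ y ∈ Fb A M₁, y ^ p = ub := by
  rintro ⟨y, hy, hyp⟩
  have hy0 : y ≠ 0 := by
    rintro rfl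
    rw [zero_pow hp.ne_zero] at hyp
    exact hub hyp.symm
  obtain ⟨b, hb, hby⟩ := mem_Fb.mp hy
  have hb0 : b ≠ 0 := hby.ne_zero hy0
  have hbN : b ∈ FL Qb (M₁ * p) := TOR.GB.FL_le_mul M₁ p hb
  obtain ⟨c', hc'⟩ := IsAlgClosed.exists_pow_nat_eq c hp.pos
  have hc0 : c ≠ 0 := by
    rintro rfl
    rw [map_zero, zero_mul] at hred
    exact hub (hred.unique (hasRed_zero A))
  have hc'0 : c' ≠ 0 := by
    rintro rfl
    rw [zero_pow hp.ne_zero] at hc'
    exact hc0 hc'.symm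
  set f : LaurentSeries Qb := HahnSeries.C c' * b⁻¹ with hf
  have hCc' : (HahnSeries.C c' : LaurentSeries Qb) ≠ 0 := by
    rw [Ne, map_eq_zero_iff _ HahnSeries.C_injective]; exact hc'0
  have hf0 : f ≠ 0 := mul_ne_zero hCc' (inv_ne_zero hb0)
  have hfN : f ∈ FL Qb (M₁ * p) := mul_mem (C_mem_FL _ c') (inv_mem hbN)
  have hu0 : u ≠ 0 := hK.ne_zero
  have h1 : IsKum Qb (M₁ * p) p (u * f) := hK.mul (isKum_of_mem hfN hf0)
  have h2 : HasRed A ((u * f) ^ p) 1 := by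
    have e : (u * f) ^ p = (HahnSeries.C c * u ^ p) * (b ^ p)⁻¹ := by
      rw [hf, mul_pow, mul_pow, ← map_pow, hc', inv_pow]
      ring
    have h3 := hred.mul ((hby.pow p).inv (pow_ne_zero p hy0))
    rw [hyp, mul_inv_cancel₀ hub] at h3
    rw [e]
    exact h3
  have h3 : ∃ n : ℕ, 0 < n ∧ ((NmL Qb p)^[n] (u * f)) / (u * f) ∈ FL Qb (M₁ * p) := by
    obtain ⟨n, hn, hU'⟩ := hU
    refine ⟨n, hn, ?_⟩
    have hmul : ∀ m : ℕ, (NmL Qb p)^[m] (u * f) = (NmL Qb p)^[m] u * (NmL Qb p)^[m] f := by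
      intro m
      induction m with
      | zero => rfl
      | succ m ih => rw [Function.iterate_succ_apply', Function.iterate_succ_apply',
          Function.iterate_succ_apply', ih, map_mul]
    rw [hmul, mul_div_mul_comm]
    exact mul_mem hU' (div_mem (iterate_NmL_mem_FL hp hpM hfN n) hfN)
  have h4 : galS s0 (u * f) / (u * f) ∈ FL Qb (M₁ * p) := by
    rw [map_mul, mul_div_mul_comm]
    exact mul_mem hs (div_mem (galS_mem_FL s0 hfN) hfN)
  have h5 := hCore M₁ p (NeZero.ne M₁) hM hp hp2 hpM A hA s0 hs0 a ha ha1 (u * f) h1 h2 h3 h4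
  apply hnot
  have e : u = (u * f) * f⁻¹ := by rw [mul_assoc, mul_inv_cancel₀ hf0, mul_one]
  rw [e]
  exact mul_mem h5 (inv_mem hfN)

/-- `dlog` of the reduction is insensitive to constants and to `p`-th powers of Gauss-normalisable series. -/
theorem dlog_eq_of_eq_mul_pow {A : ValuationSubring Qb} {p : ℕ} (hp : p.Prime)
    (hA : A.LiesOverPrime p) {X Y Z : LaurentSeries Qb} {c c' : Qb}
    (h : X = HahnSeries.C c * Y * Z ^ p) {Xb Yb ψ : LaurentSeries (kA A)} (hX : HasRed A X Xb)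
    (hY : HasRed A Y Yb) (hZ : HasRed A (HahnSeries.C c' * Z) ψ) (hXb : Xb ≠ 0) (hYb : Yb ≠ 0)
    (hψ : ψ ≠ 0) : dlog Xb = dlog Yb := by
  have : CharP (kA A) p := charP_residueField hp hA
  have hc' : c' ≠ 0 := by
    rintro rfl
    rw [map_zero, zero_mul] at hZ
    exact hψ (hZ.unique (hasRed_zero A))
  have hCc' : (HahnSeries.C c' : LaurentSeries Qb) ≠ 0 := by
    rw [Ne, map_eq_zero_iff _ HahnSeries.C_injective]; exact hc'
  have e : X = HahnSeries.C (c / c' ^ p) * (Y * (HahnSeries.C c' * Z) ^ p) := by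
    rw [h, map_div₀, map_pow, mul_pow]
    field_simp
  obtain ⟨cb, hcb, hXe⟩ := exists_C_of_hasRed hX (hY.mul (hZ.pow p)) hXb
    (mul_ne_zero hYb (pow_ne_zero p hψ)) e
  have hCcb : (HahnSeries.C cb : LaurentSeries (kA A)) ≠ 0 := by
    rw [Ne, map_eq_zero_iff _ HahnSeries.C_injective]; exact hcb
  rw [hXe, dlog_mul hCcb (mul_ne_zero hYb (pow_ne_zero p hψ)), dlog_C, zero_add,
    dlog_mul hYb (pow_ne_zero p hψ), dlog_pow_char, add_zero]

end Fermat.Agent.MR.A
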