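import Fermat.Agent.MR.A.Glue
import Fermat.Agent.MR.C.AbsMain

/-!
# MR / A : glue (C) → (A).  The reduction `r : B1 → R` along a branch of the abstract cover, and block (A) applied to
the output of `MR.C.cover_out`.
-/

set_option autoImplicit false

open ModularCurve AlgebraicCurve Polynomial

noncomputable section

namespace Fermat.Agent.MR.A

open Fermat.Agent.GR Fermat.Agent.GAL Fermat.Agent.GAL.KL Fermat.Agent.GAL.KLB Fermat.Agent.GAL.KLC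
open Fermat.Agent.CAR Fermat.Agent.MR.C

section Abstract

variable {κ E₀ E Γ₀ I₀ : Type*} [Field κ] [Field E₀] [Field E] [Algebra E₀ E]
  [LinearOrderedCommGroupWithZero Γ₀]
  {B₀ : Subring E₀} {v₀ : I₀ → Valuation E₀ Γ₀} {p₀ : I₀ → Ideal B₀} {π : B₀}
  {p : ℕ} [Fact p.Prime] {δ : E ≃ₐ[E₀] E} {vt : I₀ × ZMod p → Valuation E Γ₀}

/-- **the reduction along the branch `(i, k)`**: a reduction map `ρ` of `vt (i, k)` which on `B₀` is a surjection `r₀ : B₀ → R`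
restricts to a surjection `r : B1 → R` with kernel `pt (i, k)`. -/
theorem exists_red_B1 (hB : Base B₀ v₀ p₀ π) (C : Cov p B₀ v₀ δ vt) (i : I₀) (k : ZMod p)
    (R : Subring (LaurentSeries κ)) (r₀ : B₀ →+* R) (hr₀ : Function.Surjective r₀)
    (ρ : (vt (i, k)).integer →+* LaurentSeries κ)
    (hρk : ∀ z : (vt (i, k)).integer, ρ z = 0 ↔ vt (i, k) (z : E) < 1)
    (hρ₀ : ∀ c : B₀, ρ ⟨algebraMap E₀ E (c : E₀), vt_le_one hB C (i, k) (map_mem_B1 c)⟩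
      = (r₀ c : LaurentSeries κ)) :
    ∃ r : B1 E B₀ →+* R, Function.Surjective r ∧ RingHom.ker r = pt B₀ vt (i, k) ∧
      ∀ z : B1 E B₀, (r z : LaurentSeries κ) = ρ ⟨(z : E), vt_le_one hB C (i, k) z.2⟩ := by
  let j : B1 E B₀ →+* (vt (i, k)).integer :=
    { toFun := fun z => ⟨(z : E), vt_le_one hB C (i, k) z.2⟩
      map_one' := rfl
      map_mul' := fun _ _ => rfl
      map_zero' := rfl
      map_add' := fun _ _ => rfl }
  have hmem : ∀ z : B1 E B₀, (ρ.comp j) z ∈ R := by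
    intro z
    obtain ⟨c, hc⟩ := exists_base_cong hB C i k z.2
    have h1 : ρ (j z - ⟨algebraMap E₀ E (c : E₀), vt_le_one hB C (i, k) (map_mem_B1 c)⟩) = 0 :=
      (hρk _).mpr hc
    rw [map_sub, sub_eq_zero, hρ₀] at h1
    rw [RingHom.comp_apply, h1]
    exact (r₀ c).2
  refine ⟨(ρ.comp j).codRestrict R hmem, ?_, ?_, fun z => rfl⟩
  · intro φ
    obtain ⟨c, rfl⟩ := hr₀ φ
    refine ⟨inc E B₀ c, Subtype.ext ?_⟩
    exact hρ₀ c
  · ext z
    rw [RingHom.mem_ker, mem_pt hB C]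
    refine Iff.trans ?_ (hρk (j z))
    constructor
    · intro h
      exact congrArg Subtype.val h
    · intro h
      exact Subtype.ext h

variable [Fintype I₀] [CharZero E₀]

/-- the output of the cover theorem, on `q`-expansions: the elements `φ^n ρ(w)` of `R` generate the unit ideal. -/
theorem span_of_cover_out (hB : Base B₀ v₀ p₀ π) (C : Cov p B₀ v₀ δ vt) {n : ℕ} (hn : 0 < n) {w : E}
    (hw : ∀ b, vt b w = 1)
    (HG : ∃ (N m : ℕ) (φ : Fin m → Fin n → E), (∀ k j, φ k j ∈ NS.Lam (B1 E B₀) n w) ∧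
      (∑ k, ∏ j, φ k j) * w = (algebraMap E₀ E (π : E₀)) ^ N)
    (i : I₀) (k : ZMod p)
    (R : Subring (LaurentSeries κ)) (r₀ : B₀ →+* R) (hr₀ : Function.Surjective r₀)
    (ρ : (vt (i, k)).integer →+* LaurentSeries κ)
    (hρk : ∀ z : (vt (i, k)).integer, ρ z = 0 ↔ vt (i, k) (z : E) < 1)
    (hρ₀ : ∀ c : B₀, ρ ⟨algebraMap E₀ E (c : E₀), vt_le_one hB C (i, k) (map_mem_B1 c)⟩
      = (r₀ c : LaurentSeries κ)) :
    Ideal.span {x : R | ∃ φ : LaurentSeries κ,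
      (x : LaurentSeries κ) = φ ^ n * ρ ⟨w, (hw (i, k)).le⟩} = ⊤ := by
  obtain ⟨r, hr, hker, hrρ⟩ := exists_red_B1 hB C i k R r₀ hr₀ ρ hρk hρ₀
  exact span_of_cover (vt (i, k)) ρ (B1 E B₀) (fun z hz => vt_le_one hB C (i, k) hz) R r hrρ hn
    (hw (i, k)) (cover_out hB C hn hw HG r hr (i, k) hker)

end Abstract

/-- **(C) ⟹ (A)**: block (A) applied to the output of the cover theorem. -/
theorem blockA_of_cover (N' p : ℕ) [NeZero N'] (hN' : AdmLevel N') [Fact p.Prime] (hpN : ¬ p ∣ N')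
    (A : ValuationSubring Qb) (hA : A.LiesOverPrime p)
    {E₀ E Γ₀ I₀ : Type*} [Field E₀] [Field E] [Algebra E₀ E] [LinearOrderedCommGroupWithZero Γ₀]
    {B₀ : Subring E₀} {v₀ : I₀ → Valuation E₀ Γ₀} {p₀ : I₀ → Ideal B₀} {π : B₀}
    {δ : E ≃ₐ[E₀] E} {vt : I₀ × ZMod p → Valuation E Γ₀} [Fintype I₀] [CharZero E₀]
    (hB : Base B₀ v₀ p₀ π) (C : Cov p B₀ v₀ δ vt) {w : E} (hw : ∀ b, vt b w = 1)
    (HG : ∃ (N m : ℕ) (φ : Fin m → Fin p → E), (∀ k j, φ k j ∈ NS.Lam (B1 E B₀) p w) ∧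
      (∑ k, ∏ j, φ k j) * w = (algebraMap E₀ E (π : E₀)) ^ N)
    (i : I₀) (k : ZMod p) (r₀ : B₀ →+* Rb A N') (hr₀ : Function.Surjective r₀)
    (ρ : (vt (i, k)).integer →+* LaurentSeries (kA A))
    (hρk : ∀ z : (vt (i, k)).integer, ρ z = 0 ↔ vt (i, k) (z : E) < 1)
    (hρ₀ : ∀ c : B₀, ρ ⟨algebraMap E₀ E (c : E₀), vt_le_one hB C (i, k) (map_mem_B1 c)⟩
      = (r₀ c : LaurentSeries (kA A)))
    (hu : ρ ⟨w, (hw (i, k)).le⟩ ∈ Fb A N')
    (hnp : ¬ ∃ y ∈ Fb A N', y ^ p = ρ ⟨w, (hw (i, k)).le⟩) :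
    dlog (ρ ⟨w, (hw (i, k)).le⟩) ∈ S2b (kA A) N' ∧ dlog (ρ ⟨w, (hw (i, k)).le⟩) ≠ 0 :=
  blockA_span N' p hN' Fact.out hpN A hA hu
    (span_of_cover_out hB C (Fact.out : p.Prime).pos hw HG i k (Rb A N') r₀ hr₀ ρ hρk hρ₀) hnp

end Fermat.Agent.MR.A
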