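import Fermat.Agent.MR.A.HeckeF
import Fermat.Agent.TOR.GBB.ToricFormal
import Fermat.Agent.GAL.KLC.ValThm

/-!
# MR / A : Hecke relations between Kummer generators in characteristic `0` give Hecke relations between the
`dlog`'s of their reductions at `A ∣ p`.
-/

set_option autoImplicit false

open ModularCurve

noncomputable section

namespace Fermat.Agent.MR.A

open Fermat.Agent.GR Fermat.Agent.GAL Fermat.Agent.GAL.CT Fermat.Agent.GAL.KLC

variable {A : ValuationSubring Qb}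

theorem HeckeRed_NmL_ne_zero {k : Type*} [Field k] (r : ℕ) [NeZero r] {w : LaurentSeries k}
    (hw : w ≠ 0) : NmL k r w ≠ 0 := by
  intro h0
  have h1 : NmL k r w * NmL k r w⁻¹ = 1 := by
    rw [← map_mul, mul_inv_cancel₀ hw, map_one]
  rw [h0, zero_mul] at h1
  exact zero_ne_one h1

theorem hasRed_NmL_any (r : ℕ) [NeZero r] {x : LaurentSeries Qb} {z : LaurentSeries (kA A)}
    (h : HasRed A x z) : HasRed A (NmL Qb r x) (NmL (kA A) r z) :=
  h.map (NmL A r) (NmL Qb r) (NmL (kA A) r) (map_mul _) (map_mul _)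
    (fun y => NmL_coeffMap _ r y) (fun y => NmL_coeffMap _ r y)
    (fun _ hw => HeckeRed_NmL_ne_zero r hw)

theorem hasRed_heckeS_any (ℓ : ℕ) [NeZero ℓ] {x : LaurentSeries Qb} {z : LaurentSeries (kA A)}
    (h : HasRed A x z) : HasRed A (heckeS Qb ℓ x) (heckeS (kA A) ℓ z) := by
  rw [heckeS_apply, heckeS_apply]
  refine HasRed.mul ?_ (hasRed_NmL_any ℓ h)
  exact h.map (qExpand A ℓ) (qExpand Qb ℓ) (qExpand (kA A) ℓ) (map_mul _) (map_mul _)
    (fun y => GR.coeffMap_qExpand _ ℓ y) (fun y => GR.coeffMap_qExpand _ ℓ y)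
    (fun w hw h0 => hw (qExpand_injective ℓ (by rw [h0, map_zero])))

theorem hasRed_zpow {x : LaurentSeries Qb} {z : LaurentSeries (kA A)} (h : HasRed A x z) (hz : z ≠ 0)
    (a : ℤ) : HasRed A (x ^ a) (z ^ a) := by
  cases a with
  | ofNat n =>
    rw [Int.ofNat_eq_natCast, zpow_natCast, zpow_natCast]
    exact h.pow n
  | negSucc n =>
    rw [zpow_negSucc, zpow_negSucc]
    exact (h.pow (n + 1)).inv (pow_ne_zero _ hz)

/-- two Gauss normalisations of the same function differ by a non-zero constant. -/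
theorem exists_C_of_hasRed {X Y : LaurentSeries Qb} {Xb Yb : LaurentSeries (kA A)}
    (hX : HasRed A X Xb) (hY : HasRed A Y Yb) (hXb : Xb ≠ 0) (hYb : Yb ≠ 0) {c : Qb}
    (h : X = HahnSeries.C c * Y) : ∃ cb : kA A, cb ≠ 0 ∧ Xb = HahnSeries.C cb * Yb := by
  have hY0 : Y ≠ 0 := hY.ne_zero hYb
  have h1 : HasRed A (HahnSeries.C c) (Xb / Yb) := by
    have h2 := hX.div hY hYb
    rwa [h, mul_div_cancel_right₀ _ hY0] at h2
  have hc : c ∈ A := ValThm_mem_of_hasRed_C A h1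
  have h3 := (hasRed_C A ⟨c, hc⟩).unique h1
  have h4 : Xb = HahnSeries.C (IsLocalRing.residue A ⟨c, hc⟩) * Yb := by
    rw [h3, div_mul_cancel₀ _ hYb]
  refine ⟨_, ?_, h4⟩
  intro h0
  rw [h0, map_zero, zero_mul] at h4
  exact hXb h4

theorem HeckeRed_dlog_one {k : Type*} [Field k] : dlog (1 : LaurentSeries k) = 0 := by
  have := dlog_C (1 : k)
  rwa [map_one] at this

theorem HeckeRed_dlog_zero {k : Type*} [Field k] : dlog (0 : LaurentSeries k) = 0 := by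
  rw [dlog, inv_zero, mul_zero]

theorem dlog_zpow {k : Type*} [Field k] (u : LaurentSeries k) (a : ℤ) :
    dlog (u ^ a) = HahnSeries.C (a : k) * dlog u := by
  rcases eq_or_ne u 0 with rfl | hu
  · rw [HeckeRed_dlog_zero, mul_zero]
    rcases eq_or_ne a 0 with rfl | ha
    · rw [zpow_zero, HeckeRed_dlog_one]
    · rw [zero_zpow _ ha, HeckeRed_dlog_zero]
  induction a using Int.induction_on with
  | zero => rw [zpow_zero, HeckeRed_dlog_one, Int.cast_zero, map_zero, zero_mul]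
  | succ n ih =>
    rw [zpow_add_one₀ hu, dlog_mul (zpow_ne_zero _ hu) hu, ih]
    push_cast
    rw [map_add, map_one]
    ring
  | pred n ih =>
    rw [zpow_sub_one₀ hu, dlog_mul (zpow_ne_zero _ hu) (inv_ne_zero hu), ih, dlog_inv]
    push_cast
    rw [map_sub, map_one]
    ring

/-- the reduction of a trivial class has `dlog = 0`. -/
theorem dlog_eq_zero_of_eq_C_mul_pow {p : ℕ} (hp : p.Prime) (hA : A.LiesOverPrime p) {N : ℕ}
    {X g : LaurentSeries Qb} (hg : g ∈ FL Qb N) {c : Qb} (h : X = HahnSeries.C c * g ^ p)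
    {Xb : LaurentSeries (kA A)} (hX : HasRed A X Xb) : dlog Xb = 0 := by
  rcases eq_or_ne Xb 0 with rfl | hXb
  · exact HeckeRed_dlog_zero
  have hX0 : X ≠ 0 := hX.ne_zero hXb
  have hg0 : g ≠ 0 := by
    rintro rfl
    rw [zero_pow hp.ne_zero, mul_zero] at h
    exact hX0 h
  obtain ⟨c₁, hc₁, gb, hgb, hred⟩ := GR.exists_hasRed_C_mul_of_mem_FL A N hg hg0
  have hC1 : (HahnSeries.C c₁ : LaurentSeries Qb) ≠ 0 := by
    rw [Ne, map_eq_zero]; exact hc₁
  have h1 : X = HahnSeries.C (c / c₁ ^ p) * (HahnSeries.C c₁ * g) ^ p := by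
    rw [h, map_div₀, map_pow, mul_pow]
    field_simp
  obtain ⟨cb, hcb, h2⟩ := exists_C_of_hasRed hX (hred.pow p) hXb (pow_ne_zero _ hgb) h1
  have : CharP (kA A) p := charP_residueField hp hA
  have hCcb : (HahnSeries.C cb : LaurentSeries (kA A)) ≠ 0 := by
    rw [Ne, map_eq_zero]; exact hcb
  rw [h2, dlog_mul hCcb (pow_ne_zero _ hgb), dlog_C, dlog_pow_char, add_zero]

/-- the residue field of a valuation subring of `ℚ̄` is algebraically closed. -/
theorem HeckeRed_isAlgClosed_kA (A : ValuationSubring Qb) : IsAlgClosed (kA A) := by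
  apply IsAlgClosed.of_exists_root
  intro p hp _
  obtain ⟨P, hP, hPdeg, hPm⟩ := Polynomial.lifts_and_degree_eq_and_monic
    ((Polynomial.mem_lifts p).mpr (Polynomial.map_surjective _ IsLocalRing.residue_surjective p)) hp
  have hdeg : (P.map A.subtype).degree ≠ 0 := by
    rw [Polynomial.degree_map_eq_of_injective Subtype.val_injective, hPdeg]
    exact (Polynomial.degree_pos_of_irreducible ‹_›).ne'
  obtain ⟨x, hx⟩ := IsAlgClosed.exists_root (P.map A.subtype) hdeg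
  have hxA : x ∈ A := by
    have hint : IsIntegral A x := ⟨P, hPm, by
      rw [Polynomial.IsRoot.def, Polynomial.eval_map] at hx
      exact hx⟩
    obtain ⟨y, hy⟩ := (IsIntegrallyClosed.isIntegral_iff (R := A) (K := Qb)).mp hint
    rw [← hy]
    exact y.2
  refine ⟨IsLocalRing.residue A ⟨x, hxA⟩, ?_⟩
  rw [← hP, Polynomial.eval_map, Polynomial.eval₂_hom]
  have : Polynomial.eval (⟨x, hxA⟩ : A) P = 0 := by
    apply Subtype.val_injective
    rw [Polynomial.IsRoot.def, Polynomial.eval_map] at hx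
    have h2 := Polynomial.hom_eval₂ P (RingHom.id A) A.subtype ⟨x, hxA⟩
    rw [RingHom.comp_id] at h2
    rw [← Polynomial.eval₂_id]
    exact h2.trans hx
  rw [this, map_zero]

theorem HeckeRed_natCast_ne_zero {p : ℕ} (hp : p.Prime) (hA : A.LiesOverPrime p) {ℓ : ℕ}
    (hℓp : ¬ p ∣ ℓ) : (ℓ : kA A) ≠ 0 := by
  have : CharP (kA A) p := charP_residueField hp hA
  rwa [Ne, CharP.cast_eq_zero_iff (kA A) p]

theorem HeckeRed_exists_primitiveRoot {p : ℕ} (hp : p.Prime) (hA : A.LiesOverPrime p) {ℓ : ℕ}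
    [NeZero ℓ] (hℓp : ¬ p ∣ ℓ) : ∃ ζ : (kA A)ˣ, IsPrimitiveRoot ζ ℓ := by
  have : IsAlgClosed (kA A) := HeckeRed_isAlgClosed_kA A
  have : NeZero ((ℓ : ℕ) : kA A) := ⟨HeckeRed_natCast_ne_zero hp hA hℓp⟩
  obtain ⟨ζ, hζ⟩ := HasEnoughRootsOfUnity.exists_primitiveRoot (kA A) ℓ
  exact ⟨hζ.isUnit (NeZero.ne ℓ) |>.unit, IsPrimitiveRoot.coe_units_iff.mp (by simpa using hζ)⟩

/-- **eigenvalue of `T_ℓ`**: `T_ℓ H = c H^a g^p` implies `T_ℓ (dlog H̄) = a dlog H̄`. -/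
theorem opT_dlog_of_eigen {p : ℕ} (hp : p.Prime) (hA : A.LiesOverPrime p) {ℓ : ℕ} [NeZero ℓ]
    (hℓp : ¬ p ∣ ℓ) {N : ℕ} {H g : LaurentSeries Qb} (hg : g ∈ FL Qb N)
    {u : LaurentSeries (kA A)} (hH : HasRed A H u) (hu : u ≠ 0) (a : ℤ) (c : Qb)
    (h : heckeS Qb ℓ H = HahnSeries.C c * H ^ a * g ^ p) :
    opT ℓ (dlog u) = HahnSeries.C (a : kA A) * dlog u := by
  have hH0 : H ≠ 0 := hH.ne_zero hu
  obtain ⟨ζ, hζ⟩ := HeckeRed_exists_primitiveRoot hp hA hℓp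
  have hℓ0 := HeckeRed_natCast_ne_zero hp hA hℓp
  have h1 : heckeS Qb ℓ H * (H ^ a)⁻¹ = HahnSeries.C c * g ^ p := by
    rw [h]
    have := zpow_ne_zero a hH0
    field_simp
  have h2 : HasRed A (heckeS Qb ℓ H * (H ^ a)⁻¹) (heckeS (kA A) ℓ u * (u ^ a)⁻¹) :=
    (hasRed_heckeS_any ℓ hH).mul ((hasRed_zpow hH hu a).inv (zpow_ne_zero _ hu))
  have h3 := dlog_eq_zero_of_eq_C_mul_pow hp hA hg h1 h2
  have hT0 : heckeS (kA A) ℓ u ≠ 0 := by
    rw [heckeS_apply]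
    refine mul_ne_zero ?_ (HeckeRed_NmL_ne_zero ℓ hu)
    exact fun h0 => hu (qExpand_injective ℓ (by rw [h0, map_zero]))
  rw [dlog_mul hT0 (inv_ne_zero (zpow_ne_zero _ hu)), dlog_inv, dlog_zpow,
    dlog_heckeS ℓ hℓ0 hζ hu] at h3
  exact sub_eq_zero.mp (by rw [sub_eq_add_neg]; exact h3)

/-- **polynomial relation for `U_r`**. -/
theorem opU_dlog_of_rel {p : ℕ} (hp : p.Prime) (hA : A.LiesOverPrime p) {r : ℕ} [NeZero r]
    (hrp : ¬ p ∣ r) {N : ℕ} {H g : LaurentSeries Qb} (hg : g ∈ FL Qb N)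
    {u : LaurentSeries (kA A)} (hH : HasRed A H u) (hu : u ≠ 0) (c₂ c₁ c₀ : ℤ) (c : Qb)
    (h : NmL Qb r (NmL Qb r H) ^ c₂ * NmL Qb r H ^ c₁ * H ^ c₀ = HahnSeries.C c * g ^ p) :
    HahnSeries.C (c₂ : kA A) * opU r (opU r (dlog u)) + HahnSeries.C (c₁ : kA A) * opU r (dlog u)
      + HahnSeries.C (c₀ : kA A) * dlog u = 0 := by
  obtain ⟨ζ, hζ⟩ := HeckeRed_exists_primitiveRoot hp hA hrp
  have hr0 := HeckeRed_natCast_ne_zero hp hA hrp
  have hu1 : NmL (kA A) r u ≠ 0 := HeckeRed_NmL_ne_zero r hu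
  have hu2 : NmL (kA A) r (NmL (kA A) r u) ≠ 0 := HeckeRed_NmL_ne_zero r hu1
  have h1 := hasRed_NmL_any r hH
  have h2 := hasRed_NmL_any r h1
  have h3 := ((hasRed_zpow h2 hu2 c₂).mul (hasRed_zpow h1 hu1 c₁)).mul (hasRed_zpow hH hu c₀)
  have h4 := dlog_eq_zero_of_eq_C_mul_pow hp hA hg h h3
  rw [dlog_mul (mul_ne_zero (zpow_ne_zero _ hu2) (zpow_ne_zero _ hu1)) (zpow_ne_zero _ hu),
    dlog_mul (zpow_ne_zero _ hu2) (zpow_ne_zero _ hu1), dlog_zpow, dlog_zpow, dlog_zpow,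
    dlog_NmL r hr0 hζ hu1, dlog_NmL r hr0 hζ hu] at h4
  exact h4

end Fermat.Agent.MR.A
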