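import Fermat.Agent.MR.A.GlueC
import Fermat.Agent.MR.A.HeckeRed

/-!
# MR / A : the last step of `MR.CStatement`, abstract in the cover.

* `exists_rho`      : a valuation `v` of `E` which is "the Gauss valuation along an embedding `ι : E → ℚ̄((q))`" has a reduction map
                      `ρ : O_v → k((q))` compatible with `GR.HasRed`
* `pdiv_of_span`    : `PDiv` only depends on the class modulo constants and `p`-th powers of Laurent series
* `pdiv_of_cover`   : the cover theorem ⟹ the conclusion of `MR.CStatement`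
-/

set_option autoImplicit false

open ModularCurve AlgebraicCurve Polynomial

noncomputable section

namespace Fermat.Agent.MR.A

open Fermat.Agent.GR Fermat.Agent.GAL Fermat.Agent.GAL.KL Fermat.Agent.GAL.KLB Fermat.Agent.GAL.KLC
open Fermat.Agent.CAR Fermat.Agent.MR.C

/-- the reduction map of a valuation which is "Gauss along `ι`". -/
theorem exists_rho {E Γ₀ : Type*} [Field E] [LinearOrderedCommGroupWithZero Γ₀]
    (A : ValuationSubring Qb) (v : Valuation E Γ₀) (ι : E →+* LaurentSeries Qb)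
    (hle : ∀ x : E, v x ≤ 1 → ∃ z, HasRed A (ι x) z)
    (hlt : ∀ x : E, v x < 1 ↔ HasRed A (ι x) 0) :
    ∃ ρ : v.integer →+* LaurentSeries (kA A), (∀ z : v.integer, HasRed A (ι (z : E)) (ρ z)) ∧
      ∀ z : v.integer, ρ z = 0 ↔ v (z : E) < 1 := by
  choose f hf using fun z : v.integer => hle (z : E) z.2
  let ρ : v.integer →+* LaurentSeries (kA A) :=
    { toFun := f
      map_one' := (hf 1).unique (by
        have : ι ((1 : v.integer) : E) = 1 := map_one ι
        rw [this]; exact HasRed.one)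
      map_mul' := fun a b => (hf (a * b)).unique (by
        have : ι ((a * b : v.integer) : E) = ι (a : E) * ι (b : E) := map_mul ι _ _
        rw [this]; exact (hf a).mul (hf b))
      map_zero' := (hf 0).unique (by
        have : ι ((0 : v.integer) : E) = 0 := map_zero ι
        rw [this]; exact hasRed_zero A)
      map_add' := fun a b => (hf (a + b)).unique (by
        have : ι ((a + b : v.integer) : E) = ι (a : E) + ι (b : E) := map_add ι _ _
        rw [this]; exact (hf a).add (hf b)) }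
  refine ⟨ρ, hf, fun z => ?_⟩
  constructor
  · intro h
    rw [hlt]
    have := hf z
    rwa [show f z = 0 from h] at this
  · intro h
    exact (hf z).unique ((hlt _).mp h)

/-- `PDiv` only depends on the class modulo constants and `p`-th powers of Laurent series. -/
theorem pdiv_of_span {k : Type*} [Field k] [IsAlgClosed k] {R : Subring (LaurentSeries k)} {p : ℕ}
    (hp : 0 < p) {u u' ψ : LaurentSeries k} {c : k}
    (h : Ideal.span {x : R | ∃ φ : LaurentSeries k, (x : LaurentSeries k) = φ ^ p * u'} = ⊤)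
    (hu : u' = HahnSeries.C c * u * ψ ^ p) : PDiv R p u := by
  apply pdiv_of_local hp
  intro 𝔪 hm
  obtain ⟨φ, s, t, hs, ht, hst⟩ := local_of_span h 𝔪 hm
  obtain ⟨d, hd⟩ := IsAlgClosed.exists_pow_nat_eq c hp
  refine ⟨φ * ψ * HahnSeries.C d, s, t, hs, ht, ?_⟩
  rw [← hst, hu, mul_pow, mul_pow, ← map_pow, hd]
  ring

/-- **the last step of `MR.CStatement`.**  `ι` is the embedding of the branch `(i, k)`. -/
theorem pdiv_of_cover (N' p : ℕ) [NeZero N'] [Fact p.Prime]
    (A : ValuationSubring Qb)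
    {E₀ E Γ₀ I₀ : Type*} [Field E₀] [Field E] [Algebra E₀ E] [LinearOrderedCommGroupWithZero Γ₀]
    {B₀ : Subring E₀} {v₀ : I₀ → Valuation E₀ Γ₀} {p₀ : I₀ → Ideal B₀} {π : B₀}
    {δ : E ≃ₐ[E₀] E} {vt : I₀ × ZMod p → Valuation E Γ₀} [Fintype I₀] [CharZero E₀]
    (hB : Base B₀ v₀ p₀ π) (C : Cov p B₀ v₀ δ vt) {w : E} (hw : ∀ b, vt b w = 1)
    (HG : ∃ (N m : ℕ) (φ : Fin m → Fin p → E), (∀ k j, φ k j ∈ NS.Lam (B1 E B₀) p w) ∧
      (∑ k, ∏ j, φ k j) * w = (algebraMap E₀ E (π : E₀)) ^ N)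
    (i : I₀) (k : ZMod p) (ι : E →+* LaurentSeries Qb)
    (hle : ∀ x : E, vt (i, k) x ≤ 1 → ∃ z, HasRed A (ι x) z)
    (hlt : ∀ x : E, vt (i, k) x < 1 ↔ HasRed A (ι x) 0)
    (r₀ : B₀ →+* Rb A N') (hr₀ : Function.Surjective r₀)
    (hr₀ι : ∀ c : B₀, HasRed A (ι (algebraMap E₀ E (c : E₀))) (r₀ c : LaurentSeries (kA A)))
    {H b : LaurentSeries Qb} {c c' c'' : Qb} {ab ψ : LaurentSeries (kA A)}
    (hwb : ι w = HahnSeries.C c' * H * b ^ p)
    (hb : HasRed A (HahnSeries.C c'' * b) ψ) (hψ : ψ ≠ 0)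
    (hab : HasRed A (HahnSeries.C c * H) ab) (hab0 : ab ≠ 0) :
    PDiv (Rb A N') p ab := by
  have hp : p.Prime := Fact.out
  have := HeckeRed_isAlgClosed_kA A
  obtain ⟨ρ, hρ, hρk⟩ := exists_rho A (vt (i, k)) ι hle hlt
  have hρ₀ : ∀ c : B₀, ρ ⟨algebraMap E₀ E (c : E₀), vt_le_one hB C (i, k) (map_mem_B1 c)⟩
      = (r₀ c : LaurentSeries (kA A)) := fun c => (hρ _).unique (hr₀ι c)
  have hspan := span_of_cover_out hB C hp.pos hw HG i k (Rb A N') r₀ hr₀ ρ hρk hρ₀
  have hρw : HasRed A (ι w) (ρ ⟨w, (hw (i, k)).le⟩) := hρ _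
  have hρw0 : ρ ⟨w, (hw (i, k)).le⟩ ≠ 0 := by
    intro h0
    have := (hρk _).mp h0
    rw [hw (i, k)] at this
    exact lt_irrefl _ this
  have hc : c ≠ 0 := by
    rintro rfl
    rw [map_zero, zero_mul] at hab
    exact hab0 (hab.unique (hasRed_zero A))
  have hc'' : c'' ≠ 0 := by
    rintro rfl
    rw [map_zero, zero_mul] at hb
    exact hψ (hb.unique (hasRed_zero A))
  have hCc : (HahnSeries.C c : LaurentSeries Qb) ≠ 0 := by
    rw [Ne, map_eq_zero_iff _ HahnSeries.C_injective]; exact hc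
  have hCc'' : (HahnSeries.C c'' : LaurentSeries Qb) ≠ 0 := by
    rw [Ne, map_eq_zero_iff _ HahnSeries.C_injective]; exact hc''
  have e : ι w = HahnSeries.C (c' / (c * c'' ^ p)) *
      ((HahnSeries.C c * H) * (HahnSeries.C c'' * b) ^ p) := by
    rw [hwb, map_div₀, map_mul, map_pow, mul_pow]
    field_simp
  obtain ⟨cb, -, hcb⟩ := exists_C_of_hasRed hρw (hab.mul (hb.pow p)) hρw0
    (mul_ne_zero hab0 (pow_ne_zero p hψ)) e
  exact pdiv_of_span hp.pos hspan (by rw [hcb, mul_assoc])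

end Fermat.Agent.MR.A
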