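import Fermat.Agent.MR.A.GlueB
import Fermat.Agent.MR.TH.Conc

/-!
# MR / A : the reduction `r₀ : B_t → Rb A M₁` at `∞` of the base chart of level `M₁ p` (helper22's `TH.rT .. oo`), in `HasRed` form.
-/

set_option autoImplicit false

open ModularCurve AlgebraicCurve Polynomial

noncomputable section

namespace Fermat.Agent.MR.A

open Fermat.Agent.GR Fermat.Agent.GAL Fermat.Agent.GAL.KL Fermat.Agent.GAL.KLC
open Fermat.Agent.CAR Fermat.Agent.CAR.BK Fermat.Agent.CAR.ON Fermat.Agent.MR.TH Fermat.Agent.S24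
open Fermat.Agent.GR.HeckeField Fermat.Agent.TOR Fermat.Agent.TOR.GB Fermat.Agent.CAR.DESC

variable {M₁ p : ℕ} [NeZero M₁] [NeZero p] (A : ValuationSubring Qb)
  (hM : AdmLevel M₁) (hp : p.Prime) (hpM : ¬ p ∣ M₁) (hA : A.LiesOverPrime p)

/-- the reduction at `∞` of the base chart. -/
def r0T : BT M₁ p A →+* Rb A M₁ :=
  ((RbEquivRC A M₁).symm : RP.RC A M₁ →+* Rb A M₁).comp (rT A hM hp hpM hA oo)

theorem r0T_surjective : Function.Surjective (r0T A hM hp hpM hA) :=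
  (RbEquivRC A M₁).symm.surjective.comp (rT_surjective A hM hp hpM hA oo)

theorem hasRed_r0T (z : BT M₁ p A) :
    HasRed A ((((z : EC A (M₁ * p)) : FN (M₁ * p)) : FL Qb (M₁ * p)) : LaurentSeries Qb)
      (r0T A hM hp hpM hA z : LaurentSeries (kA A)) := by
  obtain ⟨h, he⟩ := rd_rT A hM hp hpM hA oo z
  have := hasRed_rho A (M₁ * p) ⟨_, h⟩
  rw [he] at this
  exact this

theorem r0T_eq_zero_iff (z : BT M₁ p A) : r0T A hM hp hpM hA z = 0 ↔ z ∈ pT M₁ p A oo := by
  rw [← rT_eq_zero_iff A hM hp hpM hA oo z]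
  exact map_eq_zero_iff _ (RbEquivRC A M₁).symm.injective

end Fermat.Agent.MR.A
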