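import Fermat.Agent.MR.A.DlogPerp
import Fermat.Agent.GAL.ESR.Norm

/-!
# MR / A : formal Hecke equivariance of `dlog`.

`dlog (NmL r u) = U_r (dlog u)` and `dlog (heckeS ℓ u) = T_ℓ (dlog u)` (weight 2: `T_ℓ = U_ℓ + ℓ V_ℓ`), over a
field `k` in which `r`, `ℓ` are invertible and which contains the `r`-th (`ℓ`-th) roots of unity.
-/

set_option autoImplicit false

open ModularCurve

noncomputable section

namespace Fermat.Agent.MR.A

open Fermat.Agent.GAL Fermat.Agent.GAL.CT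

variable {k : Type*} [Field k]

/-- `U_r` on `q`-expansions: `a_n ↦ a_{r n}`. -/
def opU (r : ℕ) [NeZero r] (φ : LaurentSeries k) : LaurentSeries k := GR.qContract r φ

/-- `T_ℓ` of weight 2 on `q`-expansions: `a_n ↦ a_{ℓ n} + ℓ a_{n/ℓ}`. -/
def opT (ℓ : ℕ) [NeZero ℓ] (φ : LaurentSeries k) : LaurentSeries k :=
  GR.qContract ℓ φ + HahnSeries.C (ℓ : k) * qExpand k ℓ φ

theorem theta_qExpand (ℓ : ℕ) [NeZero ℓ] (u : LaurentSeries k) :
    theta (qExpand k ℓ u) = HahnSeries.C (ℓ : k) * qExpand k ℓ (theta u) := by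
  ext n
  rw [HahnSeries.C_mul_eq_smul, HahnSeries.coeff_smul, coeff_theta, smul_eq_mul]
  by_cases hn : (ℓ : ℤ) ∣ n
  · obtain ⟨m, rfl⟩ := hn
    rw [qExpand_coeff_mul, qExpand_coeff_mul, coeff_theta]
    push_cast
    ring
  · rw [qExpand_coeff_of_not_dvd ℓ _ hn, qExpand_coeff_of_not_dvd ℓ _ hn, mul_zero, mul_zero]

theorem theta_qScale (c : kˣ) (u : LaurentSeries k) :
    theta (GR.qScale c u) = GR.qScale c (theta u) := by
  ext n
  rw [coeff_theta, GR.qScale_coeff, GR.qScale_coeff, coeff_theta, mul_left_comm]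

theorem dlog_qExpand (ℓ : ℕ) [NeZero ℓ] (u : LaurentSeries k) :
    dlog (qExpand k ℓ u) = HahnSeries.C (ℓ : k) * qExpand k ℓ (dlog u) := by
  rw [dlog, dlog, theta_qExpand, map_mul, map_inv₀, mul_assoc]

theorem HeckeF_dlog_qScale (c : kˣ) (u : LaurentSeries k) :
    dlog (GR.qScale c u) = GR.qScale c (dlog u) := by
  rw [dlog, dlog, theta_qScale, map_mul, map_inv₀]

/-- `∑_b φ(ζ^b q) = ℓ · V_ℓ U_ℓ φ`. -/
theorem sum_qScale (ℓ : ℕ) [NeZero ℓ] {ζ : kˣ} (hζ : IsPrimitiveRoot ζ ℓ) (φ : LaurentSeries k) :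
    ∑ b ∈ Finset.range ℓ, GR.qScale (ζ ^ b) φ
      = HahnSeries.C (ℓ : k) * qExpand k ℓ (GR.qContract ℓ φ) := by
  ext n
  rw [HahnSeries.C_mul_eq_smul, HahnSeries.coeff_smul, smul_eq_mul, HahnSeries.coeff_sum]
  have hpow : ∀ b : ℕ, (((ζ ^ b) ^ n : kˣ) : k) = ((ζ ^ n : kˣ) : k) ^ b := by
    intro b
    rw [← Units.val_pow_eq_pow_val, ← zpow_natCast ζ b, ← zpow_mul, mul_comm, zpow_mul,
      zpow_natCast]
  simp only [GR.qScale_coeff, hpow]
  rw [← Finset.sum_mul]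
  by_cases hn : (ℓ : ℤ) ∣ n
  · have h1 : ζ ^ n = 1 := (hζ.zpow_eq_one_iff_dvd n).2 hn
    obtain ⟨m, rfl⟩ := hn
    rw [qExpand_coeff_mul, GR.qContract_coeff, h1]
    simp
  · rw [qExpand_coeff_of_not_dvd ℓ _ hn, mul_zero]
    have h1 : ((ζ ^ n : kˣ) : k) ≠ 1 := by
      intro h
      exact hn ((hζ.zpow_eq_one_iff_dvd n).1 (Units.ext (by rw [h, Units.val_one])))
    have h2 : ((ζ ^ n : kˣ) : k) ^ ℓ = 1 := by
      rw [← Units.val_pow_eq_pow_val, ← zpow_natCast, ← zpow_mul, mul_comm, zpow_mul, zpow_natCast,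
        hζ.pow_eq_one, one_zpow, Units.val_one]
    have h3 := geom_sum_mul ((ζ ^ n : kˣ) : k) ℓ
    rw [h2, sub_self] at h3
    rcases mul_eq_zero.1 h3 with h4 | h4
    · rw [h4, zero_mul]
    · exact absurd (sub_eq_zero.1 h4) h1

theorem dlog_prod {ι : Type*} (s : Finset ι) (f : ι → LaurentSeries k) (hf : ∀ i ∈ s, f i ≠ 0) :
    dlog (∏ i ∈ s, f i) = ∑ i ∈ s, dlog (f i) := by
  classical
  induction s using Finset.induction_on with
  | empty =>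
    rw [Finset.prod_empty, Finset.sum_empty, dlog, theta_one, zero_mul]
  | insert a s ha ih =>
    have h1 : f a ≠ 0 := hf a (Finset.mem_insert_self a s)
    have h2 : ∀ i ∈ s, f i ≠ 0 := fun i hi => hf i (Finset.mem_insert_of_mem hi)
    rw [Finset.prod_insert ha, Finset.sum_insert ha,
      dlog_mul h1 (Finset.prod_ne_zero_iff.mpr h2), ih h2]

/-- **`dlog ∘ Nm = U ∘ dlog`.** -/
theorem dlog_NmL (r : ℕ) [NeZero r] (hr : (r : k) ≠ 0) {ζ : kˣ} (hζ : IsPrimitiveRoot ζ r)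
    {u : LaurentSeries k} (hu : u ≠ 0) : dlog (NmL k r u) = opU r (dlog u) := by
  have hC : (HahnSeries.C (r : k) : LaurentSeries k) ≠ 0 := by
    rw [Ne, map_eq_zero_iff _ HahnSeries.C_injective]; exact hr
  apply qExpand_injective (R := k) r
  apply mul_left_cancel₀ hC
  rw [← dlog_qExpand, qExpand_NmL r hζ, GR.conjProd, opU, ← sum_qScale r hζ,
    dlog_prod _ _ (fun b _ => (_root_.map_ne_zero _).2 hu)]
  exact Finset.sum_congr rfl fun b _ => HeckeF_dlog_qScale _ _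

/-- **`dlog ∘ T_ℓ^{mult} = T_ℓ ∘ dlog`.** -/
theorem dlog_heckeS (ℓ : ℕ) [NeZero ℓ] (hℓ : (ℓ : k) ≠ 0) {ζ : kˣ} (hζ : IsPrimitiveRoot ζ ℓ)
    {u : LaurentSeries k} (hu : u ≠ 0) : dlog (heckeS k ℓ u) = opT ℓ (dlog u) := by
  have h1 : qExpand k ℓ u ≠ 0 := (_root_.map_ne_zero _).2 hu
  have h2 : NmL k ℓ u ≠ 0 := ((isUnit_iff_ne_zero.2 hu).map (NmL k ℓ)).ne_zero
  rw [heckeS_apply, dlog_mul h1 h2, dlog_qExpand, dlog_NmL ℓ hℓ hζ hu, opT, opU, add_comm]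

end Fermat.Agent.MR.A
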