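import Fermat.Agent.MR.A.Inst
import Fermat.Agent.GAL.CTV.OfTData

/-!
# MR / A : the kernel of `dlog` on the residue field: `θ u = 0`, `u ∈ F̄` implies `u = v^p`, `v ∈ F̄`.
-/

set_option autoImplicit false
set_option linter.unusedSectionVars false

open ModularCurve AlgebraicCurve Polynomial

noncomputable section

namespace Fermat.Agent.MR.A

open Fermat.Agent.GR Fermat.Agent.GAL Fermat.Agent.GAL.KL Fermat.Agent.GAL.KLB Fermat.Agent.GAL.KLC
open Fermat.Agent.GAL.CT (theta)

section Abstract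

variable {k : Type*} [Field k]

/-- `z = ∑_{r<p} t^r c_r^p`. -/
def KerDec (p : ℕ) {E : Type*} [Field E] (t z : E) : Prop :=
  ∃ c : ℕ → E, z = ∑ r ∈ Finset.range p, t ^ r * c r ^ p

section Dec

variable {p : ℕ} [Fact p.Prime] {E : Type*} [Field E] [CharP E p] {t : E}

theorem KerDec.zero : KerDec p t (0 : E) :=
  ⟨fun _ => 0, by simp [zero_pow (Fact.out : p.Prime).ne_zero]⟩

theorem KerDec.add {z z' : E} (h : KerDec p t z) (h' : KerDec p t z') : KerDec p t (z + z') := by
  obtain ⟨c, rfl⟩ := h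
  obtain ⟨c', rfl⟩ := h'
  refine ⟨fun r => c r + c' r, ?_⟩
  rw [← Finset.sum_add_distrib]
  exact Finset.sum_congr rfl fun r _ => by rw [add_pow_char, mul_add]

theorem KerDec.mul_pow {z : E} (h : KerDec p t z) (w : E) : KerDec p t (z * w ^ p) := by
  obtain ⟨c, rfl⟩ := h
  refine ⟨fun r => c r * w, ?_⟩
  rw [Finset.sum_mul]
  exact Finset.sum_congr rfl fun r _ => by rw [_root_.mul_pow, mul_assoc]

theorem KerDec.sum {ι : Type*} (s : Finset ι) (z : ι → E) (h : ∀ i ∈ s, KerDec p t (z i)) :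
    KerDec p t (∑ i ∈ s, z i) := by
  classical
  induction s using Finset.induction_on with
  | empty => simpa using KerDec.zero
  | insert a s ha ih =>
    rw [Finset.sum_insert ha]
    exact (h a (Finset.mem_insert_self a s)).add (ih fun i hi => h i (Finset.mem_insert_of_mem hi))

end Dec

theorem KerDec.aeval [PerfectField k] (p : ℕ) [Fact p.Prime] [CharP k p] {E : Type*} [Field E]
    [Algebra k E] (t : E) (P : k[X]) : KerDec p t (aeval t P) := by
  obtain ⟨B, hB⟩ := CTV.a7_exists_decomp p P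
  refine ⟨fun r => Polynomial.aeval t (B r), ?_⟩
  conv_lhs => rw [hB]
  simp only [map_sum, map_mul, map_pow, aeval_X]

theorem KerDec.of_KT [PerfectField k] (p : ℕ) [Fact p.Prime] [CharP k p] {E : Type*} [Field E]
    [Algebra k E] [CharP E p] (t : E) (c : CTV.KT k t) : KerDec p t (c : E) := by
  obtain ⟨a, b, hb, hab⟩ := CTV.a7_exists_frac t c
  have hb' : Polynomial.aeval t b ≠ 0 := fun h => hb (Subtype.ext h)
  have hab' : Polynomial.aeval t a = Polynomial.aeval t b * (c : E) := congrArg Subtype.val hab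
  have hp : 0 < p := (Fact.out : p.Prime).pos
  have e : (c : E) = Polynomial.aeval t (a * b ^ (p - 1)) * ((Polynomial.aeval t b)⁻¹) ^ p := by
    rw [map_mul, map_pow, hab']
    obtain ⟨n, rfl⟩ : ∃ n, p = n + 1 := ⟨p - 1, by omega⟩
    rw [Nat.add_sub_cancel, inv_pow]
    field_simp
    ring
  rw [e]
  exact (KerDec.aeval p t _).mul_pow _

/-- every element of a function field `E ⊆ k((q))`, separable over `k(t)`, is `∑_{r<p} c_r^p t^r`. -/
theorem exists_decomp_pow [PerfectField k] (p : ℕ) [Fact p.Prime] [CharP k p]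
    (E : IntermediateField k (LaurentSeries k)) (t : E) (ht : (t : LaurentSeries k).order = -1)
    (hfd : FiniteDimensional (CTV.KT k t) E) (u : E) :
    ∃ c : ℕ → E, u = ∑ r ∈ Finset.range p, t ^ r * c r ^ p := by
  have hE : CharP E p := charP_of_injective_algebraMap (algebraMap k E).injective p
  have hK : CharP (CTV.KT k t) p :=
    (RingHom.charP_iff (CTV.KT k t).subtype (CTV.KT k t).subtype.injective p).mpr hE
  have : ExpChar (CTV.KT k t) p := ExpChar.prime Fact.out
  have hsep : Algebra.IsSeparable (CTV.KT k t) E :=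
    CTV.isSeparable_of_order E.val t ht (Algebra.IsAlgebraic.of_finite _ _)
  have h1 := IntermediateField.adjoin_simple_eq_adjoin_pow_expChar_of_isSeparable' (CTV.KT k t) E u p
  have h2 : u ∈ IntermediateField.adjoin (CTV.KT k t) {u ^ p} := by
    rw [← h1]; exact IntermediateField.mem_adjoin_simple_self _ u
  have hint : IsIntegral (CTV.KT k t) (u ^ p) := Algebra.IsIntegral.isIntegral _
  have h3 : u ∈ (IntermediateField.adjoin (CTV.KT k t) {u ^ p}).toSubalgebra := h2
  rw [IntermediateField.adjoin_simple_toSubalgebra_of_isAlgebraic hint.isAlgebraic,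
    Algebra.adjoin_singleton_eq_range_aeval] at h3
  obtain ⟨P, hP⟩ := h3
  have hP' : Polynomial.aeval (u ^ p) P = u := hP
  show KerDec p t u
  rw [← hP', Polynomial.aeval_eq_sum_range]
  refine KerDec.sum _ _ fun i _ => ?_
  rw [Algebra.smul_def, ← pow_mul, mul_comm p i, pow_mul]
  exact (KerDec.of_KT p t (P.coeff i)).mul_pow _

/-- `θ` as an additive map. -/
def kerThetaHom : LaurentSeries k →+ LaurentSeries k where
  toFun := theta
  map_zero' := CT.theta_zero
  map_add' := CT.theta_add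

/-- **kernel of `θ`.** -/
theorem exists_pow_eq_of_theta_eq_zero [PerfectField k] (p : ℕ) [Fact p.Prime] [CharP k p]
    (E : IntermediateField k (LaurentSeries k)) (t : E) (ht : (t : LaurentSeries k).order = -1)
    (hfd : FiniteDimensional (CTV.KT k t) E) {u : LaurentSeries k} (hu : u ∈ E)
    (hθ : theta u = 0) : ∃ v ∈ E, v ^ p = u := by
  obtain ⟨c, hc⟩ := exists_decomp_pow p E t ht hfd ⟨u, hu⟩
  have hV : CharP (LaurentSeries k) p :=
    (RingHom.charP_iff (HahnSeries.C : k →+* LaurentSeries k) HahnSeries.C_injective p).mp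
      inferInstance
  set τ : LaurentSeries k := (t : LaurentSeries k) with hτ
  have hc' : u = ∑ r ∈ Finset.range p, τ ^ r * (c r : LaurentSeries k) ^ p := by
    have := congrArg (fun z : E => (z : LaurentSeries k)) hc
    simpa using this
  have hτ0 : τ ≠ 0 := by
    intro h
    rw [h, HahnSeries.order_zero] at ht
    omega
  have h1 : theta u = theta τ * τ⁻¹ *
      ∑ r ∈ Finset.range p, τ ^ r * (((r : ℕ) : LaurentSeries k) * (c r : LaurentSeries k)) ^ p := by
    have e : theta u = kerThetaHom u := rfl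
    rw [e, hc', map_sum, Finset.mul_sum]
    refine Finset.sum_congr rfl fun r _ => ?_
    show theta (τ ^ r * (c r : LaurentSeries k) ^ p) = _
    have hfr : ((r : ℕ) : LaurentSeries k) ^ p = ((r : ℕ) : LaurentSeries k) := by
      rw [← frobenius_def, map_natCast]
    rw [CT.theta_mul, CT.theta_pow_char p, mul_zero, add_zero, CT.theta_pow_pred, _root_.mul_pow, hfr]
    rcases Nat.eq_zero_or_pos r with rfl | hr
    · simp
    · obtain ⟨n, rfl⟩ : ∃ n, r = n + 1 := ⟨r - 1, by omega⟩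
      rw [Nat.add_sub_cancel, pow_succ]
      field_simp
  rw [hθ] at h1
  have h2 : ∑ r ∈ Finset.range p,
      τ ^ r * (((r : ℕ) : LaurentSeries k) * (c r : LaurentSeries k)) ^ p = 0 := by
    rcases mul_eq_zero.mp h1.symm with h | h
    · exact (mul_ne_zero (CT.theta_ne_zero_of_order τ ht).1 (inv_ne_zero hτ0) h).elim
    · exact h
  have h3 := CTV.a7_eq_zero_of_sum p ht _ h2
  have hp : 0 < p := (Fact.out : p.Prime).pos
  refine ⟨c 0, (c 0).2, ?_⟩
  rw [hc', Finset.sum_eq_single 0]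
  · simp
  · intro r hr hr0
    have h4 := h3 r hr
    have h5 : ((r : ℕ) : LaurentSeries k) ≠ 0 := by
      rw [Ne, CharP.cast_eq_zero_iff (LaurentSeries k) p r]
      intro hdvd
      have := Nat.le_of_dvd (Nat.pos_of_ne_zero hr0) hdvd
      rw [Finset.mem_range] at hr
      omega
    rw [(mul_eq_zero.mp h4).resolve_left h5, zero_pow hp.ne', mul_zero]
  · intro h
    exact (h (Finset.mem_range.mpr hp)).elim

end Abstract

section Red

variable {K F k Γ₀ : Type*} [Field K] [Field F] [Algebra K F] [Field k]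
  [LinearOrderedCommGroupWithZero Γ₀] {v : Valuation F Γ₀} {ρ : v.integer →+* LaurentSeries k}

/-- there is `t ∈ F̄` with a simple pole at `q = 0`, and `F̄` is finite over `k(t)`. -/
theorem exists_param (hρ : IsRed K v ρ) {x x' : F} (hx : x ∈ v.integer)
    (hx' : x' ∈ v.integer) {m : ℕ} (hm : 0 < m) (hxo : (ρ ⟨x, hx⟩).order = -(m : ℤ))
    (hxo' : (ρ ⟨x', hx'⟩).order = -(m : ℤ) + 1)
    (hSp : Spans K x (fun i : Fin m => x' ^ (i : ℕ))) :
    ∃ t : CTV.Fbar hρ, (t : LaurentSeries k).order = -1 ∧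
      FiniteDimensional (CTV.KT k t) (CTV.Fbar hρ) := by
  set xb : CTV.Fbar hρ := ⟨ρ ⟨x, hx⟩, CTV.rho_mem_Fbar hρ _⟩ with hxb
  set xb' : CTV.Fbar hρ := ⟨ρ ⟨x', hx'⟩, CTV.rho_mem_Fbar hρ _⟩ with hxb'
  have hspan := CTV.hspan_Fbar hρ hx hx' hm hxo hxo' hSp
  have hx0 : ρ ⟨x, hx⟩ ≠ 0 := by
    intro h0
    rw [h0, HahnSeries.order_zero] at hxo
    omega
  obtain ⟨ub, huo, hspan'⟩ : ∃ ub : CTV.Fbar hρ, ((CTV.Fbar hρ).val ub).order = 1 ∧
      ∀ z : CTV.Fbar hρ, ∃ (d : k[X]) (p : Fin m → k[X]), d ≠ 0 ∧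
        aeval xb d * z = ∑ i, aeval xb (p i) * ub ^ (i : ℕ) := by
    by_cases hx0' : ρ ⟨x', hx'⟩ = 0
    · have hm1 : m = 1 := by
        rw [hx0', HahnSeries.order_zero] at hxo'
        omega
      subst hm1
      refine ⟨xb⁻¹, ?_, fun z => ?_⟩
      · have h1 : (CTV.Fbar hρ).val xb⁻¹ = (ρ ⟨x, hx⟩)⁻¹ := rfl
        rw [h1, CTV.w5_order_inv hx0, hxo]
        simp
      · obtain ⟨d, p, hd, h⟩ := hspan z
        refine ⟨d, p, hd, ?_⟩
        rw [Fin.sum_univ_one] at h ⊢
        simpa using h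
    · refine ⟨xb' * xb⁻¹, ?_, hspan⟩
      have h1 : (CTV.Fbar hρ).val (xb' * xb⁻¹) = ρ ⟨x', hx'⟩ * (ρ ⟨x, hx⟩)⁻¹ := rfl
      rw [h1, HahnSeries.order_mul hx0' (inv_ne_zero hx0), CTV.w5_order_inv hx0, hxo, hxo']
      omega
  have hub0 : ((CTV.Fbar hρ).val ub) ≠ 0 := by
    intro h0
    rw [h0, HahnSeries.order_zero] at huo
    omega
  have hto : ((ub⁻¹ : CTV.Fbar hρ) : LaurentSeries k).order = -1 := by
    have h1 : ((ub⁻¹ : CTV.Fbar hρ) : LaurentSeries k) = ((CTV.Fbar hρ).val ub)⁻¹ := rfl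
    rw [h1, CTV.w5_order_inv hub0, huo]
  refine ⟨ub⁻¹, hto, ?_⟩
  refine CTV.finiteDimensional_KT xb ub ub⁻¹ m hspan' ?_ ?_
  · apply CTV.w5_transcendental_subtype
    exact CTV.transcendental_of_order_neg _ (by rw [hxo]; omega)
  · apply CTV.w5_transcendental_subtype
    exact CTV.transcendental_of_order_neg _ (by rw [hto]; omega)

/-- kernel of `θ` on the residue field of a reduction map. -/
theorem exists_pow_eq_of_theta_eq_zero_red [PerfectField k] (p : ℕ) [Fact p.Prime] [CharP k p]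
    (hρ : IsRed K v ρ) {x x' : F} (hx : x ∈ v.integer)
    (hx' : x' ∈ v.integer) {m : ℕ} (hm : 0 < m) (hxo : (ρ ⟨x, hx⟩).order = -(m : ℤ))
    (hxo' : (ρ ⟨x', hx'⟩).order = -(m : ℤ) + 1)
    (hSp : Spans K x (fun i : Fin m => x' ^ (i : ℕ))) {u : LaurentSeries k} (hu : u ∈ CTV.Fbar hρ)
    (hθ : theta u = 0) : ∃ w ∈ CTV.Fbar hρ, w ^ p = u := by
  obtain ⟨t, ht, hfd⟩ := exists_param hρ hx hx' hm hxo hxo' hSp
  exact exists_pow_eq_of_theta_eq_zero p _ t ht hfd hu hθ

end Red

/-- **kernel of `dlog`** on the residue field of level `M`. -/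
theorem exists_pow_eq_of_dlog_eq_zero (M p : ℕ) [NeZero M] (hp : p.Prime)
    (A : ValuationSubring Qb) (hA : A.LiesOverPrime p) {u : LaurentSeries (kA A)} (hu : u ∈ Fb A M)
    (h : dlog u = 0) : ∃ v ∈ Fb A M, v ^ p = u := by
  have : CharP (kA A) p := charP_residueField hp hA
  have : Fact p.Prime := ⟨hp⟩
  have : PerfectField (kA A) := CTV.perfectField_kA hp A hA
  rcases eq_or_ne u 0 with rfl | hu0
  · exact ⟨0, zero_mem _, zero_pow hp.ne_zero⟩
  have hθ : theta u = 0 := by
    rw [dlog] at h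
    exact (mul_eq_zero.mp h).resolve_right (inv_ne_zero hu0)
  exact exists_pow_eq_of_theta_eq_zero_red p (isRed A M) (xF_mem_integer M A) (xF'_mem_integer M A)
    (mX_pos M) (order_rho_xF M A) (order_rho_xF' M A) (spansStatement M) hu hθ

end Fermat.Agent.MR.A
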