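import Fermat.Agent.MR.A.Defs

/-!
# MR / A : `PDiv R p u` can be checked locally at the maximal ideals of `R`.
-/

set_option autoImplicit false

noncomputable section

namespace Fermat.Agent.MR.A

variable {k : Type*} [Field k]

theorem InIJ.zero (R : Subring (LaurentSeries k)) (p : ℕ) (u : LaurentSeries k) : InIJ R p u 0 :=
  ⟨0, Fin.elim0, Fin.elim0, fun i => i.elim0, fun i => i.elim0, by simp⟩

theorem InIJ.add {R : Subring (LaurentSeries k)} {p : ℕ} {u e e' : LaurentSeries k}
    (h : InIJ R p u e) (h' : InIJ R p u e') : InIJ R p u (e + e') := by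
  obtain ⟨n, f, g, hf, hg, he⟩ := h
  obtain ⟨n', f', g', hf', hg', he'⟩ := h'
  refine ⟨n + n', Fin.append f f', Fin.append g g', ?_, ?_, ?_⟩
  · intro i
    refine Fin.addCases (fun j => ?_) (fun j => ?_) i
    · rw [Fin.append_left]; exact hf j
    · rw [Fin.append_right]; exact hf' j
  · intro i
    refine Fin.addCases (fun j => ?_) (fun j => ?_) i
    · rw [Fin.append_left]; exact hg j
    · rw [Fin.append_right]; exact hg' j
  · rw [Fin.sum_univ_add, he, he']
    simp only [Fin.append_left, Fin.append_right]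

theorem InIJ.mul_left {R : Subring (LaurentSeries k)} {p : ℕ} {u e r : LaurentSeries k}
    (hr : r ∈ R) (h : InIJ R p u e) : InIJ R p u (r * e) := by
  obtain ⟨n, f, g, hf, hg, he⟩ := h
  refine ⟨n, fun i => r * f i, g, fun i => ?_, hg, ?_⟩
  · show (r * f i) ^ p * u ∈ R
    rw [mul_pow, mul_assoc]
    exact R.mul_mem (R.pow_mem hr p) (hf i)
  · rw [he, Finset.mul_sum]
    exact Finset.sum_congr rfl fun i _ => (mul_assoc _ _ _).symm

theorem InIJ.of_mul {R : Subring (LaurentSeries k)} {p : ℕ} {u f g : LaurentSeries k}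
    (hf : f ∈ Ju R p u) (hg : g ∈ Iu R p u) : InIJ R p u (f * g) :=
  ⟨1, fun _ => f, fun _ => g, fun _ => hf, fun _ => hg, by simp⟩

/-- the ideal `Iu Ju` of `R`. -/
def idealIJ (R : Subring (LaurentSeries k)) (p : ℕ) (u : LaurentSeries k) : Ideal R where
  carrier := {e | InIJ R p u (e : LaurentSeries k)}
  add_mem' := fun h h' => InIJ.add h h'
  zero_mem' := InIJ.zero R p u
  smul_mem' := fun c _ h => InIJ.mul_left c.2 h

/-- **local criterion**: if at every maximal ideal `𝔪` of `R` the function `u` is a unit times a `p`-th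
power, then the divisor of `u` on `Spec R` is divisible by `p`. -/
theorem pdiv_of_local {R : Subring (LaurentSeries k)} {p : ℕ} (hp : 0 < p) {u : LaurentSeries k}
    (h : ∀ 𝔪 : Ideal R, 𝔪.IsMaximal → ∃ (φ : LaurentSeries k) (s t : R), s ∉ 𝔪 ∧ t ∉ 𝔪 ∧
      φ ^ p * u * (t : LaurentSeries k) = (s : LaurentSeries k)) : PDiv R p u := by
  by_contra hcon
  have hne : idealIJ R p u ≠ ⊤ := by
    intro htop
    have h1 : (1 : R) ∈ idealIJ R p u := by rw [htop]; trivial
    exact hcon h1
  obtain ⟨𝔪, hm, hle⟩ := Ideal.exists_le_maximal _ hne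
  obtain ⟨φ, s, t, hs, ht, hst⟩ := h 𝔪 hm
  have hs0 : (s : LaurentSeries k) ≠ 0 := by
    intro h0
    apply hs
    have : s = 0 := Subtype.ext h0
    rw [this]; exact 𝔪.zero_mem
  have hφ : φ ≠ 0 := by
    rintro rfl
    rw [zero_pow hp.ne', zero_mul, zero_mul] at hst
    exact hs0 hst.symm
  obtain ⟨n, rfl⟩ : ∃ n, p = n + 1 := ⟨p - 1, by omega⟩
  have hf : φ * (t : LaurentSeries k) ∈ Ju R (n + 1) u := by
    show (φ * (t : LaurentSeries k)) ^ (n + 1) * u ∈ R
    have e : (φ * (t : LaurentSeries k)) ^ (n + 1) * u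
        = (φ ^ (n + 1) * u * (t : LaurentSeries k)) * (t : LaurentSeries k) ^ n := by ring
    rw [e, hst]
    exact R.mul_mem s.2 (R.pow_mem t.2 n)
  have hg : φ⁻¹ * (s : LaurentSeries k) ∈ Iu R (n + 1) u := by
    refine ⟨(s : LaurentSeries k) ^ n * (t : LaurentSeries k), R.mul_mem (R.pow_mem s.2 n) t.2, ?_⟩
    have e : u * ((s : LaurentSeries k) ^ n * (t : LaurentSeries k))
        = (φ⁻¹) ^ (n + 1) * (φ ^ (n + 1) * u * (t : LaurentSeries k)) * (s : LaurentSeries k) ^ n := by
      rw [inv_pow]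
      field_simp
    rw [e, hst]
    ring
  have hmem : t * s ∈ idealIJ R (n + 1) u := by
    have := InIJ.of_mul hf hg
    have e : φ * (t : LaurentSeries k) * (φ⁻¹ * (s : LaurentSeries k))
        = (t : LaurentSeries k) * (s : LaurentSeries k) := by
      field_simp
    rw [e] at this
    exact this
  rcases hm.isPrime.mem_or_mem (hle hmem) with h1 | h1
  · exact ht h1
  · exact hs h1

end Fermat.Agent.MR.A
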