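import Fermat.Agent.MR.A.DlogS2
import Fermat.Agent.MR.A.LocalPDiv
import Fermat.Agent.MR.A.Ker
import Fermat.Agent.MR.A.HeckeRed

/-!
# MR / A : **top contract of block (A)**.

`N'` admissible, `p ∤ N'`, `A ∣ p`, `k = kA A`, `κ = Fb A N' ⊆ k((q))` the residue field of the Gauss valuation
of level `N'` (it is also the residue field of level `p N'`: `TOR.T1.exists_rd₀`), `R' = Rb A N'` the elements
of `κ` which are integral over `k[x̄]` (regular outside `∞`).

* `blockA`        : `u ∈ κ` not a `p`-th power, divisor of `u` on `Spec R'` divisible by `p` (`PDiv`)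
                    `⟹ 0 ≠ dlog u ∈ S2b k N' = span_k {psR k fZ | IsCuspExp N' fZ}`.
* `blockA_local`  : the same with the hypothesis checked at the maximal ideals of `R'`.
* Hecke           : `opT_dlog_of_eigen`, `opU_dlog_of_rel` (`HeckeRed.lean`).
-/

set_option autoImplicit false

open ModularCurve AlgebraicCurve Polynomial

noncomputable section

namespace Fermat.Agent.MR.A

open Fermat.Agent.GR Fermat.Agent.GAL Fermat.Agent.GAL.KL Fermat.Agent.GAL.KLB Fermat.Agent.GAL.KLC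

/-- **BLOCK (A).** -/
theorem blockA (N' p : ℕ) [NeZero N'] (hN' : AdmLevel N') (hp : p.Prime) (hpN : ¬ p ∣ N')
    (A : ValuationSubring Qb) (hA : A.LiesOverPrime p) {u : LaurentSeries (kA A)}
    (hu : u ∈ Fb A N') (hdiv : PDiv (Rb A N') p u) (hnp : ¬ ∃ w ∈ Fb A N', w ^ p = u) :
    dlog u ∈ S2b (kA A) N' ∧ dlog u ≠ 0 := by
  have hu0 : u ≠ 0 := by
    rintro rfl
    exact hnp ⟨0, zero_mem _, zero_pow hp.ne_zero⟩
  exact ⟨dlog_mem_S2b N' p hN' hp hpN A hA hu0 hdiv,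
    fun h => hnp (exists_pow_eq_of_dlog_eq_zero N' p hp A hA hu h)⟩

/-- **BLOCK (A)**, local form: at every maximal ideal of `R'`, `u` is a unit times a `p`-th power. -/
theorem blockA_local (N' p : ℕ) [NeZero N'] (hN' : AdmLevel N') (hp : p.Prime) (hpN : ¬ p ∣ N')
    (A : ValuationSubring Qb) (hA : A.LiesOverPrime p) {u : LaurentSeries (kA A)}
    (hu : u ∈ Fb A N')
    (hdiv : ∀ 𝔪 : Ideal (Rb A N'), 𝔪.IsMaximal → ∃ (φ : LaurentSeries (kA A)) (s t : Rb A N'),
      s ∉ 𝔪 ∧ t ∉ 𝔪 ∧ φ ^ p * u * (t : LaurentSeries (kA A)) = (s : LaurentSeries (kA A)))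
    (hnp : ¬ ∃ w ∈ Fb A N', w ^ p = u) :
    dlog u ∈ S2b (kA A) N' ∧ dlog u ≠ 0 :=
  blockA N' p hN' hp hpN A hA hu (pdiv_of_local hp.pos hdiv) hnp

end Fermat.Agent.MR.A
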