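import Fermat.Agent.MR.A.Coeff

/-!
# MR / A : `k((q)) / (R + q k[[q]])` is finite dimensional
-/

set_option autoImplicit false

noncomputable section

namespace Fermat.Agent.MR.A

variable {k : Type*} [Field k]

/-- `R ∩ q k[[q]] = 0`. -/
theorem IsAff.eq_zero {R : Subring (LaurentSeries k)} {g : ℕ} (h : IsAff R g) {φ : LaurentSeries k}
    (hφ : φ ∈ R) (h1 : φ ∈ T k 1) : φ = 0 := by
  obtain ⟨c, rfl⟩ := h.b1 φ hφ (T_anti zero_le_one h1)
  have h0 : (HahnSeries.C c : LaurentSeries k).coeff 0 = 0 := h1 0 zero_lt_one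
  rw [HahnSeries.C_apply, HahnSeries.coeff_single_same] at h0
  rw [h0, map_zero]

/-- the coefficients of index `-n, ..., 0`. -/
private def Quot_c (k : Type*) [Field k] (n : ℕ) : LaurentSeries k →ₗ[k] (Fin (n + 1) → k) where
  toFun φ i := φ.coeff (-(i : ℤ))
  map_add' _ _ := rfl
  map_smul' _ _ := rfl

private theorem Quot_mem_T_one {n : ℕ} {φ : LaurentSeries k} (hφ : φ ∈ T k (-(n : ℤ)))
    (hc : Quot_c k n φ = 0) : φ ∈ T k 1 := by
  intro i hi
  by_cases hin : i < -(n : ℤ)
  · exact hφ i hin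
  · have h1 : (-i).toNat < n + 1 := by omega
    have h2 := congrFun hc ⟨(-i).toNat, h1⟩
    have h3 : (-(((-i).toNat : ℕ) : ℤ)) = i := by omega
    have h4 : φ.coeff (-(((-i).toNat : ℕ) : ℤ)) = 0 := h2
    rwa [h3] at h4

/-- a finite family of series lies in a common `T (-N)`. -/
private theorem Quot_exists_mem_T {ι : Type*} [Finite ι] (x : ι → LaurentSeries k) :
    ∃ N : ℕ, ∀ i, x i ∈ T k (-(N : ℤ)) := by
  classical
  cases nonempty_fintype ι
  choose N hN using fun i => exists_mem_T (x i)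
  refine ⟨Finset.univ.sup N, fun i => T_anti ?_ (hN i)⟩
  have : N i ≤ Finset.univ.sup N := Finset.le_sup (Finset.mem_univ i)
  omega

/-- **(P0)** `H¹(O) = k((q)) / (R + q k[[q]])` is finite dimensional. -/
theorem IsAff.finite_quot {R : Subring (LaurentSeries k)} {g : ℕ} (h : IsAff R g) :
    Module.Finite k (LaurentSeries k ⧸ (sub R h.const ⊔ T k 1)) := by
  classical
  rw [← Module.rank_lt_aleph0_iff]
  refine lt_of_le_of_lt (rank_le (n := g) ?_) (Cardinal.natCast_lt_aleph0)
  intro s hs
  -- representatives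
  choose x hx using fun y : s => Submodule.Quotient.mk_surjective (sub R h.const ⊔ T k 1)
    (y : LaurentSeries k ⧸ (sub R h.const ⊔ T k 1))
  have hxli : LinearIndependent k x := by
    refine LinearIndependent.of_comp (sub R h.const ⊔ T k 1).mkQ ?_
    have : (sub R h.const ⊔ T k 1).mkQ ∘ x =
        fun y : s => (y : LaurentSeries k ⧸ (sub R h.const ⊔ T k 1)) := funext hx
    rw [this]
    exact hs
  obtain ⟨n₀, hn₀⟩ := Quot_exists_mem_T x
  obtain ⟨n, hn, S, hSR, hST, hSfin, hcount⟩ := h.count n₀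
  set X : Submodule k (LaurentSeries k) := Submodule.span k (Set.range x) with hX
  have hXcard : Module.finrank k X = s.card := by
    rw [hX, finrank_span_eq_card hxli, Fintype.card_coe]
  have hXT : X ≤ T k (-(n : ℤ)) := by
    rw [hX, Submodule.span_le]
    rintro _ ⟨y, rfl⟩
    exact T_anti (by omega) (hn₀ y)
  -- `X` meets `R + q k[[q]]` trivially
  have hXW : ∀ a ∈ X, a ∈ sub R h.const ⊔ T k 1 → a = 0 := by
    intro a ha haW
    obtain ⟨c, rfl⟩ := (Submodule.mem_span_range_iff_exists_fun k).1 ha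
    have h0 : ∑ y : s, c y • (y : LaurentSeries k ⧸ (sub R h.const ⊔ T k 1)) = 0 := by
      have h1 := (Submodule.Quotient.mk_eq_zero _).2 haW
      rw [← Submodule.mkQ_apply, map_sum] at h1
      rw [← h1]
      refine Finset.sum_congr rfl fun y _ => ?_
      rw [map_smul, Submodule.mkQ_apply, hx y]
    have h2 := Fintype.linearIndependent_iff.1 hs c h0
    exact Finset.sum_eq_zero fun y _ => by rw [h2 y, zero_smul]
  have hSW : S ≤ sub R h.const ⊔ T k 1 := fun b hb => Submodule.mem_sup_left (hSR b hb)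
  have hdisj : X ⊓ S = ⊥ := by
    rw [eq_bot_iff]
    rintro a ⟨haX, haS⟩
    exact hXW a haX (hSW haS)
  -- the coefficient map is injective on `X + S`
  have hinj : Function.Injective ((Quot_c k n).comp (X ⊔ S).subtype) := by
    rw [← LinearMap.ker_eq_bot, LinearMap.ker_eq_bot']
    rintro ⟨φ, hφ⟩ hc
    have hφT : φ ∈ T k (-(n : ℤ)) := sup_le hXT hST hφ
    have hφ1 : φ ∈ T k 1 := Quot_mem_T_one hφT hc
    obtain ⟨a, ha, b, hb, rfl⟩ := Submodule.mem_sup.1 hφ
    have ha0 : a = 0 := by
      refine hXW a ha ?_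
      have : a = -b + (a + b) := by abel
      rw [this]
      exact Submodule.add_mem_sup ((sub R h.const).neg_mem (hSR b hb)) hφ1
    subst ha0
    rw [zero_add] at hφ1
    have hb0 : b = 0 := h.eq_zero (hSR b hb) hφ1
    subst hb0
    exact Subtype.ext (by simp)
  have hXfin : Module.Finite k X := by
    rw [hX]
    exact Module.Finite.span_of_finite k (Set.finite_range x)
  have h1 := LinearMap.finrank_le_finrank_of_injective hinj
  rw [Module.finrank_fin_fun] at h1
  have h2 := Submodule.finrank_sup_add_finrank_inf_eq X S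
  rw [hdisj, finrank_bot, add_zero, hXcard] at h2
  omega

end Fermat.Agent.MR.A
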