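import Fermat.Agent.MR.A.ResAff
import Fermat.Agent.MR.A.Defs

/-!
# MR / A : the residue theorem for `IsAff R g`, from `ct_mul_theta` (sorry free)

`IsAff R g` implies the two hypotheses of `ct_mul_theta`: `R ∩ q k[[q]] = 0`, and `R` has at most `g` gaps.
-/

set_option autoImplicit false

noncomputable section

namespace Fermat.Agent.MR.A

open Fermat.Agent.GAL

variable {k : Type*} [Field k]

theorem IsAff.resAff_h1 {R : Subring (LaurentSeries k)} {g : ℕ} (h : IsAff R g) :
    ∀ r ∈ R, (∀ i : ℤ, i ≤ 0 → r.coeff i = 0) → r = 0 := by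
  intro r hr h0
  obtain ⟨c, rfl⟩ := h.b1 r hr (fun i hi => h0 i hi.le)
  have := h0 0 le_rfl
  have h2 : (HahnSeries.C c : LaurentSeries k).coeff 0 = c := by simp [HahnSeries.C_apply]
  rw [h2] at this
  rw [this, map_zero]

/-- `n` is a pole order of `R`. -/
def IsPoleOrd (R : Subring (LaurentSeries k)) (n : ℕ) : Prop :=
  ∃ r ∈ R, r.coeff (-(n : ℤ)) = 1 ∧ ∀ i : ℤ, i < -(n : ℤ) → r.coeff i = 0

theorem IsAff.card_gaps_le {R : Subring (LaurentSeries k)} {g : ℕ} (h : IsAff R g) (Γ : Finset ℕ)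
    (hΓ : ∀ n ∈ Γ, ¬ IsPoleOrd R n) : Γ.card ≤ g := by
  classical
  obtain ⟨n, hn, S, hSR, hST, hSf, hcount⟩ := h.count (Γ.sup id)
  have hsub : Γ ⊆ Finset.range (n + 1) := by
    intro s hs
    rw [Finset.mem_range]
    have : id s ≤ Γ.sup id := Finset.le_sup hs
    simp only [id] at this
    omega
  let ψ : S →ₗ[k] ((Finset.range (n + 1) \ Γ : Finset ℕ) → k) :=
    { toFun := fun φ s => (φ : LaurentSeries k).coeff (-((s : ℕ) : ℤ))
      map_add' := fun _ _ => rfl
      map_smul' := fun _ _ => rfl }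
  have hinj : Function.Injective ψ := by
    rw [injective_iff_map_eq_zero]
    intro φ hφ
    by_contra hne
    have hne' : (φ : LaurentSeries k) ≠ 0 := fun h0 => hne (Subtype.ext h0)
    set o := (φ : LaurentSeries k).order with ho
    have hc : (φ : LaurentSeries k).coeff o ≠ 0 := fun h0 =>
      hne' (HahnSeries.coeff_order_eq_zero.mp h0)
    have ho1 : -(n : ℤ) ≤ o := by
      by_contra hlt
      exact hc (hST φ.2 o (not_le.mp hlt))
    have ho2 : o ≤ 0 := by
      by_contra hlt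
      refine hne' (h.resAff_h1 _ (hSR _ φ.2) fun i hi => ?_)
      exact HahnSeries.coeff_eq_zero_of_lt_order (by omega)
    obtain ⟨s0, hs0⟩ : ∃ s0 : ℕ, o = -(s0 : ℤ) := ⟨(-o).toNat, by omega⟩
    have hpole : IsPoleOrd R s0 := by
      refine ⟨HahnSeries.C ((φ : LaurentSeries k).coeff o)⁻¹ * (φ : LaurentSeries k), R.mul_mem (h.const _) (hSR _ φ.2),
        ?_, fun i hi => ?_⟩
      · rw [resAff_coeff_C_mul, ← hs0, inv_mul_cancel₀ hc]
      · have hz : (φ : LaurentSeries k).coeff i = 0 :=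
          HahnSeries.coeff_eq_zero_of_lt_order (by rw [← ho]; omega)
        rw [resAff_coeff_C_mul, hz, mul_zero]
    have hmem : s0 ∈ Finset.range (n + 1) \ Γ := by
      rw [Finset.mem_sdiff, Finset.mem_range]
      exact ⟨by omega, fun hs => hΓ s0 hs hpole⟩
    have := congrFun hφ ⟨s0, hmem⟩
    have h3 : (φ : LaurentSeries k).coeff (-(s0 : ℤ)) = 0 := this
    rw [← hs0] at h3
    exact hc h3
  have h1 := LinearMap.finrank_le_finrank_of_injective hinj
  rw [Module.finrank_fintype_fun_eq_card, Fintype.card_coe, Finset.card_sdiff_of_subset hsub,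
    Finset.card_range] at h1
  have h2 := Finset.card_le_card hsub
  rw [Finset.card_range] at h2
  omega

theorem IsAff.resAff_h2 {R : Subring (LaurentSeries k)} {g : ℕ} (h : IsAff R g) :
    ∃ n0 : ℕ, ∀ n : ℕ, n0 ≤ n → ∃ r ∈ R, r.coeff (-(n : ℤ)) = 1 ∧
      ∀ i : ℤ, i < -(n : ℤ) → r.coeff i = 0 := by
  have hfin : {n : ℕ | ¬ IsPoleOrd R n}.Finite := by
    by_contra hinf
    obtain ⟨Γ, hΓ, hcard⟩ := (Set.not_finite.mp hinf : Set.Infinite _).exists_subset_card_eq (g + 1)
    have := h.card_gaps_le Γ (fun n hn => hΓ hn)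
    omega
  obtain ⟨b, hb⟩ := hfin.bddAbove
  refine ⟨b + 1, fun n hn => ?_⟩
  by_contra hcon
  have : n ≤ b := hb hcon
  omega

/-- **the residue theorem** for `IsAff R g` (same statement as `IsAff.residue`). -/
theorem IsAff.ct_mul_theta {R : Subring (LaurentSeries k)} {g : ℕ} (h : IsAff R g)
    {a b : LaurentSeries k} (ha : a ∈ R) (hb : b ∈ R) : (b * CT.theta a).coeff 0 = 0 :=
  Fermat.Agent.MR.A.ct_mul_theta R h.const h.resAff_h1 h.resAff_h2 hb ha

end Fermat.Agent.MR.A
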