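import Fermat.Agent.MR.A.Quot

/-!
# MR / A : a finite "dual system" for `k((q)) / (R + q^(L+1) k[[q]])`
-/

set_option autoImplicit false

noncomputable section

namespace Fermat.Agent.MR.A

variable {k : Type*} [Field k]

/-- the coefficient functional. -/
def System_cf (k : Type*) [Field k] (n : ℤ) : LaurentSeries k →ₗ[k] k where
  toFun φ := φ.coeff n
  map_add' _ _ := HahnSeries.coeff_add
  map_smul' _ _ := HahnSeries.coeff_smul

theorem System_cf_apply (n : ℤ) (φ : LaurentSeries k) : System_cf k n φ = φ.coeff n := rfl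

/-- truncation: `t - ∑_{j < L} t_{j+1} q^{j+1} ∈ T (L+1)` for `t ∈ T 1`. -/
theorem System_trunc (L : ℕ) {t : LaurentSeries k} (ht : t ∈ T k 1) :
    t - ∑ j : Fin L, t.coeff ((j : ℤ) + 1) • qq k ((j : ℤ) + 1) ∈ T k (L + 1) := by
  classical
  intro n hn
  rw [← System_cf_apply, map_sub, map_sum]
  simp only [map_smul, System_cf_apply, qq, HahnSeries.coeff_single, smul_eq_mul, mul_ite, mul_one,
    mul_zero]
  rcases lt_or_ge n 1 with h1 | h1
  · rw [ht n h1, Finset.sum_eq_zero, sub_zero]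
    intro j _
    rw [if_neg]
    have := j.2
    omega
  · obtain ⟨m, hm⟩ : ∃ m : ℕ, n = (m : ℤ) + 1 := ⟨(n - 1).toNat, by omega⟩
    have hmL : m < L := by omega
    rw [Finset.sum_eq_single (⟨m, hmL⟩ : Fin L)]
    · rw [if_pos hm, ← hm, sub_self]
    · intro j _ hj
      rw [if_neg]
      intro hnj
      apply hj
      apply Fin.ext
      show (j : ℕ) = m
      omega
    · intro hh
      exact absurd (Finset.mem_univ _) hh

/-- **(P1b)** -/
theorem IsAff.exists_system {R : Subring (LaurentSeries k)} {g : ℕ} (h : IsAff R g) (L : ℕ) :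
    ∃ (d : ℕ) (e : Fin d → LaurentSeries k) (ε : Fin d → (LaurentSeries k →ₗ[k] k))
      (E : Fin L → (LaurentSeries k →ₗ[k] k)),
      (∀ i, ∀ r ∈ R, ε i r = 0) ∧ (∀ j, ∀ r ∈ R, E j r = 0) ∧
      (∀ i, ∀ φ ∈ T k 1, ε i φ = 0) ∧ (∀ j, ∀ φ ∈ T k 1, E j φ = φ.coeff ((j : ℤ) + 1)) ∧
      ∀ x : LaurentSeries k, ∃ r ∈ R,
        x - ∑ i, ε i x • e i - ∑ j, E j x • qq k ((j : ℤ) + 1) - r ∈ T k (L + 1) := by
  classical
  set SR := sub R h.const with hSR
  set S := SR ⊔ T k 1 with hS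
  have hfin : Module.Finite k (LaurentSeries k ⧸ S) := h.finite_quot
  let b := Module.finBasis k (LaurentSeries k ⧸ S)
  have hlift : ∀ i, ∃ v, S.mkQ v = b i := fun i => S.mkQ_surjective (b i)
  choose e0 he0 using hlift
  have hRS : ∀ r ∈ R, S.mkQ r = 0 := fun r hr =>
    (Submodule.Quotient.mk_eq_zero S).2 ((le_sup_left : SR ≤ S) hr)
  have hTS : ∀ φ ∈ T k 1, S.mkQ φ = 0 := fun φ hφ =>
    (Submodule.Quotient.mk_eq_zero S).2 ((le_sup_right : T k 1 ≤ S) hφ)
  let ι : T k 1 →ₗ[k] LaurentSeries k ⧸ SR := SR.mkQ ∘ₗ (T k 1).subtype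
  have hι : LinearMap.ker ι = ⊥ := by
    rw [LinearMap.ker_eq_bot']
    intro φ hφ
    have h1 : (φ : LaurentSeries k) ∈ SR := (Submodule.Quotient.mk_eq_zero SR).1 hφ
    exact Subtype.ext (h.eq_zero h1 φ.2)
  obtain ⟨lam, hlam⟩ := ι.exists_leftInverse_of_injective hι
  let τ : LaurentSeries k →ₗ[k] LaurentSeries k := (T k 1).subtype ∘ₗ lam ∘ₗ SR.mkQ
  have hτmem : ∀ x, τ x ∈ T k 1 := fun x => (lam (SR.mkQ x)).2
  have hτR : ∀ r ∈ R, τ r = 0 := by
    intro r hr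
    have h1 : SR.mkQ r = 0 := (Submodule.Quotient.mk_eq_zero SR).2 hr
    show ((lam (SR.mkQ r) : T k 1) : LaurentSeries k) = 0
    rw [h1, map_zero]; rfl
  have hτT : ∀ φ ∈ T k 1, τ φ = φ := by
    intro φ hφ
    have h1 := LinearMap.congr_fun hlam ⟨φ, hφ⟩
    exact congrArg Subtype.val h1
  refine ⟨_, fun i => e0 i - τ (e0 i), fun i => (b.coord i) ∘ₗ S.mkQ,
    fun j => System_cf k ((j : ℤ) + 1) ∘ₗ τ, ?_, ?_, ?_, ?_, ?_⟩
  · intro i r hr
    show b.coord i (S.mkQ r) = 0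
    rw [hRS r hr, map_zero]
  · intro j r hr
    show System_cf k ((j : ℤ) + 1) (τ r) = 0
    rw [hτR r hr, map_zero]
  · intro i φ hφ
    show b.coord i (S.mkQ φ) = 0
    rw [hTS φ hφ, map_zero]
  · intro j φ hφ
    show System_cf k ((j : ℤ) + 1) (τ φ) = _
    rw [hτT φ hφ]; rfl
  · intro x
    set w := x - ∑ i, (b.coord i (S.mkQ x)) • (e0 i - τ (e0 i)) with hw
    have hwS : w ∈ S := by
      rw [← Submodule.Quotient.mk_eq_zero S]
      show S.mkQ w = 0
      rw [hw, map_sub, map_sum]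
      have h1 : ∀ i, S.mkQ ((b.coord i (S.mkQ x)) • (e0 i - τ (e0 i)))
          = b.repr (S.mkQ x) i • b i := by
        intro i
        rw [map_smul, map_sub, he0, hTS _ (hτmem _), sub_zero]; rfl
      rw [Finset.sum_congr rfl (fun i _ => h1 i), b.sum_repr, sub_self]
    obtain ⟨r, hr, t, ht, hrt⟩ := Submodule.mem_sup.1 hwS
    have hτw : τ w = t := by
      rw [← hrt, map_add, hτR r hr, hτT t ht, zero_add]
    have hτx : τ x = t := by
      rw [← hτw, hw, map_sub, map_sum]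
      have h1 : ∀ i, τ ((b.coord i (S.mkQ x)) • (e0 i - τ (e0 i))) = 0 := by
        intro i
        rw [map_smul, map_sub, hτT _ (hτmem _), sub_self, smul_zero]
      rw [Finset.sum_congr rfl (fun i _ => h1 i), Finset.sum_const_zero, sub_zero]
    refine ⟨r, hr, ?_⟩
    have h2 := System_trunc L ht
    have h3 : x - ∑ i, ((b.coord i) ∘ₗ S.mkQ) x • (e0 i - τ (e0 i))
        - ∑ j : Fin L, (System_cf k ((j : ℤ) + 1) ∘ₗ τ) x • qq k ((j : ℤ) + 1) - r
        = t - ∑ j : Fin L, t.coeff ((j : ℤ) + 1) • qq k ((j : ℤ) + 1) := by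
      have h4 : x - ∑ i, ((b.coord i) ∘ₗ S.mkQ) x • (e0 i - τ (e0 i)) = r + t := hrt.symm
      rw [h4]
      have h5 : ∀ j : Fin L, (System_cf k ((j : ℤ) + 1) ∘ₗ τ) x = t.coeff ((j : ℤ) + 1) := by
        intro j
        show System_cf k ((j : ℤ) + 1) (τ x) = _
        rw [hτx]; rfl
      rw [Finset.sum_congr rfl (fun j _ => by rw [h5 j])]
      abel
    rw [h3]
    exact h2

end Fermat.Agent.MR.A
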