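import Fermat.Agent.MR.A.System
import Fermat.Agent.MR.A.CoeffC2

/-!
# MR / A : **the residue theorem** (Tate's linear algebra proof), in any characteristic.

If `R ⊆ k((q))` is a subring containing `k` with `R ∩ q k[[q]] = 0` and `k((q)) / (R + k[[q]])` finite
dimensional, then `Res (b da) = 0` for all `a b ∈ R`.
-/

set_option autoImplicit false

noncomputable section

namespace Fermat.Agent.MR.A

open Fermat.Agent.GAL.CT

variable {k : Type*} [Field k]

/-- the abstract trace identity. -/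
theorem tate_identity {V ι : Type*} [AddCommGroup V] [Module k V] [Fintype ι] (e : ι → V)
    (ε : ι → (V →ₗ[k] k)) (a b : V →ₗ[k] V) (hab : ∀ x, a (b x) = b (a x)) :
    ∑ i, ε i (b (a (e i) - ∑ j, ε j (a (e i)) • e j))
      = ∑ i, ε i (a (b (e i) - ∑ j, ε j (b (e i)) • e j)) := by
  simp only [map_sub, map_sum, map_smul, smul_eq_mul, Finset.sum_sub_distrib]
  congr 1
  · exact Finset.sum_congr rfl fun i _ => by rw [hab]
  · rw [Finset.sum_comm]
    exact Finset.sum_congr rfl fun i _ => Finset.sum_congr rfl fun j _ => mul_comm _ _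

/-- multiplication by `a`, as a `k`-linear map. -/
def mulL (a : LaurentSeries k) : LaurentSeries k →ₗ[k] LaurentSeries k where
  toFun x := a * x
  map_add' := mul_add a
  map_smul' c x := by
    simp only [RingHom.id_apply]
    rw [← HahnSeries.C_mul_eq_smul, ← HahnSeries.C_mul_eq_smul, mul_left_comm]

@[simp] theorem mulL_apply (a x : LaurentSeries k) : mulL a x = a * x := rfl

/-- one side of the trace identity, computed. -/
theorem tate_side {R : Subring (LaurentSeries k)} {N L d : ℕ} (hL : 2 * N ≤ L)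
    (e : Fin d → LaurentSeries k) (ε : Fin d → (LaurentSeries k →ₗ[k] k))
    (E : Fin L → (LaurentSeries k →ₗ[k] k))
    (h1 : ∀ i, ∀ r ∈ R, ε i r = 0) (h2 : ∀ j, ∀ r ∈ R, E j r = 0)
    (h3 : ∀ i, ∀ φ ∈ T k 1, ε i φ = 0) (h4 : ∀ j, ∀ φ ∈ T k 1, E j φ = φ.coeff ((j : ℤ) + 1))
    (h5 : ∀ x : LaurentSeries k, ∃ r ∈ R,
        x - ∑ i, ε i x • e i - ∑ j, E j x • qq k ((j : ℤ) + 1) - r ∈ T k (L + 1))
    {a b : LaurentSeries k} (ha : a ∈ T k (-(N : ℤ))) (hb : b ∈ T k (-(N : ℤ))) (hbR : b ∈ R) :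
    ∑ i : Fin d ⊕ Fin L, (Sum.elim ε E i) (mulL b (mulL a (Sum.elim e (fun j : Fin L => qq k ((j : ℤ) + 1)) i)
      - ∑ j : Fin d ⊕ Fin L, (Sum.elim ε E j) (mulL a (Sum.elim e (fun j : Fin L => qq k ((j : ℤ) + 1)) i))
        • Sum.elim e (fun j : Fin L => qq k ((j : ℤ) + 1)) j)) = SS N a b := by
  have hP : ∀ x : LaurentSeries k, ∃ r ∈ R, ∃ ψ ∈ T k (L + 1),
      x - ∑ j : Fin d ⊕ Fin L, (Sum.elim ε E j) x • Sum.elim e (fun j : Fin L => qq k ((j : ℤ) + 1)) j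
        = r + ψ := by
    intro x
    obtain ⟨r, hr, hx⟩ := h5 x
    refine ⟨r, hr, _, hx, ?_⟩
    rw [Fintype.sum_sum_type]
    simp only [Sum.elim_inl, Sum.elim_inr]
    ring
  have hbψ : ∀ ψ ∈ T k ((L : ℤ) + 1), b * ψ ∈ T k ((L : ℤ) + 1 - N) := by
    intro ψ hψ
    have := mul_mem_T hb hψ
    have e1 : -(N : ℤ) + ((L : ℤ) + 1) = (L : ℤ) + 1 - N := by ring
    rwa [e1] at this
  have hbψ1 : ∀ ψ ∈ T k ((L : ℤ) + 1), b * ψ ∈ T k 1 := fun ψ hψ =>
    T_anti (by have : (2 * N : ℤ) ≤ L := by exact_mod_cast hL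
               omega) (hbψ ψ hψ)
  rw [Fintype.sum_sum_type, ← sum_coeff_mul_yy hL ha hb]
  have hA : ∀ i : Fin d, (Sum.elim ε E (Sum.inl i)) (mulL b (mulL a (Sum.elim e
      (fun j : Fin L => qq k ((j : ℤ) + 1)) (Sum.inl i))
      - ∑ j : Fin d ⊕ Fin L, (Sum.elim ε E j) (mulL a (Sum.elim e (fun j : Fin L => qq k ((j : ℤ) + 1))
        (Sum.inl i))) • Sum.elim e (fun j : Fin L => qq k ((j : ℤ) + 1)) j)) = 0 := by
    intro i
    obtain ⟨r, hr, ψ, hψ, h⟩ := hP (mulL a (Sum.elim e (fun j : Fin L => qq k ((j : ℤ) + 1)) (Sum.inl i)))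
    rw [h, Sum.elim_inl, mulL_apply, mul_add, map_add, h1 i _ (R.mul_mem hbR hr),
      h3 i _ (hbψ1 ψ hψ), add_zero]
  rw [Finset.sum_eq_zero (fun i _ => hA i), zero_add]
  refine Finset.sum_congr rfl fun j _ => ?_
  split_ifs with hj
  · -- explicit
    have hjN : N ≤ (j : ℕ) := by omega
    have haq : a * qq k ((j : ℤ) + 1) ∈ T k 1 := by
      have h0 : qq k ((j : ℤ) + 1) ∈ T k ((j : ℤ) + 1) := by
        intro i hi
        rw [qq, HahnSeries.coeff_single_of_ne hi.ne]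
      refine T_anti ?_ (mul_mem_T ha h0)
      have : (N : ℤ) ≤ j := by exact_mod_cast hjN
      omega
    have hy : mulL a (Sum.elim e (fun j : Fin L => qq k ((j : ℤ) + 1)) (Sum.inr j))
      - ∑ j' : Fin d ⊕ Fin L, (Sum.elim ε E j') (mulL a (Sum.elim e (fun j : Fin L => qq k ((j : ℤ) + 1))
        (Sum.inr j))) • Sum.elim e (fun j : Fin L => qq k ((j : ℤ) + 1)) j' = yy L a j := by
      rw [Fintype.sum_sum_type]
      simp only [Sum.elim_inl, Sum.elim_inr, mulL_apply]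
      rw [Finset.sum_eq_zero (fun i _ => by rw [h3 i _ haq, zero_smul]), zero_add, yy]
      congr 1
      exact Finset.sum_congr rfl fun j' _ => by rw [h4 j' _ haq]
    rw [hy, Sum.elim_inr, mulL_apply, h4 j _ (hbψ1 _ (yy_mem_T ha hjN))]
  · obtain ⟨r, hr, ψ, hψ, h⟩ := hP (mulL a (Sum.elim e (fun j : Fin L => qq k ((j : ℤ) + 1)) (Sum.inr j)))
    rw [h, Sum.elim_inr, mulL_apply, mul_add, map_add, h2 j _ (R.mul_mem hbR hr),
      h4 j _ (hbψ1 ψ hψ), zero_add]
    refine hbψ ψ hψ _ ?_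
    have : ((j : ℕ) : ℤ) + N < L := by exact_mod_cast not_le.mp hj
    omega

/-- **THE RESIDUE THEOREM**: `Res (b da) = 0` for `a b ∈ R`. -/
theorem IsAff.residue {R : Subring (LaurentSeries k)} {g : ℕ} (h : IsAff R g) {a b : LaurentSeries k}
    (ha : a ∈ R) (hb : b ∈ R) : (b * theta a).coeff 0 = 0 := by
  obtain ⟨N₁, hN₁⟩ := exists_mem_T a
  obtain ⟨N₂, hN₂⟩ := exists_mem_T b
  set N := max N₁ N₂ with hN
  have haN : a ∈ T k (-(N : ℤ)) := T_anti (by
    have : (N₁ : ℤ) ≤ N := by exact_mod_cast le_max_left _ _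
    omega) hN₁
  have hbN : b ∈ T k (-(N : ℤ)) := T_anti (by
    have : (N₂ : ℤ) ≤ N := by exact_mod_cast le_max_right _ _
    omega) hN₂
  obtain ⟨d, e, ε, E, h1, h2, h3, h4, h5⟩ := h.exists_system (2 * N)
  have key := tate_identity (Sum.elim e (fun j : Fin (2 * N) => qq k ((j : ℤ) + 1))) (Sum.elim ε E)
    (mulL a) (mulL b) (fun x => by simp only [mulL_apply]; exact mul_left_comm _ _ _)
  rw [tate_side le_rfl e ε E h1 h2 h3 h4 h5 haN hbN hb,
    tate_side le_rfl e ε E h1 h2 h3 h4 h5 hbN haN ha] at key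
  rw [coeff_zero_mul_theta haN hbN, key, sub_self]

end Fermat.Agent.MR.A
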